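import Mathlib

/-!
# S41 (project R), slice R-PD: Poincaré duality on permutation modules

`X` is a finite set with two permutations `s`, `t` with `s² = 1` (no hypothesis on `t`; for
`Γ ≤ PSL₂(ℤ) = ⟨σ⟩ * ⟨τ⟩` of finite index, `X = PSL₂(ℤ) / Γ` with `s`, `t` the actions of `σ = S`
and of `τ = S T`, or of `T`: both normalisations of the Shapiro cocycle are covered).  `V = X → k`, with the operators `σ = pb s`, `τ = pb t`, `υ = σ ∘ τ`
(`pb g f = f ∘ g`) and the standard bilinear form `ip`.

By Shapiro's lemma a homomorphism `x : Γ → k` killing the elliptic and the parabolic elements is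
the same as a class of pairs `(v₁, v₂) ∈ V²` with `(1 - σ) v₁ = (1 - τ) v₂` (this is `Zpar`: the
induced cocycle `x̂` has `x̂(σ) = (σ - 1) v₁`, `x̂(τ) = (τ - 1) v₂`, `x̂(στ) = 0`) modulo the pairs
`(e + f₁, e + f₂)` with `υ e = e`, `σ f₁ = f₁`, `τ f₂ = f₂` (this is `Z0`).

The Poincaré duality pairing is `pair z z' = ip (z.1 - z.2) ((1 - σ) z'.1)`.  We prove that it
vanishes if one argument is in `Z0` (the other in `Zpar`), that `2 * pair z z = 0` on `Zpar`,
and that over a field the left kernel on `Zpar` is exactly `Z0`; hence for `2 ≠ 0` also the right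
kernel.  No hypothesis on `3`.
-/

set_option autoImplicit false
set_option linter.unusedSectionVars false

namespace Fermat.Agent.S41.PD.PermModule

open scoped BigOperators

variable {X : Type*} [Fintype X] {k : Type*}

section Ring

variable [CommRing k]

/-- The standard symmetric bilinear form on `X → k`. -/
def ip : LinearMap.BilinForm k (X → k) :=
  LinearMap.mk₂ k (fun f h => ∑ x, f x * h x)
    (fun f f' h => by simp [add_mul, Finset.sum_add_distrib])
    (fun c f h => by simp [Finset.mul_sum, mul_assoc])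
    (fun f h h' => by simp [mul_add, Finset.sum_add_distrib])
    (fun c f h => by simp [Finset.mul_sum, mul_left_comm])

theorem ip_apply (f h : X → k) : ip f h = ∑ x, f x * h x := rfl

theorem ip_comm (f h : X → k) : ip f h = ip h f := by
  simp only [ip_apply, mul_comm]

theorem ip_isRefl : (ip : LinearMap.BilinForm k (X → k)).IsRefl := fun f h hfh => by
  rw [ip_comm, hfh]

/-- Pull-back of functions along a permutation: `pb g f = f ∘ g`. -/
def pb (g : Equiv.Perm X) : (X → k) →ₗ[k] (X → k) := LinearMap.funLeft k k g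

@[simp] theorem pb_apply (g : Equiv.Perm X) (f : X → k) (x : X) : pb g f x = f (g x) := rfl

theorem ip_pb_pb (g : Equiv.Perm X) (f h : X → k) : ip (pb g f) (pb g h) = ip f h := by
  simp only [ip_apply, pb_apply]
  exact Equiv.sum_comp g (fun x => f x * h x)

theorem pb_pb_inv (g : Equiv.Perm X) (f : X → k) : pb g (pb g⁻¹ f) = f := by
  ext x; simp

theorem pb_inv_pb (g : Equiv.Perm X) (f : X → k) : pb g⁻¹ (pb g f) = f := by
  ext x; simp

theorem ip_pb_left (g : Equiv.Perm X) (f h : X → k) : ip (pb g f) h = ip f (pb g⁻¹ h) := by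
  rw [← ip_pb_pb g f (pb g⁻¹ h), pb_pb_inv]

theorem ip_pb_right (g : Equiv.Perm X) (f h : X → k) : ip f (pb g h) = ip (pb g⁻¹ f) h := by
  rw [← ip_pb_pb g (pb g⁻¹ f) h, pb_pb_inv]

theorem ip_sub_left (a b c : X → k) : ip (a - b) c = ip a c - ip b c :=
  LinearMap.BilinForm.sub_left a b c

theorem ip_sub_right (a b c : X → k) : ip a (b - c) = ip a b - ip a c :=
  LinearMap.BilinForm.sub_right a b c

theorem pb_sub (g : Equiv.Perm X) (a b : X → k) : pb g (a - b) = pb g a - pb g b :=
  map_sub _ a b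

theorem ip_single_right [DecidableEq X] (f : X → k) (x : X) : ip f (Pi.single x 1) = f x := by
  simp [ip_apply, Pi.single_apply]

theorem ip_nondegenerate : (ip : LinearMap.BilinForm k (X → k)).Nondegenerate := by
  classical
  constructor
  · intro f hf
    ext x
    simpa [ip_single_right] using hf (Pi.single x 1)
  · intro f hf
    ext x
    have := hf (Pi.single x 1)
    rw [ip_comm] at this
    simpa [ip_single_right] using this

/-- If `f` is fixed by `g` then `f` is orthogonal to `(1 - g) V`. -/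
theorem ip_sub_pb_of_fixed (g : Equiv.Perm X) (f c : X → k) (hf : pb g f = f) :
    ip f (c - pb g c) = 0 := by
  have h := ip_pb_pb g f c
  rw [hf] at h
  rw [map_sub, h, sub_self]

end Ring

section Model

variable [CommRing k] (s t : Equiv.Perm X)

/-- Normalised parabolic Shapiro data: pairs `(v₁, v₂)` with `(1 - σ) v₁ = (1 - τ) v₂`. -/
def Zpar : Submodule k ((X → k) × (X → k)) where
  carrier := {z | z.1 - pb s z.1 = z.2 - pb t z.2}
  add_mem' := by
    intro a b ha hb
    simp only [Set.mem_ofPred_eq, Prod.fst_add, Prod.snd_add, map_add] at ha hb ⊢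
    rw [add_sub_add_comm, ha, hb, add_sub_add_comm]
  zero_mem' := by simp
  smul_mem' := by
    intro c a ha
    simp only [Set.mem_ofPred_eq, Prod.smul_fst, Prod.smul_snd, map_smul] at ha ⊢
    rw [← smul_sub, ha, smul_sub]

theorem mem_Zpar {z : (X → k) × (X → k)} :
    z ∈ Zpar s t ↔ z.1 - pb s z.1 = z.2 - pb t z.2 := Iff.rfl

/-- The trivial data: `(e + f₁, e + f₂)` with `σ τ e = e`, `σ f₁ = f₁`, `τ f₂ = f₂`. -/
def Z0 : Submodule k ((X → k) × (X → k)) where
  carrier := {z | ∃ e : X → k, pb s (pb t e) = e ∧ pb s (z.1 - e) = z.1 - e ∧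
    pb t (z.2 - e) = z.2 - e}
  add_mem' := by
    rintro a b ⟨e, he, h1, h2⟩ ⟨e', he', h1', h2'⟩
    refine ⟨e + e', by simp only [map_add, he, he'], ?_, ?_⟩
    · have : (a + b).1 - (e + e') = (a.1 - e) + (b.1 - e') := by
        simp only [Prod.fst_add]; abel
      rw [this, map_add, h1, h1']
    · have : (a + b).2 - (e + e') = (a.2 - e) + (b.2 - e') := by
        simp only [Prod.snd_add]; abel
      rw [this, map_add, h2, h2']
  zero_mem' := ⟨0, by simp, by simp, by simp⟩
  smul_mem' := by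
    rintro c a ⟨e, he, h1, h2⟩
    refine ⟨c • e, by simp only [map_smul, he], ?_, ?_⟩
    · have : (c • a).1 - c • e = c • (a.1 - e) := by simp only [Prod.smul_fst, smul_sub]
      rw [this, map_smul, h1]
    · have : (c • a).2 - c • e = c • (a.2 - e) := by simp only [Prod.smul_snd, smul_sub]
      rw [this, map_smul, h2]

theorem mem_Z0 {z : (X → k) × (X → k)} :
    z ∈ Z0 s t ↔ ∃ e : X → k, pb s (pb t e) = e ∧ pb s (z.1 - e) = z.1 - e ∧
      pb t (z.2 - e) = z.2 - e := Iff.rfl

/-- The duality pairing `⟨(v₁, v₂), (c₁, c₂)⟩ = (v₁ - v₂, (1 - σ) c₁)`. -/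
def pair : LinearMap.BilinForm k ((X → k) × (X → k)) :=
  (ip (X := X) (k := k)).compl₁₂ (LinearMap.fst k _ _ - LinearMap.snd k _ _)
    ((LinearMap.id - pb s) ∘ₗ LinearMap.fst k _ _)

theorem pair_apply (z z' : (X → k) × (X → k)) :
    pair s z z' = ip (z.1 - z.2) (z'.1 - pb s z'.1) := rfl

variable {s t}

section Involution

variable (hs : ∀ x, s (s x) = x)
include hs

theorem pb_s_s (f : X → k) : pb s (pb s f) = f := by
  ext x; simp [hs]

theorem inv_eq_of_invol : s⁻¹ = s := by
  ext x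
  rw [Equiv.Perm.inv_eq_iff_eq]
  exact (hs x).symm

theorem ip_pb_s_left (f h : X → k) : ip (pb s f) h = ip f (pb s h) := by
  rw [ip_pb_left, inv_eq_of_invol hs]

/-- For `e` fixed by `σ τ`: `τ e = σ e`. -/
theorem pb_t_eq_pb_s_of_fixed {e : X → k} (he : pb s (pb t e) = e) : pb t e = pb s e := by
  have := congrArg (pb s) he
  rwa [pb_s_s hs] at this

theorem Z0_le_Zpar : (Z0 s t : Submodule k _) ≤ Zpar s t := by
  rintro z ⟨e, he, h1, h2⟩
  rw [mem_Zpar]
  have hte := pb_t_eq_pb_s_of_fixed hs he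
  rw [map_sub] at h1 h2
  have e1 : z.1 - pb s z.1 = e - pb s e := by
    have : pb s z.1 = z.1 - e + pb s e := by rw [← h1]; abel
    rw [this]; abel
  have e2 : z.2 - pb t z.2 = e - pb t e := by
    have : pb t z.2 = z.2 - e + pb t e := by rw [← h2]; abel
    rw [this]; abel
  rw [e1, e2, hte]

/-- The pairing vanishes when the left argument is trivial. -/
theorem pair_eq_zero_of_mem_Z0_left {z z' : (X → k) × (X → k)} (hz : z ∈ Z0 s t)
    (hz' : z' ∈ Zpar s t) : pair s z z' = 0 := by
  obtain ⟨e, -, h1, h2⟩ := hz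
  rw [pair_apply]
  have hd : z.1 - z.2 = (z.1 - e) - (z.2 - e) := by abel
  rw [hd, LinearMap.BilinForm.sub_left, ip_sub_pb_of_fixed s _ _ h1]
  rw [(mem_Zpar s t).1 hz', ip_sub_pb_of_fixed t _ _ h2, sub_zero]

end Involution

section Order

variable (hs : ∀ x, s (s x) = x)
include hs

/-- The pairing vanishes when the right argument is trivial. -/
theorem pair_eq_zero_of_mem_Z0_right {z z' : (X → k) × (X → k)} (hz : z ∈ Zpar s t)
    (hz' : z' ∈ Z0 s t) : pair s z z' = 0 := by
  obtain ⟨e, he, h1, -⟩ := hz'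
  have hte := pb_t_eq_pb_s_of_fixed hs he
  rw [pair_apply]
  rw [pb_sub] at h1
  have e1 : z'.1 - pb s z'.1 = e - pb s e := by
    have : pb s z'.1 = z'.1 - e + pb s e := by rw [← h1]; abel
    rw [this]; abel
  rw [e1]
  -- `w = (1 - σ) v₁ = (1 - τ) v₂`
  have hw := (mem_Zpar s t).1 hz
  obtain ⟨w, hw1⟩ : ∃ w, w = z.1 - pb s z.1 := ⟨_, rfl⟩
  have hw2 : w = z.2 - pb t z.2 := hw1.trans hw
  have hσw : pb s w = -w := by
    rw [hw1, pb_sub, pb_s_s hs]; abel
  have key : ip (pb t⁻¹ w) e = - ip w e := by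
    rw [ip_pb_left, inv_inv, hte, ← ip_pb_s_left hs, hσw, LinearMap.BilinForm.neg_left]
  have httw : pb t⁻¹ w = pb t⁻¹ z.2 - z.2 := by
    rw [hw2, pb_sub, pb_inv_pb]
  rw [httw, ip_sub_left] at key
  have g1 : ip z.1 (e - pb s e) = ip w e := by
    rw [ip_sub_right, ← ip_pb_s_left hs, hw1, ip_sub_left]
  have g2 : ip z.2 (e - pb s e) = ip w e := by
    rw [← hte, ip_sub_right, ip_pb_right]
    linear_combination (-1 : k) * key
  rw [ip_sub_left, g1, g2, sub_self]

/-- The pairing is alternating on `Zpar`, up to the factor `2`. -/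
theorem two_mul_pair_self {z : (X → k) × (X → k)} (hz : z ∈ Zpar s t) :
    2 * pair s z z = 0 := by
  have hw := (mem_Zpar s t).1 hz
  rw [pair_apply]
  -- `(w, w) = 2 (v₁, w)`
  have a1 : ip (z.1 - pb s z.1) (z.1 - pb s z.1) = 2 * ip z.1 (z.1 - pb s z.1) := by
    simp only [ip_sub_left, ip_sub_right, ip_pb_pb, ip_pb_s_left hs z.1 z.1]
    ring
  -- `(w, w) = 2 (v₂, w)`
  have a2 : ip (z.2 - pb t z.2) (z.2 - pb t z.2) = 2 * ip z.2 (z.2 - pb t z.2) := by
    simp only [ip_sub_left, ip_sub_right, ip_pb_pb]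
    rw [ip_comm (pb t z.2) z.2]
    ring
  rw [ip_sub_left, mul_sub, ← a1]
  rw [hw, a2]
  ring

/-- Skew-symmetry on `Zpar`, up to the factor `2`. -/
theorem two_mul_pair_add_swap {z z' : (X → k) × (X → k)} (hz : z ∈ Zpar s t)
    (hz' : z' ∈ Zpar s t) : 2 * (pair s z z' + pair s z' z) = 0 := by
  have h := two_mul_pair_self hs ((Zpar s t).add_mem hz hz')
  have h1 := two_mul_pair_self hs hz
  have h2 := two_mul_pair_self hs hz'
  simp only [map_add, LinearMap.add_apply] at h
  linear_combination h - h1 - h2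

end Order

end Model

section Field

variable {K : Type*} [Field K] {s t : Equiv.Perm X}

/-- The orthogonal of `(1 - g) V` is `V^g`. -/
theorem orthogonal_range_sub (g : Equiv.Perm X) :
    (ip (X := X) (k := K)).orthogonal (LinearMap.range (LinearMap.id - pb (k := K) g))
      = LinearMap.ker (LinearMap.id - pb (k := K) g) := by
  ext m
  rw [LinearMap.BilinForm.mem_orthogonal_iff, LinearMap.mem_ker, LinearMap.sub_apply,
    LinearMap.id_apply]
  constructor
  · intro h
    have h0 : m - pb g⁻¹ m = 0 := by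
      refine ip_nondegenerate.2 _ (fun c => ?_)
      have hc := h (c - pb g c) ⟨c, rfl⟩
      rw [ip_sub_left, ip_pb_left] at hc
      rw [ip_sub_right]
      exact hc
    have h1 := congrArg (pb g) h0
    rw [pb_sub, pb_pb_inv, map_zero] at h1
    rw [sub_eq_zero] at h1 ⊢
    exact h1.symm
  · rintro h n ⟨c, rfl⟩
    show ip (c - pb g c) m = 0
    rw [ip_comm]
    exact ip_sub_pb_of_fixed g m c (sub_eq_zero.1 h).symm

theorem orthogonal_sup_eq (P Q : Submodule K (X → K)) :
    (ip (X := X) (k := K)).orthogonal (P ⊔ Q) = ip.orthogonal P ⊓ ip.orthogonal Q := by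
  apply le_antisymm
  · exact le_inf (LinearMap.BilinForm.orthogonal_le le_sup_left)
      (LinearMap.BilinForm.orthogonal_le le_sup_right)
  · rintro m ⟨hP, hQ⟩ n hn
    obtain ⟨a, ha, b, hb, rfl⟩ := Submodule.mem_sup.1 hn
    show ip (a + b) m = 0
    have h1 : ip a m = 0 := hP a ha
    have h2 : ip b m = 0 := hQ b hb
    rw [LinearMap.BilinForm.add_left, h1, h2, add_zero]

/-- **Left non-degeneracy.** Over a field, an element of `Zpar` that pairs to zero with all of
`Zpar` is trivial. -/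
theorem mem_Z0_of_pair_left_eq_zero (hs : ∀ x, s (s x) = x) {z : (X → K) × (X → K)}
    (hz : z ∈ Zpar s t) (h : ∀ z' ∈ Zpar s t, pair s z z' = 0) : z ∈ Z0 s t := by
  have hnd := ip_nondegenerate (X := X) (k := K)
  have hrefl := ip_isRefl (X := X) (k := K)
  have hA : LinearMap.range (LinearMap.id - pb (k := K) s)
      = ip.orthogonal (LinearMap.ker (LinearMap.id - pb (k := K) s)) := by
    rw [← orthogonal_range_sub, LinearMap.BilinForm.orthogonal_orthogonal hnd hrefl]
  have hB : LinearMap.range (LinearMap.id - pb (k := K) t)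
      = ip.orthogonal (LinearMap.ker (LinearMap.id - pb (k := K) t)) := by
    rw [← orthogonal_range_sub, LinearMap.BilinForm.orthogonal_orthogonal hnd hrefl]
  have hd : z.1 - z.2 ∈ ip.orthogonal (LinearMap.range (LinearMap.id - pb (k := K) s) ⊓
      LinearMap.range (LinearMap.id - pb (k := K) t)) := by
    rintro n ⟨⟨c1, hc1⟩, ⟨c2, hc2⟩⟩
    have h' := h (c1, c2) (by
      rw [mem_Zpar]
      exact hc1.trans hc2.symm)
    rw [pair_apply] at h'
    show ip n (z.1 - z.2) = 0
    rw [ip_comm, ← hc1]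
    exact h'
  rw [hA, hB, ← orthogonal_sup_eq, LinearMap.BilinForm.orthogonal_orthogonal hnd hrefl] at hd
  obtain ⟨f1, hf1, f2, hf2, hsum⟩ := Submodule.mem_sup.1 hd
  rw [LinearMap.mem_ker, LinearMap.sub_apply, LinearMap.id_apply, sub_eq_zero] at hf1 hf2
  -- `e = v₁ - f₁ = v₂ + f₂`
  have he2 : z.1 - f1 = z.2 + f2 := by
    have : z.1 = f1 + f2 + z.2 := by rw [hsum]; abel
    rw [this]; abel
  have hw := (mem_Zpar s t).1 hz
  have hse : pb s (z.1 - f1) = pb t (z.1 - f1) := by
    have e1 : pb s (z.1 - f1) = pb s z.1 - f1 := by rw [pb_sub, ← hf1]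
    have e2 : pb t (z.1 - f1) = pb t z.2 + f2 := by rw [he2, map_add, ← hf2]
    rw [e1, e2]
    have : pb s z.1 = z.1 - (z.2 - pb t z.2) := by rw [← hw]; abel
    rw [this, sub_eq_iff_eq_add] at *
    rw [he2]; abel
  refine ⟨z.1 - f1, ?_, ?_, ?_⟩
  · rw [← hse, pb_s_s hs]
  · rw [sub_sub_cancel, ← hf1]
  · rw [he2, sub_add_cancel_left, map_neg, ← hf2]

/-- **Right non-degeneracy** (`2 ≠ 0`). -/
theorem mem_Z0_of_pair_right_eq_zero (h2 : (2 : K) ≠ 0) (hs : ∀ x, s (s x) = x)
    {z : (X → K) × (X → K)}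
    (hz : z ∈ Zpar s t) (h : ∀ z' ∈ Zpar s t, pair s z' z = 0) : z ∈ Z0 s t := by
  refine mem_Z0_of_pair_left_eq_zero hs hz (fun z' hz' => ?_)
  have h' := two_mul_pair_add_swap hs hz hz'
  rw [h z' hz', add_zero] at h'
  exact (mul_eq_zero.1 h').resolve_left h2

end Field

end Fermat.Agent.S41.PD.PermModule
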