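import Mathlib
import Fermat.Agent.S41.PD.PermModule

/-!
# S41 (project R), slice R-PD: the model pairing over `ℤ` is non-degenerate modulo every prime

Setting of `PermModule` with coefficients `ℤ`, and `⟨s, t⟩` transitive on `X` (in the form: the
only non-empty subset of `X` stable under `s` and `t` is `X`).  Main result
`exists_eq_add_smul_of_dvd_pair`: if `z ∈ Zpar` pairs into `p ℤ` with all of `Zpar`, then
`z ∈ Z0 + p • Zpar`.  (Every prime `p`, including `2` and `3`.)
-/

set_option autoImplicit false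
set_option linter.unusedSectionVars false

namespace Fermat.Agent.S41.PD.PermModuleInt

open scoped BigOperators
open Fermat.Agent.S41.PD.PermModule

variable {X : Type*} [Fintype X] {s t : Equiv.Perm X}

/-! ### total sums -/

theorem sum_sub_pb (g : Equiv.Perm X) (a : X → ℤ) : ∑ x, (a - pb g a) x = 0 := by
  simp only [Pi.sub_apply, pb_apply, Finset.sum_sub_distrib]
  rw [Equiv.sum_comp g a, sub_self]

/-! ### the augmentation ideal -/

section Augmentation

variable [DecidableEq X]

theorem pb_single (g : Equiv.Perm X) (x : X) :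
    pb g (Pi.single (g x) (1 : ℤ)) = Pi.single x 1 := by
  ext y
  simp only [pb_apply, Pi.single_apply, EmbeddingLike.apply_eq_iff_eq]

/-- transitivity of `⟨s, t⟩`, in the form of an induction principle -/
def Trans (s t : Equiv.Perm X) : Prop :=
  ∀ S : Set X, (∀ x ∈ S, s x ∈ S) → (∀ x ∈ S, t x ∈ S) → S.Nonempty → S = Set.univ

theorem single_sub_single_mem (htr : Trans s t) (x y : X) :
    (Pi.single x (1 : ℤ) - Pi.single y 1 : X → ℤ) ∈
      LinearMap.range (LinearMap.id - pb (k := ℤ) s) ⊔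
        LinearMap.range (LinearMap.id - pb (k := ℤ) t) := by
  set D := LinearMap.range (LinearMap.id - pb (k := ℤ) s) ⊔
        LinearMap.range (LinearMap.id - pb (k := ℤ) t) with hD
  have hstep : ∀ (g : Equiv.Perm X),
      LinearMap.range (LinearMap.id - pb (k := ℤ) g) ≤ D → ∀ x,
      (Pi.single x (1 : ℤ) - Pi.single y 1 : X → ℤ) ∈ D →
      (Pi.single (g x) (1 : ℤ) - Pi.single y 1 : X → ℤ) ∈ D := by
    intro g hg x hx
    have h1 : (Pi.single (g x) (1 : ℤ) - Pi.single x 1 : X → ℤ) ∈ D := by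
      apply hg
      refine ⟨Pi.single (g x) 1, ?_⟩
      rw [LinearMap.sub_apply, LinearMap.id_apply, pb_single]
    have := D.add_mem h1 hx
    rwa [sub_add_sub_cancel] at this
  let P : Set X := fun x => (Pi.single x (1 : ℤ) - Pi.single y (1 : ℤ) : X → ℤ) ∈ D
  have hS := htr P
    (fun x hx => hstep s le_sup_left x hx) (fun x hx => hstep t le_sup_right x hx)
    ⟨y, by show (Pi.single y (1 : ℤ) - Pi.single y (1 : ℤ) : X → ℤ) ∈ D; rw [sub_self]; exact D.zero_mem⟩
  have : x ∈ P := by
    rw [hS]; exact Set.mem_univ x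
  exact this

/-- A function of total sum zero lies in `(1 - σ) V + (1 - τ) V`. -/
theorem exists_of_sum_eq_zero [Nonempty X] (htr : Trans s t) (d : X → ℤ) (hd : ∑ x, d x = 0) :
    ∃ a b : X → ℤ, d = (a - pb s a) - (b - pb t b) := by
  obtain ⟨y⟩ := ‹Nonempty X›
  have hmem : d ∈ LinearMap.range (LinearMap.id - pb (k := ℤ) s) ⊔
        LinearMap.range (LinearMap.id - pb (k := ℤ) t) := by
    have hdec : d = ∑ x, d x • (Pi.single x (1 : ℤ) - Pi.single y 1 : X → ℤ) := by
      ext x'
      simp only [Finset.sum_apply, Pi.smul_apply, Pi.sub_apply, Pi.single_apply, smul_eq_mul,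
        mul_sub, Finset.sum_sub_distrib, mul_ite, mul_one, mul_zero, Finset.sum_ite_eq,
        Finset.mem_univ, if_true]
      by_cases hx' : x' = y
      · subst hx'
        simp [hd]
      · simp [hx']
    rw [hdec]
    exact Submodule.sum_mem _ (fun x _ => Submodule.smul_mem _ _ (single_sub_single_mem htr x y))
  obtain ⟨u, ⟨a, rfl⟩, v, ⟨b, rfl⟩, huv⟩ := Submodule.mem_sup.1 hmem
  refine ⟨a, -b, ?_⟩
  rw [← huv]
  simp only [LinearMap.sub_apply, LinearMap.id_apply, map_neg]
  abel

/-- A function invariant under `s` and `t` is constant. -/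
theorem const_of_invariant {A : Type*} (htr : Trans s t) (f : X → A)
    (hfs : ∀ x, f (s x) = f x) (hft : ∀ x, f (t x) = f x) (x y : X) : f x = f y := by
  have hS := htr {x | f x = f y} (fun x hx => (hfs x).trans hx) (fun x hx => (hft x).trans hx)
    ⟨y, rfl⟩
  have : x ∈ {x | f x = f y} := by rw [hS]; exact Set.mem_univ x
  exact this

end Augmentation

/-! ### reduction modulo `p` -/

section ModP

variable (p : ℕ)

/-- reduction modulo `p` -/
def red (f : X → ℤ) : X → ZMod p := fun x => (f x : ZMod p)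

/-- a set-theoretic section of `red` -/
def lft (f : X → ZMod p) : X → ℤ := fun x => ((f x).cast : ℤ)

@[simp] theorem red_apply (f : X → ℤ) (x : X) : red p f x = (f x : ZMod p) := rfl

theorem red_add (f h : X → ℤ) : red p (f + h) = red p f + red p h := by
  ext x; simp

theorem red_sub (f h : X → ℤ) : red p (f - h) = red p f - red p h := by
  ext x; simp

theorem red_pb (g : Equiv.Perm X) (f : X → ℤ) : red p (pb g f) = pb g (red p f) := rfl

theorem lft_pb (g : Equiv.Perm X) (f : X → ZMod p) : lft p (pb g f) = pb g (lft p f) := rfl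

theorem red_lft [NeZero p] (f : X → ZMod p) : red p (lft p f) = f := by
  ext x
  simp only [red_apply, lft]
  exact ZMod.intCast_zmod_cast (f x)

theorem red_smul (f : X → ℤ) : red p ((p : ℤ) • f) = 0 := by
  ext x; simp

theorem exists_eq_smul_of_red_eq_zero {f : X → ℤ} (hf : red p f = 0) :
    ∃ f' : X → ℤ, f = (p : ℤ) • f' := by
  have h : ∀ x, (p : ℤ) ∣ f x := by
    intro x
    have := congrFun hf x
    simpa [ZMod.intCast_zmod_eq_zero_iff_dvd] using this
  choose f' hf' using h
  exact ⟨f', funext fun x => by simp [hf' x]⟩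

theorem cast_ip (f h : X → ℤ) : ((ip f h : ℤ) : ZMod p) = ip (red p f) (red p h) := by
  simp only [ip_apply, Int.cast_sum, Int.cast_mul, red_apply]

/-- reduction of pairs -/
def redP (z : (X → ℤ) × (X → ℤ)) : (X → ZMod p) × (X → ZMod p) := (red p z.1, red p z.2)

theorem cast_pair (z z' : (X → ℤ) × (X → ℤ)) :
    ((pair s z z' : ℤ) : ZMod p) = pair s (redP p z) (redP p z') := by
  rw [pair_apply, pair_apply, cast_ip]
  simp only [redP, red_sub, red_pb]

theorem redP_mem_Zpar {z : (X → ℤ) × (X → ℤ)} (hz : z ∈ Zpar s t) : redP p z ∈ Zpar s t := by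
  rw [mem_Zpar] at hz ⊢
  simp only [redP, ← red_pb, ← red_sub, hz]

variable [Fact p.Prime]

theorem exists_lift_Zpar [DecidableEq X] [Nonempty X] (htr : Trans s t)
    {w : (X → ZMod p) × (X → ZMod p)} (hw : w ∈ Zpar s t) :
    ∃ z : (X → ℤ) × (X → ℤ), z ∈ Zpar s t ∧ redP p z = w := by
  have : NeZero p := ⟨(Fact.out : p.Prime).ne_zero⟩
  rw [mem_Zpar] at hw
  -- the defect of the naive lift
  have hred : red p ((lft p w.1 - pb s (lft p w.1)) - (lft p w.2 - pb t (lft p w.2))) = 0 := by
    simp only [red_sub, red_pb, red_lft, hw, sub_self]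
  obtain ⟨d, hd⟩ := exists_eq_smul_of_red_eq_zero p hred
  have hsum : ∑ x, d x = 0 := by
    have h0 : ∑ x, ((lft p w.1 - pb s (lft p w.1)) - (lft p w.2 - pb t (lft p w.2))) x = 0 := by
      have e1 := sum_sub_pb s (lft p w.1)
      have e2 := sum_sub_pb t (lft p w.2)
      simp only [Pi.sub_apply] at e1 e2 ⊢
      rw [Finset.sum_sub_distrib, e1, e2, sub_self]
    rw [hd] at h0
    simp only [Pi.smul_apply, smul_eq_mul, ← Finset.mul_sum] at h0
    rcases mul_eq_zero.1 h0 with h | h
    · exact absurd (by exact_mod_cast h) (Fact.out : p.Prime).ne_zero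
    · exact h
  obtain ⟨a, b, hab⟩ := exists_of_sum_eq_zero htr d hsum
  refine ⟨(lft p w.1 - (p : ℤ) • a, lft p w.2 - (p : ℤ) • b), ?_, ?_⟩
  · rw [mem_Zpar]
    simp only [pb_sub, map_smul]
    have : (lft p w.1 - pb s (lft p w.1)) - (lft p w.2 - pb t (lft p w.2))
        = (p : ℤ) • ((a - pb s a) - (b - pb t b)) := by rw [hd, hab]
    rw [smul_sub, smul_sub, smul_sub] at this
    rw [sub_eq_sub_iff_add_eq_add] at this ⊢
    rw [sub_add_eq_add_sub, sub_add_eq_add_sub, sub_eq_sub_iff_add_eq_add] at this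
    linear_combination (exp := 1) this
  · simp only [redP, red_sub, red_smul, red_lft, sub_zero]

theorem exists_lift_Z0 {w : (X → ZMod p) × (X → ZMod p)} (hw : w ∈ Z0 s t) :
    ∃ z : (X → ℤ) × (X → ℤ), z ∈ Z0 s t ∧ redP p z = w := by
  have : NeZero p := ⟨(Fact.out : p.Prime).ne_zero⟩
  obtain ⟨e, he, h1, h2⟩ := hw
  refine ⟨(lft p e + lft p (w.1 - e), lft p e + lft p (w.2 - e)), ⟨lft p e, ?_, ?_, ?_⟩, ?_⟩
  · rw [← lft_pb, ← lft_pb, he]
  · rw [add_sub_cancel_left, ← lft_pb, h1]
  · rw [add_sub_cancel_left, ← lft_pb, h2]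
  · simp only [redP, red_add, red_lft, add_sub_cancel]

/-- **Non-degeneracy modulo `p` over `ℤ`.** -/
theorem exists_eq_add_smul_of_dvd_pair [DecidableEq X] [Nonempty X] (hs : ∀ x, s (s x) = x)
    (htr : Trans s t) {z : (X → ℤ) × (X → ℤ)} (hz : z ∈ Zpar s t)
    (h : ∀ z' ∈ Zpar s t, (p : ℤ) ∣ pair s z z') :
    ∃ z0 ∈ Z0 s t, ∃ z1 ∈ Zpar s t, z = z0 + (p : ℤ) • z1 := by
  have hbar : redP p z ∈ Z0 s t := by
    refine mem_Z0_of_pair_left_eq_zero hs (redP_mem_Zpar p hz) (fun w hw => ?_)
    obtain ⟨z', hz', rfl⟩ := exists_lift_Zpar p htr hw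
    rw [← cast_pair, ZMod.intCast_zmod_eq_zero_iff_dvd]
    exact h z' hz'
  obtain ⟨z0, hz0, hz0red⟩ := exists_lift_Z0 p hbar
  have hz0par : z0 ∈ Zpar s t := Z0_le_Zpar hs hz0
  have hr1 : red p (z.1 - z0.1) = 0 := by
    have := congrArg Prod.fst hz0red
    simp only [redP] at this
    rw [red_sub, this, sub_self]
  have hr2 : red p (z.2 - z0.2) = 0 := by
    have := congrArg Prod.snd hz0red
    simp only [redP] at this
    rw [red_sub, this, sub_self]
  obtain ⟨a, ha⟩ := exists_eq_smul_of_red_eq_zero p hr1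
  obtain ⟨b, hb⟩ := exists_eq_smul_of_red_eq_zero p hr2
  refine ⟨z0, hz0, (a, b), ?_, ?_⟩
  · rw [mem_Zpar]
    have hd := (Zpar (k := ℤ) s t).sub_mem hz hz0par
    rw [mem_Zpar] at hd
    simp only [Prod.fst_sub, Prod.snd_sub] at hd
    rw [ha, hb, map_smul, map_smul, ← smul_sub, ← smul_sub] at hd
    have hp : (p : ℤ) ≠ 0 := by exact_mod_cast (Fact.out : p.Prime).ne_zero
    exact smul_right_injective _ hp hd
  · ext x
    · have := congrFun ha x
      simp only [Pi.sub_apply] at this
      simp only [Prod.fst_add, Prod.smul_fst, Pi.add_apply]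
      rw [← this]; ring
    · have := congrFun hb x
      simp only [Pi.sub_apply] at this
      simp only [Prod.snd_add, Prod.smul_snd, Pi.add_apply]
      rw [← this]; ring

end ModP

end Fermat.Agent.S41.PD.PermModuleInt
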