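import Fermat.Agent.S41.PD.Pres

/-!
# PROJECT R (S41), slice R-PD-Cocycle: crossed homomorphisms of `SL(2,ℤ)` from generators

`M` an abelian group with a distributive action of `G = SL(2,ℤ)` on which `-1` acts trivially;
`U := S * T`.  Convention (that of `S21/ParabolicDimAbstract`): a cocycle is `c : G → M` with
`c (g * h) = c g + g • c h`.

* `exists_cocycle` : `wS wU : M` with `wS + S • wS = 0`, `wU + U • wU + U • U • wU = 0` are the
  values at `S`, `U` of a cocycle (Shapiro is onto);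
* `exists_heis` : for cocycles `u u'` (vanishing at `-1`) and an equivariant biadditive product
  `μ`, values `kS kU` satisfying the quadratic / cubic relation extend to `K : G → M` with
  `K (g * h) = K g + g • K h + μ (u g) (g • u' h)` (existence of Heisenberg lifts).

Both are `Pres.exists_hom_of_relations` applied to a group of bijections (affine maps of `M`,
resp. maps `(y, z) ↦ (g • y + u' g, g • z + μ (u g) (g • y) + k)` of `M × M`).
-/

set_option autoImplicit false

open scoped MatrixGroups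
open ModularGroup

namespace Fermat.Agent.S41.PD.Cocycle

open Fermat.Agent.S41.PD.Pres

variable {M : Type*} [AddCommGroup M] [DistribMulAction SL(2, ℤ) M]

/-! ### a subgroup containing `S` and `S * T` is everything -/

theorem mem_of_S_of_ST (K : Subgroup SL(2, ℤ)) (hS : S ∈ K) (hU : S * T ∈ K) (g : SL(2, ℤ)) :
    g ∈ K := by
  have hT : T ∈ K := by
    have : (T : SL(2, ℤ)) = S⁻¹ * (S * T) := by rw [inv_mul_cancel_left]
    rw [this]
    exact K.mul_mem (K.inv_mem hS) hU
  have hle : (⊤ : Subgroup SL(2, ℤ)) ≤ K := by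
    rw [← SpecialLinearGroup.SL2Z_generators, Subgroup.closure_le]
    rintro x (rfl | rfl)
    · exact hS
    · exact hT
  exact hle (Subgroup.mem_top g)

/-! ### affine bijections and cocycles -/

section Affine

/-- the affine bijection `x ↦ g • x + w` -/
def aff (g : SL(2, ℤ)) (w : M) : Equiv.Perm M where
  toFun x := g • x + w
  invFun x := g⁻¹ • (x - w)
  left_inv x := by simp
  right_inv x := by simp

@[simp] theorem aff_apply (g : SL(2, ℤ)) (w x : M) : aff g w x = g • x + w := rfl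

theorem aff_mul (g h : SL(2, ℤ)) (w v : M) : aff g w * aff h v = aff (g * h) (w + g • v) := by
  ext x
  simp only [Equiv.Perm.mul_apply, aff_apply, smul_add, mul_smul]
  abel

theorem aff_one_zero : aff (1 : SL(2, ℤ)) (0 : M) = 1 := by
  ext x
  simp

theorem aff_neg_one_zero (hneg : ∀ m : M, (-1 : SL(2, ℤ)) • m = m) :
    aff (-1 : SL(2, ℤ)) (0 : M) = 1 := by
  ext x
  simp [hneg]

/-- **Shapiro is onto**: values at `S` and `U = S * T` satisfying the two relations extend to a
cocycle. -/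
theorem exists_cocycle (hneg : ∀ m : M, (-1 : SL(2, ℤ)) • m = m) (wS wU : M)
    (hS : wS + S • wS = 0) (hU : wU + (S * T) • wU + (S * T) • (S * T) • wU = 0) :
    ∃ c : SL(2, ℤ) → M, (∀ g h, c (g * h) = c g + g • c h) ∧ c S = wS ∧ c (S * T) = wU := by
  have h2 : (aff S wS) ^ 2 = 1 := by
    rw [pow_two, aff_mul, hS, ← pow_two, S_sq, aff_neg_one_zero hneg]
  have h3 : (aff (S * T) wU) ^ 3 = 1 := by
    rw [pow_succ, pow_two, aff_mul, aff_mul, ← pow_two, ← pow_succ, ST_cube]
    have : wU + (S * T) • wU + (S * T : SL(2, ℤ)) ^ 2 • wU = 0 := by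
      have h4 : (S * T : SL(2, ℤ)) ^ 2 • wU = (S * T) • (S * T) • wU := by
        rw [pow_two, mul_smul]
      rw [h4]; exact hU
    rw [this, aff_neg_one_zero hneg]
  obtain ⟨f, hfS, hfU⟩ := exists_hom_of_relations (aff S wS) (aff (S * T) wU) h2 h3
  -- every `f g` is affine with linear part `g`
  let K : Subgroup SL(2, ℤ) :=
    { carrier := {g | ∃ w : M, f g = aff g w}
      one_mem' := ⟨0, by rw [map_one, aff_one_zero]⟩
      mul_mem' := by
        rintro g h ⟨w, hw⟩ ⟨v, hv⟩
        exact ⟨w + g • v, by rw [map_mul, hw, hv, aff_mul]⟩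
      inv_mem' := by
        rintro g ⟨w, hw⟩
        refine ⟨-(g⁻¹ • w), ?_⟩
        rw [map_inv, hw, inv_eq_iff_eq_inv, eq_comm, inv_eq_iff_mul_eq_one, aff_mul,
          inv_mul_cancel, neg_add_cancel, aff_one_zero] }
  have hK : ∀ g, ∃ w : M, f g = aff g w :=
    fun g => mem_of_S_of_ST K ⟨wS, hfS⟩ ⟨wU, hfU⟩ g
  have hc : ∀ g, f g = aff g (f g 0) := by
    intro g
    obtain ⟨w, hw⟩ := hK g
    rw [hw, aff_apply, smul_zero, zero_add]
  refine ⟨fun g => f g 0, ?_, ?_, ?_⟩
  · intro g h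
    show f (g * h) 0 = f g 0 + g • f h 0
    rw [map_mul, Equiv.Perm.mul_apply]
    conv_lhs => rw [hc g]
    rw [aff_apply, add_comm]
  · show f S 0 = wS
    rw [hfS, aff_apply, smul_zero, zero_add]
  · show f (S * T) 0 = wU
    rw [hfU, aff_apply, smul_zero, zero_add]

end Affine

/-! ### Heisenberg cochains -/

section Heis

variable (μ : M → M → M) (u u' : SL(2, ℤ) → M)

/-- the bijection `(y, z) ↦ (g • y + u' g, g • z + μ (u g) (g • y) + k)` of `M × M` -/
def heis (g : SL(2, ℤ)) (k : M) : Equiv.Perm (M × M) where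
  toFun p := (g • p.1 + u' g, g • p.2 + μ (u g) (g • p.1) + k)
  invFun p := (g⁻¹ • (p.1 - u' g), g⁻¹ • (p.2 - μ (u g) (p.1 - u' g) - k))
  left_inv p := by
    have h1 : g • p.1 + u' g - u' g = g • p.1 := by abel
    have h2 : g • p.2 + μ (u g) (g • p.1) + k - μ (u g) (g • p.1) - k = g • p.2 := by abel
    ext
    · show g⁻¹ • (g • p.1 + u' g - u' g) = p.1
      rw [h1, inv_smul_smul]
    · show g⁻¹ • (g • p.2 + μ (u g) (g • p.1) + k - μ (u g) (g • p.1 + u' g - u' g) - k) = p.2
      rw [h1, h2, inv_smul_smul]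
  right_inv p := by
    have h1 : g • g⁻¹ • (p.1 - u' g) + u' g = p.1 := by rw [smul_inv_smul]; abel
    ext
    · exact h1
    · show g • g⁻¹ • (p.2 - μ (u g) (p.1 - u' g) - k) + μ (u g) (g • g⁻¹ • (p.1 - u' g)) + k = p.2
      rw [smul_inv_smul, smul_inv_smul]
      abel

@[simp] theorem heis_apply (g : SL(2, ℤ)) (k : M) (p : M × M) :
    heis μ u u' g k p = (g • p.1 + u' g, g • p.2 + μ (u g) (g • p.1) + k) := rfl

variable {μ u u'}
variable (hμl : ∀ a b c, μ (a + b) c = μ a c + μ b c)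
  (hμr : ∀ a b c, μ a (b + c) = μ a b + μ a c)
  (hμg : ∀ (g : SL(2, ℤ)) a b, g • μ a b = μ (g • a) (g • b))
  (hu : ∀ g h, u (g * h) = u g + g • u h) (hu' : ∀ g h, u' (g * h) = u' g + g • u' h)

omit [DistribMulAction SL(2, ℤ) M] in
include hμl in
theorem mu_zero_left (b : M) : μ 0 b = 0 := by
  have h := hμl 0 0 b
  rw [add_zero] at h
  exact left_eq_add.mp h

include hμl hμr hμg hu hu' in
theorem heis_mul (g h : SL(2, ℤ)) (k l : M) :
    heis μ u u' g k * heis μ u u' h l
      = heis μ u u' (g * h) (k + g • l + μ (u g) (g • u' h)) := by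
  ext p
  · simp only [Equiv.Perm.mul_apply, heis_apply, smul_add, mul_smul, hu']
    abel
  · simp only [Equiv.Perm.mul_apply, heis_apply, smul_add, mul_smul, hu, hμg, hμl, hμr]
    abel

include hμl in
theorem heis_one_zero (h1 : u 1 = 0) (h1' : u' 1 = 0) : heis μ u u' 1 0 = 1 := by
  ext p
  · simp [h1']
  · simp [h1, mu_zero_left hμl]

include hμl in
theorem heis_neg_one_zero (hneg : ∀ m : M, (-1 : SL(2, ℤ)) • m = m)
    (h1 : u (-1) = 0) (h1' : u' (-1) = 0) : heis μ u u' (-1) 0 = 1 := by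
  ext p
  · simp [h1', hneg]
  · simp [h1, hneg, mu_zero_left hμl]

include hu in
theorem cocycle_one : u 1 = 0 := by
  have h := hu 1 1
  rw [one_mul, one_smul] at h
  exact left_eq_add.mp h

include hμl hμr hμg hu hu' in
/-- **existence of Heisenberg lifts**: for cocycles `u`, `u'` vanishing at `-1`, values `kS`, `kU`
satisfying the quadratic and the cubic relation extend to `K` with
`K (g * h) = K g + g • K h + μ (u g) (g • u' h)`. -/
theorem exists_heis (hneg : ∀ m : M, (-1 : SL(2, ℤ)) • m = m)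
    (h1 : u (-1) = 0) (h1' : u' (-1) = 0) (kS kU : M)
    (hkS : kS + S • kS + μ (u S) (S • u' S) = 0)
    (hkU : kU + (S * T) • (kU + (S * T) • kU + μ (u (S * T)) ((S * T) • u' (S * T)))
      + μ (u (S * T)) ((S * T) • u' ((S * T) * (S * T))) = 0) :
    ∃ K : SL(2, ℤ) → M, (∀ g h, K (g * h) = K g + g • K h + μ (u g) (g • u' h)) ∧
      K S = kS ∧ K (S * T) = kU := by
  have hm := heis_mul hμl hμr hμg hu hu'
  have h2 : (heis μ u u' S kS) ^ 2 = 1 := by
    rw [pow_two, hm, hkS, ← pow_two, S_sq, heis_neg_one_zero hμl hneg h1 h1']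
  have h3 : (heis μ u u' (S * T) kU) ^ 3 = 1 := by
    have e3 : (S * T : SL(2, ℤ)) * ((S * T) * (S * T)) = -1 := by decide
    rw [pow_succ', pow_two, hm, hm, e3, hkU, heis_neg_one_zero hμl hneg h1 h1']
  obtain ⟨f, hfS, hfU⟩ := exists_hom_of_relations (heis μ u u' S kS) (heis μ u u' (S * T) kU) h2 h3
  let K : Subgroup SL(2, ℤ) :=
    { carrier := {g | ∃ k : M, f g = heis μ u u' g k}
      one_mem' := ⟨0, by
        rw [map_one, heis_one_zero hμl (cocycle_one hu) (cocycle_one hu')]⟩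
      mul_mem' := by
        rintro g h ⟨k, hk⟩ ⟨l, hl⟩
        exact ⟨_, by rw [map_mul, hk, hl, hm]⟩
      inv_mem' := by
        rintro g ⟨k, hk⟩
        refine ⟨-(g⁻¹ • k) - μ (u g⁻¹) (g⁻¹ • u' g), ?_⟩
        rw [map_inv, hk, inv_eq_iff_eq_inv, eq_comm, inv_eq_iff_mul_eq_one, hm, inv_mul_cancel]
        have : -(g⁻¹ • k) - μ (u g⁻¹) (g⁻¹ • u' g) + g⁻¹ • k + μ (u g⁻¹) (g⁻¹ • u' g) = 0 := by
          abel
        rw [this, heis_one_zero hμl (cocycle_one hu) (cocycle_one hu')] }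
  have hK : ∀ g, ∃ k : M, f g = heis μ u u' g k :=
    fun g => mem_of_S_of_ST K ⟨kS, hfS⟩ ⟨kU, hfU⟩ g
  have h0 : ∀ b, μ b 0 = 0 := fun b => by
    have h := hμr b 0 0
    rw [add_zero] at h
    exact left_eq_add.mp h
  have hval : ∀ g k, (heis μ u u' g k (0, 0)).2 = k := by
    intro g k
    rw [heis_apply]
    show g • (0 : M) + μ (u g) (g • (0 : M)) + k = k
    rw [smul_zero, h0, zero_add, zero_add]
  have hc : ∀ g, f g = heis μ u u' g (f g (0, 0)).2 := by
    intro g
    obtain ⟨k, hk⟩ := hK g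
    rw [hk, hval]
  refine ⟨fun g => (f g (0, 0)).2, ?_, ?_, ?_⟩
  · intro g h
    show (f (g * h) (0, 0)).2 = (f g (0, 0)).2 + g • (f h (0, 0)).2 + μ (u g) (g • u' h)
    have h4 := hm g h (f g (0, 0)).2 (f h (0, 0)).2
    rw [← hc g, ← hc h, ← map_mul] at h4
    rw [h4, hval]
  · show (f S (0, 0)).2 = kS
    rw [hfS, hval]
  · show (f (S * T) (0, 0)).2 = kU
    rw [hfU, hval]

end Heis

end Fermat.Agent.S41.PD.Cocycle
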