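import Mathlib

/-!
# S41 (project R), slice R-PD: solving `f = a ∘ π - a` on a finite set

For a permutation `π` of a finite set `X` and `f : X → A` (`A` an abelian group) whose sums over
all cycles of `π` vanish, there is `a : X → A` with `f x = a (π x) - a x`.
(No equivariant choice exists integrally: we pick a representative of every cycle.)
-/

set_option autoImplicit false

namespace Fermat.Agent.S41.PD.CycleSum

open scoped BigOperators

variable {X : Type*} [Finite X] {A : Type*} [AddCommGroup A]

theorem exists_sub_eq_of_cycle_sums (π : Equiv.Perm X) (f : X → A)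
    (h : ∀ (x : X) (m : ℕ), 0 < m → (π ^ m) x = x → ∑ i ∈ Finset.range m, f ((π ^ i) x) = 0) :
    ∃ a : X → A, ∀ x, f x = a (π x) - a x := by
  classical
  -- representatives of the cycles
  let st : Setoid X := Equiv.Perm.SameCycle.setoid π
  let ρ : X → X := fun x => Quotient.out (Quotient.mk st x)
  have hρ : ∀ x, Equiv.Perm.SameCycle π (ρ x) x := fun x =>
    Quotient.exact (Quotient.out_eq (Quotient.mk st x))
  have hρπ : ∀ x, ρ (π x) = ρ x := by
    intro x
    have : Quotient.mk st (π x) = Quotient.mk st x :=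
      Quotient.sound (Equiv.Perm.sameCycle_apply_left.2 (Equiv.Perm.SameCycle.refl π x))
    show Quotient.out (Quotient.mk st (π x)) = Quotient.out (Quotient.mk st x)
    rw [this]
  have hex : ∀ x, ∃ i : ℕ, (π ^ i) (ρ x) = x := fun x => (hρ x).exists_nat_pow_eq
  let n : X → ℕ := fun x => Nat.find (hex x)
  have hn : ∀ x, (π ^ n x) (ρ x) = x := fun x => Nat.find_spec (hex x)
  have hmin : ∀ x (i : ℕ), (π ^ i) (ρ x) = x → n x ≤ i := fun x i hi => Nat.find_min' (hex x) hi
  refine ⟨fun x => ∑ i ∈ Finset.range (n x), f ((π ^ i) (ρ x)), fun x => ?_⟩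
  show f x = ∑ i ∈ Finset.range (n (π x)), f ((π ^ i) (ρ (π x)))
    - ∑ i ∈ Finset.range (n x), f ((π ^ i) (ρ x))
  rw [hρπ x]
  have h1 : (π ^ (n x + 1)) (ρ x) = π x := by
    rw [pow_succ', Equiv.Perm.mul_apply, hn x]
  have hle : n (π x) ≤ n x + 1 := by
    have := hmin (π x) (n x + 1) (by rw [hρπ x]; exact h1)
    exact this
  have h2 : (π ^ n (π x)) (ρ x) = π x := by
    have := hn (π x)
    rwa [hρπ x] at this
  rcases Nat.lt_or_ge (n x) (n (π x)) with hlt | hge
  · -- `n (π x) = n x + 1`
    have heq : n (π x) = n x + 1 := le_antisymm hle hlt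
    rw [heq, Finset.sum_range_succ, hn x]
    abel
  · -- wrap around: `n (π x) = 0`
    have h0 : n (π x) = 0 := by
      by_contra hne
      obtain ⟨j, hj⟩ := Nat.exists_eq_succ_of_ne_zero hne
      have h3 : (π ^ j) (ρ x) = x := by
        apply π.injective
        rw [← Equiv.Perm.mul_apply, ← pow_succ', ← Nat.succ_eq_add_one, ← hj, h2]
      have := hmin x j h3
      omega
    rw [h0] at h2
    simp only [pow_zero, Equiv.Perm.one_apply] at h2
    -- `h2 : ρ x = π x`
    have hcyc := h (ρ x) (n x + 1) (Nat.succ_pos _) (by rw [h1, ← h2])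
    rw [Finset.sum_range_succ, hn x] at hcyc
    rw [h0, Finset.sum_range_zero, zero_sub]
    rw [eq_neg_iff_add_eq_zero, add_comm]
    exact hcyc

end Fermat.Agent.S41.PD.CycleSum
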