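import Mathlib
import Fermat.Prelude.Def_ModularCurve_PeriodMap
import Fermat.Agent.S21.ParabolicDimAbstract
import Fermat.Agent.S21.Parabolic
import Fermat.Agent.S41.PD.PermModule
import Fermat.Agent.S41.PD.CycleSum
import Fermat.Agent.S41.PD.Cocycle

/-!
# S41 (project R), slice R-PD: Shapiro's lemma for parabolic homomorphisms

`G = SL(2,ℤ)`, `U = S * T`, `Γ ≤ G`, `Q` a finite left `G`-set with coset data `D` (base point `x₀`
with stabiliser `Γ`, representatives `r`), on which `-1` acts trivially.  `G` acts on `Q → ℤ` by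
`(g • m) x = m (g⁻¹ • x)`.

For `z = (v₁, v₂) ∈ Zpar` (`PermModule`, with `s`, `t` the permutations `x ↦ S⁻¹ • x`,
`x ↦ U⁻¹ • x`) there is a unique cocycle `c` with `c S = S • v₁ - v₁`, `c U = U • v₂ - v₂`, and
`γ ↦ c γ x₀` is a parabolic homomorphism `Γ → ℤ`.  We show: every parabolic homomorphism arises
(`exists_data`), and it is zero iff `z ∈ Z0` (`IsData.eq_zero_iff`).
-/

set_option autoImplicit false
set_option linter.unusedSectionVars false

open scoped MatrixGroups BigOperators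
open ModularGroup

namespace Fermat.Agent.S41.PD.Shapiro

open Fermat.Agent.S21.ParabolicDim (CosetData)
open Fermat.Agent.S41.PD.PermModule
open Fermat.Agent.S41.PD.Pres (S_sq ST_cube)

variable {Q : Type*} [MulAction SL(2, ℤ) Q]

/-- the translation action of `SL(2,ℤ)` on functions: `(g • m) x = m (g⁻¹ • x)` -/
@[reducible] def act (Q : Type*) [MulAction SL(2, ℤ) Q] : DistribMulAction SL(2, ℤ) (Q → ℤ) where
  smul g m := fun x => m (g⁻¹ • x)
  one_smul m := by funext x; show m ((1 : SL(2, ℤ))⁻¹ • x) = m x; rw [inv_one, one_smul]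
  mul_smul g h m := by
    funext x
    show m ((g * h)⁻¹ • x) = m (h⁻¹ • g⁻¹ • x)
    rw [mul_inv_rev, mul_smul]
  smul_zero g := rfl
  smul_add g m m' := rfl

attribute [local instance] act

theorem smul_apply (g : SL(2, ℤ)) (m : Q → ℤ) (x : Q) : (g • m) x = m (g⁻¹ • x) := rfl

/-- the permutation `x ↦ S⁻¹ • x` -/
def sP (Q : Type*) [MulAction SL(2, ℤ) Q] : Equiv.Perm Q := MulAction.toPerm (S⁻¹ : SL(2, ℤ))

/-- the permutation `x ↦ (S * T)⁻¹ • x` -/
def tP (Q : Type*) [MulAction SL(2, ℤ) Q] : Equiv.Perm Q := MulAction.toPerm ((S * T)⁻¹ : SL(2, ℤ))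

theorem pb_sP (m : Q → ℤ) : pb (sP Q) m = S • m := rfl

theorem pb_tP (m : Q → ℤ) : pb (tP Q) m = (S * T) • m := rfl

section Neg

variable (hneg : ∀ x : Q, (-1 : SL(2, ℤ)) • x = x)
include hneg

theorem neg_one_smul_fn (m : Q → ℤ) : (-1 : SL(2, ℤ)) • m = m := by
  funext x
  rw [smul_apply]
  have : ((-1 : SL(2, ℤ)))⁻¹ = -1 := by decide
  rw [this, hneg]

theorem S_smul_S_smul (m : Q → ℤ) : S • S • m = m := by
  rw [← mul_smul, ← pow_two, S_sq, neg_one_smul_fn hneg]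

theorem U_smul_cube (m : Q → ℤ) : (S * T) • (S * T) • (S * T) • m = m := by
  rw [← mul_smul, ← mul_smul, ← pow_two, ← pow_succ, ST_cube, neg_one_smul_fn hneg]

theorem S_U_smul (m : Q → ℤ) : S • (S * T) • m = T • m := by
  rw [← mul_smul, ← mul_assoc, ← pow_two, S_sq]
  have : (-1 * T : SL(2, ℤ)) = T * -1 := by decide
  rw [this, mul_smul, neg_one_smul_fn hneg]

theorem sP_sP (x : Q) : sP Q (sP Q x) = x := by
  show (S⁻¹ : SL(2, ℤ)) • (S⁻¹ : SL(2, ℤ)) • x = x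
  rw [← mul_smul]
  have : (S⁻¹ * S⁻¹ : SL(2, ℤ)) = -1 := by decide
  rw [this, hneg]

end Neg

/-! ### cocycles -/

/-- cocycles `c (g * h) = c g + g • c h` -/
def IsCoc (c : SL(2, ℤ) → (Q → ℤ)) : Prop := ∀ g h, c (g * h) = c g + g • c h

namespace IsCoc

variable {c c' : SL(2, ℤ) → (Q → ℤ)}

theorem one (hc : IsCoc c) : c 1 = 0 := by
  have h := hc 1 1
  rw [one_mul, one_smul] at h
  exact left_eq_add.mp h

theorem inv (hc : IsCoc c) (g : SL(2, ℤ)) : c g⁻¹ = -(g⁻¹ • c g) := by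
  have h := hc g⁻¹ g
  rw [inv_mul_cancel, hc.one] at h
  exact eq_neg_of_add_eq_zero_left h.symm

theorem pow (hc : IsCoc c) (g : SL(2, ℤ)) (n : ℕ) :
    c (g ^ n) = ∑ i ∈ Finset.range n, g ^ i • c g := by
  induction n with
  | zero => simp [hc.one]
  | succ n ih =>
    rw [pow_succ, hc, ih, Finset.sum_range_succ]

theorem add (hc : IsCoc c) (hc' : IsCoc c') : IsCoc (fun g => c g + c' g) := by
  intro g h
  show c (g * h) + c' (g * h) = c g + c' g + g • (c h + c' h)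
  rw [hc, hc', smul_add]; abel

theorem zsmul (hc : IsCoc c) (n : ℤ) : IsCoc (fun g => n • c g) := by
  intro g h
  show n • c (g * h) = n • c g + g • (n • c h)
  rw [hc, smul_add, smul_comm g n]

/-- a cocycle is determined by its values at `S` and `S * T` -/
theorem ext_ST (hc : IsCoc c) (hc' : IsCoc c') (hS : c S = c' S) (hU : c (S * T) = c' (S * T))
    (g : SL(2, ℤ)) : c g = c' g := by
  let K : Subgroup SL(2, ℤ) :=
    { carrier := {g | c g = c' g}
      one_mem' := by show c 1 = c' 1; rw [hc.one, hc'.one]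
      mul_mem' := by
        intro g h hg hh
        show c (g * h) = c' (g * h)
        rw [hc, hc', show c g = c' g from hg, show c h = c' h from hh]
      inv_mem' := by
        intro g hg
        show c g⁻¹ = c' g⁻¹
        rw [hc.inv, hc'.inv, show c g = c' g from hg] }
  exact Cocycle.mem_of_S_of_ST K hS hU g

/-- the coboundary of `e` -/
theorem cob (e : Q → ℤ) : IsCoc (fun g => g • e - e) := by
  intro g h
  show (g * h) • e - e = g • e - e + g • (h • e - e)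
  rw [smul_sub, mul_smul]; abel

end IsCoc

/-! ### the Shapiro cocycle of a homomorphism -/

section Data

variable {Γ : Subgroup SL(2, ℤ)} (D : CosetData Γ Q)

/-- the Shapiro cocycle of a homomorphism -/
def coc (ψ : Additive Γ →+ ℤ) (g : SL(2, ℤ)) : Q → ℤ :=
  fun x => ψ (Additive.ofMul (D.elt g x))

theorem coc_apply (ψ : Additive Γ →+ ℤ) (g : SL(2, ℤ)) (x : Q) :
    coc D ψ g x = ψ (Additive.ofMul (D.elt g x)) := rfl

theorem isCoc_coc (ψ : Additive Γ →+ ℤ) : IsCoc (coc D ψ) := by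
  intro g h
  funext x
  show ψ (Additive.ofMul (D.elt (g * h) x))
    = ψ (Additive.ofMul (D.elt g x)) + ψ (Additive.ofMul (D.elt h (g⁻¹ • x)))
  rw [D.elt_mul, ofMul_mul, map_add]

theorem inv_smul_base (γ : Γ) : ((γ : SL(2, ℤ)))⁻¹ • D.x₀ = D.x₀ := by
  rw [inv_smul_eq_iff]
  exact ((D.mem_iff _).mpr γ.2).symm

/-- evaluation of a cocycle at the base point -/
def homOf (c : SL(2, ℤ) → (Q → ℤ)) (hc : IsCoc c) : Additive Γ →+ ℤ where
  toFun γ := c ((Additive.toMul γ : Γ) : SL(2, ℤ)) D.x₀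
  map_zero' := by
    show c (((1 : Γ)) : SL(2, ℤ)) D.x₀ = 0
    rw [Subgroup.coe_one, hc.one]; rfl
  map_add' γ δ := by
    show c (((Additive.toMul γ * Additive.toMul δ : Γ)) : SL(2, ℤ)) D.x₀
      = c ((Additive.toMul γ : Γ) : SL(2, ℤ)) D.x₀ + c ((Additive.toMul δ : Γ) : SL(2, ℤ)) D.x₀
    rw [Subgroup.coe_mul, hc, Pi.add_apply, smul_apply, inv_smul_base]

theorem homOf_apply (c : SL(2, ℤ) → (Q → ℤ)) (hc : IsCoc c) (γ : Γ) :
    homOf D c hc (Additive.ofMul γ) = c (γ : SL(2, ℤ)) D.x₀ := rfl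

theorem homOf_coc (ψ : Additive Γ →+ ℤ) : homOf D (coc D ψ) (isCoc_coc D ψ) = ψ := by
  ext γ
  show ψ (Additive.ofMul (D.elt ((Additive.toMul γ : Γ) : SL(2, ℤ)) D.x₀)) = ψ γ
  set g : Γ := Additive.toMul γ with hg
  have : D.elt (g : SL(2, ℤ)) D.x₀ = (⟨D.r D.x₀, D.r_x₀_mem⟩ : Γ)⁻¹ * g * ⟨D.r D.x₀, D.r_x₀_mem⟩ := by
    apply Subtype.ext
    simp only [CosetData.elt, inv_smul_base, Subgroup.coe_mul, Subgroup.coe_inv]
  rw [this]
  simp only [ofMul_mul, ofMul_inv, map_add, map_neg]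
  have : Additive.ofMul g = γ := rfl
  rw [this]
  ring

/-- every cocycle is the Shapiro cocycle of its restriction plus a coboundary -/
theorem eq_coc_add_cob (c : SL(2, ℤ) → (Q → ℤ)) (hc : IsCoc c) (g : SL(2, ℤ)) :
    c g = coc D (homOf D c hc) g + (g • (fun x => - c (D.r x) x) - fun x => - c (D.r x) x) := by
  funext x
  show c g x = c (((D.elt g x : Γ)) : SL(2, ℤ)) D.x₀
    + (-c (D.r (g⁻¹ • x)) (g⁻¹ • x) - -c (D.r x) x)
  have h1 : ((D.elt g x : Γ) : SL(2, ℤ)) = (D.r x)⁻¹ * g * D.r (g⁻¹ • x) := rfl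
  rw [h1, hc, hc, hc.inv]
  simp only [Pi.add_apply, Pi.neg_apply, smul_apply, inv_inv, mul_smul, D.r_smul]
  ring

end Data

/-! ### solving `c g = g • a - a` -/

section Solve

variable [Finite Q]

theorem toPerm_inv_pow (g : SL(2, ℤ)) (i : ℕ) (x : Q) :
    ((MulAction.toPerm (g⁻¹ : SL(2, ℤ)) : Equiv.Perm Q) ^ i) x = (g ^ i)⁻¹ • x := by
  induction i generalizing x with
  | zero => simp
  | succ i ih =>
    rw [pow_succ, Equiv.Perm.mul_apply, ih, MulAction.toPerm_apply, ← mul_smul, pow_succ,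
      mul_inv_rev, ← inv_pow, ← pow_succ, ← pow_succ']

theorem exists_smul_sub {c : SL(2, ℤ) → (Q → ℤ)} (hc : IsCoc c) (g : SL(2, ℤ))
    (h : ∀ (x : Q) (m : ℕ), 0 < m → (g ^ m)⁻¹ • x = x → c (g ^ m) x = 0) :
    ∃ a : Q → ℤ, c g = g • a - a := by
  obtain ⟨a, ha⟩ := CycleSum.exists_sub_eq_of_cycle_sums
    (MulAction.toPerm (g⁻¹ : SL(2, ℤ)) : Equiv.Perm Q) (c g) (by
      intro x m hm hx
      rw [toPerm_inv_pow] at hx
      have := h x m hm hx
      rw [hc.pow, Finset.sum_apply] at this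
      rw [← this]
      refine Finset.sum_congr rfl (fun i _ => ?_)
      rw [toPerm_inv_pow, smul_apply])
  refine ⟨a, funext fun x => ?_⟩
  rw [ha x]
  rfl

end Solve

/-! ### the dictionary -/

section Main

variable [Fintype Q] {Γ : Subgroup SL(2, ℤ)} (D : CosetData Γ Q)

/-- `ψ` is the homomorphism with data `z = (v₁, v₂)`: the cocycle with `c S = S • v₁ - v₁`,
`c (S * T) = (S * T) • v₂ - v₂` restricts to `ψ` at the base point. -/
def IsData (ψ : Additive Γ →+ ℤ) (z : (Q → ℤ) × (Q → ℤ)) : Prop :=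
  ∃ c : SL(2, ℤ) → (Q → ℤ), IsCoc c ∧ c S = S • z.1 - z.1 ∧ c (S * T) = (S * T) • z.2 - z.2 ∧
    ∀ γ : Γ, c (γ : SL(2, ℤ)) D.x₀ = ψ (Additive.ofMul γ)

variable {D}

theorem IsData.unique {ψ ψ' : Additive Γ →+ ℤ} {z : (Q → ℤ) × (Q → ℤ)} (h : IsData D ψ z)
    (h' : IsData D ψ' z) : ψ = ψ' := by
  obtain ⟨c, hc, hS, hU, hψ⟩ := h
  obtain ⟨c', hc', hS', hU', hψ'⟩ := h'
  ext γ
  show ψ (Additive.ofMul (Additive.toMul γ)) = ψ' (Additive.ofMul (Additive.toMul γ))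
  rw [← hψ, ← hψ', hc.ext_ST hc' (hS.trans hS'.symm) (hU.trans hU'.symm)]

theorem IsData.add {ψ ψ' : Additive Γ →+ ℤ} {z z' : (Q → ℤ) × (Q → ℤ)} (h : IsData D ψ z)
    (h' : IsData D ψ' z') : IsData D (ψ + ψ') (z + z') := by
  obtain ⟨c, hc, hS, hU, hψ⟩ := h
  obtain ⟨c', hc', hS', hU', hψ'⟩ := h'
  refine ⟨fun g => c g + c' g, hc.add hc', ?_, ?_, fun γ => ?_⟩
  · show c S + c' S = S • (z.1 + z'.1) - (z.1 + z'.1)
    rw [hS, hS', smul_add]; abel
  · show c (S * T) + c' (S * T) = (S * T) • (z.2 + z'.2) - (z.2 + z'.2)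
    rw [hU, hU', smul_add]; abel
  · show c (γ : SL(2, ℤ)) D.x₀ + c' (γ : SL(2, ℤ)) D.x₀ = ψ (Additive.ofMul γ) + ψ' (Additive.ofMul γ)
    rw [hψ, hψ']

theorem IsData.zsmul {ψ : Additive Γ →+ ℤ} {z : (Q → ℤ) × (Q → ℤ)} (h : IsData D ψ z) (n : ℤ) :
    IsData D (n • ψ) (n • z) := by
  obtain ⟨c, hc, hS, hU, hψ⟩ := h
  refine ⟨fun g => n • c g, hc.zsmul n, ?_, ?_, fun γ => ?_⟩
  · show n • c S = S • (n • z.1) - n • z.1
    rw [hS, smul_sub, smul_comm S n]
  · show n • c (S * T) = (S * T) • (n • z.2) - n • z.2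
    rw [hU, smul_sub, smul_comm (S * T) n]
  · show n • c (γ : SL(2, ℤ)) D.x₀ = n • ψ (Additive.ofMul γ)
    rw [hψ]

section Neg

variable (hneg : ∀ x : Q, (-1 : SL(2, ℤ)) • x = x)
include hneg

/-- every pair is the data of a homomorphism (existence of cocycles, `Cocycle.exists_cocycle`) -/
theorem exists_isData (z : (Q → ℤ) × (Q → ℤ)) : ∃ ψ : Additive Γ →+ ℤ, IsData D ψ z := by
  obtain ⟨c, hc, hS, hU⟩ := Cocycle.exists_cocycle (M := Q → ℤ) (neg_one_smul_fn hneg)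
    (S • z.1 - z.1) ((S * T) • z.2 - z.2)
    (by rw [smul_sub, S_smul_S_smul hneg]; abel)
    (by simp only [smul_sub, U_smul_cube hneg]; abel)
  exact ⟨homOf D c hc, c, hc, hS, hU, fun γ => rfl⟩

variable {ψ : Additive Γ →+ ℤ} {z : (Q → ℤ) × (Q → ℤ)}

omit hneg in
/-- for `z ∈ Zpar` the cocycle vanishes at `T` -/
theorem cT_eq_zero {c : SL(2, ℤ) → (Q → ℤ)} (hc : IsCoc c) (hS : c S = S • z.1 - z.1)
    (hU : c (S * T) = (S * T) • z.2 - z.2) (hz : z ∈ Zpar (sP Q) (tP Q)) : c T = 0 := by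
  rw [mem_Zpar, pb_sP, pb_tP] at hz
  have hT : (T : SL(2, ℤ)) = S⁻¹ * (S * T) := by rw [inv_mul_cancel_left]
  rw [hT, hc, hc.inv, hS, hU, ← smul_neg, ← smul_add]
  have : -(S • z.1 - z.1) + ((S * T) • z.2 - z.2) = 0 := by
    rw [neg_sub, hz]; abel
  rw [this, smul_zero]

omit hneg in
theorem c_zpow_eq_zero {c : SL(2, ℤ) → (Q → ℤ)} (hc : IsCoc c) {g : SL(2, ℤ)} (hg : c g = 0)
    (k : ℤ) : c (g ^ k) = 0 := by
  have hnat : ∀ n : ℕ, c (g ^ n) = 0 := by
    intro n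
    rw [hc.pow, hg]
    simp
  obtain ⟨n, rfl | rfl⟩ := k.eq_nat_or_neg
  · rw [zpow_natCast]; exact hnat n
  · rw [zpow_neg, zpow_natCast, hc.inv, hnat n, smul_zero, neg_zero]

theorem c_neg_one {c : SL(2, ℤ) → (Q → ℤ)} (hc : IsCoc c) (hS : c S = S • z.1 - z.1) :
    c (-1) = 0 := by
  rw [← S_sq, pow_two, hc, hS, smul_sub, S_smul_S_smul hneg]; abel

theorem c_neg {c : SL(2, ℤ) → (Q → ℤ)} (hc : IsCoc c) (hS : c S = S • z.1 - z.1)
    (g : SL(2, ℤ)) : c (-g) = c g := by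
  have : -g = -1 * g := by rw [neg_one_mul]
  rw [this, hc, c_neg_one hneg hc hS, zero_add, neg_one_smul_fn hneg]

/-- a homomorphism with data in `Zpar` is parabolic -/
theorem IsData.isParabolicHom (h : IsData D ψ z) (hz : z ∈ Zpar (sP Q) (tP Q)) :
    ModularCurve.Period.IsParabolicHom Γ ψ := by
  obtain ⟨c, hc, hS, hU, hψ⟩ := h
  intro γ hγ
  rw [← hψ]
  obtain ⟨δ, k, hk⟩ := Fermat.Agent.S21.Parabolic.exists_conj_T_zpow (γ : SL(2, ℤ)) hγ
  have hTk : c (T ^ k) = 0 := c_zpow_eq_zero hc (cT_eq_zero hc hS hU hz) k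
  -- the conjugate `γ' = δ T^k δ⁻¹` fixes the base point and `c γ = c γ'`
  have hconj : c (δ * T ^ k * δ⁻¹) = c δ - (δ * T ^ k * δ⁻¹) • c δ := by
    rw [hc, hc, hTk, hc.inv, smul_zero, add_zero, smul_neg, ← mul_smul, sub_eq_add_neg]
  have hfix : ∀ γ' : SL(2, ℤ), (γ : SL(2, ℤ)) = γ' ∨ (γ : SL(2, ℤ)) = -γ' → γ'⁻¹ • D.x₀ = D.x₀ := by
    intro γ' h'
    have h0 := inv_smul_base D γ
    rcases h' with h' | h'
    · rwa [h'] at h0
    · rw [h'] at h0
      have : (-γ')⁻¹ = -1 * γ'⁻¹ := by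
        rw [neg_one_mul]
        exact (Matrix.SpecialLinearGroup.ext_iff _ _).2 (fun i j => by
          simp [Matrix.SpecialLinearGroup.coe_inv, Matrix.adjugate_fin_two])
      rw [this, mul_smul, hneg] at h0
      exact h0
  have hval : c (δ * T ^ k * δ⁻¹) D.x₀ = 0 := by
    rw [hconj, Pi.sub_apply, smul_apply, hfix _ hk, sub_self]
  rcases hk with hk | hk
  · rw [hk, hval]
  · rw [hk, c_neg hneg hc hS, hval]

/-- the homomorphism is zero iff the data are trivial -/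
theorem IsData.eq_zero_iff (h : IsData D ψ z) (hz : z ∈ Zpar (sP Q) (tP Q)) :
    ψ = 0 ↔ z ∈ Z0 (sP Q) (tP Q) := by
  obtain ⟨c, hc, hS, hU, hψ⟩ := h
  have hhom : homOf D c hc = ψ := by
    ext γ
    exact hψ (Additive.toMul γ)
  constructor
  · rintro rfl
    obtain ⟨e, he⟩ : ∃ e : Q → ℤ, ∀ g, c g = g • e - e := by
      refine ⟨fun x => - c (D.r x) x, fun g => ?_⟩
      have := eq_coc_add_cob D c hc g
      rw [hhom] at this
      have h0 : coc D (0 : Additive Γ →+ ℤ) g = 0 := by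
        funext x; rfl
      rw [h0, zero_add] at this
      exact this
    refine ⟨e, ?_, ?_, ?_⟩
    · rw [pb_tP, pb_sP, S_U_smul hneg]
      have := cT_eq_zero hc hS hU hz
      rw [he, sub_eq_zero] at this
      exact this
    · rw [pb_sP, smul_sub]
      have := hS
      rw [he] at this
      linear_combination -this
    · rw [pb_tP, smul_sub]
      have := hU
      rw [he] at this
      linear_combination -this
  · rintro ⟨e, -, h1, h2⟩
    rw [pb_sP, smul_sub] at h1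
    rw [pb_tP, smul_sub] at h2
    have hcob := IsCoc.cob (Q := Q) e
    have hce : ∀ g, c g = g • e - e := by
      intro g
      refine hc.ext_ST hcob ?_ ?_ g
      · rw [hS]
        show S • z.1 - z.1 = S • e - e
        linear_combination h1
      · rw [hU]
        show (S * T) • z.2 - z.2 = (S * T) • e - e
        linear_combination h2
    ext γ
    show ψ (Additive.ofMul (Additive.toMul γ)) = 0
    rw [← hψ, hce, Pi.sub_apply, smul_apply, inv_smul_base, sub_self]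

end Neg

/-! ### every parabolic homomorphism has data in `Zpar` -/

omit [Fintype Q] in
theorem elt_of_fixed (g : SL(2, ℤ)) (x : Q) (hx : g⁻¹ • x = x) :
    ((D.elt g x : Γ) : SL(2, ℤ)) = (D.r x)⁻¹ * g * D.r x := by
  simp only [CosetData.elt, hx]

omit [Fintype Q] in
theorem hom_eq_zero_of_pow_eq_one (ψ : Additive Γ →+ ℤ) (γ : Γ) (n : ℕ) (hn : 0 < n)
    (h : γ ^ n = 1) : ψ (Additive.ofMul γ) = 0 := by
  have h1 : n • ψ (Additive.ofMul γ) = 0 := by
    rw [← map_nsmul, ← ofMul_pow, h, ofMul_one, map_zero]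
  rw [nsmul_eq_mul] at h1
  rcases mul_eq_zero.1 h1 with h2 | h2
  · exact absurd (by exact_mod_cast h2) hn.ne'
  · exact h2

theorem trace_conj_inv (A B : SL(2, ℤ)) :
    ((A⁻¹ * B * A : SL(2, ℤ)) : Matrix (Fin 2) (Fin 2) ℤ).trace
      = (B : Matrix (Fin 2) (Fin 2) ℤ).trace := by
  have h1 : ((A⁻¹ * B * A : SL(2, ℤ)) : Matrix (Fin 2) (Fin 2) ℤ)
      = (A⁻¹ : SL(2, ℤ)).1 * (B.1 * A.1) := by
    rw [mul_assoc]; simp [Matrix.SpecialLinearGroup.coe_mul]
  rw [h1, Matrix.trace_mul_comm, Matrix.mul_assoc]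
  have h2 : A.1 * (A⁻¹ : SL(2, ℤ)).1 = 1 := by
    rw [← Matrix.SpecialLinearGroup.coe_mul, mul_inv_cancel, Matrix.SpecialLinearGroup.coe_one]
  rw [h2, Matrix.mul_one]

theorem trace_T_pow (m : ℕ) : ((T ^ m : SL(2, ℤ)) : Matrix (Fin 2) (Fin 2) ℤ).trace = 2 := by
  rw [← zpow_natCast, coe_T_zpow]
  simp [Matrix.trace_fin_two]

theorem conj_inv_pow (r g : SL(2, ℤ)) (n : ℕ) : (r⁻¹ * g * r) ^ n = r⁻¹ * g ^ n * r := by
  have := conj_pow (a := r⁻¹) (b := g) (i := n)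
  rwa [inv_inv] at this

theorem S_pow_four : (S : SL(2, ℤ)) ^ 4 = 1 := by decide

theorem U_pow_six : (S * T : SL(2, ℤ)) ^ 6 = 1 := by decide

omit [Fintype Q] in
theorem IsCoc.sub_cob {c : SL(2, ℤ) → (Q → ℤ)} (hc : IsCoc c) (e : Q → ℤ) :
    IsCoc (fun g => c g - (g • e - e)) := by
  intro g h
  show c (g * h) - ((g * h) • e - e) = c g - (g • e - e) + g • (c h - (h • e - e))
  rw [hc, smul_sub, smul_sub, mul_smul]; abel

variable {ψ : Additive Γ →+ ℤ}

theorem exists_data (hψ : ModularCurve.Period.IsParabolicHom Γ ψ) :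
    ∃ z ∈ Zpar (sP Q) (tP Q), IsData D ψ z := by
  have hc := isCoc_coc D ψ
  -- normalise at `T`
  obtain ⟨e, he⟩ := exists_smul_sub hc T (fun x m _ hx => by
    rw [coc_apply]
    apply hψ
    rw [elt_of_fixed _ x hx, trace_conj_inv, trace_T_pow]
    norm_num)
  obtain ⟨c', hc'def⟩ : ∃ c' : SL(2, ℤ) → (Q → ℤ), ∀ g, c' g = coc D ψ g - (g • e - e) :=
    ⟨_, fun _ => rfl⟩
  have hc' : IsCoc c' := by
    have := hc.sub_cob e
    intro g h
    rw [hc'def, hc'def, hc'def]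
    exact this g h
  have hc'T : c' T = 0 := by
    rw [hc'def, he, sub_self]
  -- a torsion element of `Γ` is killed
  have htors : ∀ (g : SL(2, ℤ)) (n : ℕ), 0 < n → g ^ n = 1 → ∀ (x : Q) (m : ℕ),
      (g ^ m)⁻¹ • x = x → c' (g ^ m) x = 0 := by
    intro g n hn hgn x m hx
    rw [hc'def, Pi.sub_apply, Pi.sub_apply, smul_apply, hx, sub_self, sub_zero, coc_apply]
    apply hom_eq_zero_of_pow_eq_one ψ _ n hn
    apply Subtype.ext
    rw [Subgroup.coe_pow, elt_of_fixed _ x hx, conj_inv_pow, ← pow_mul, mul_comm, pow_mul, hgn,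
      one_pow, mul_one, inv_mul_cancel]
    rfl
  obtain ⟨v1, hv1⟩ := exists_smul_sub hc' S (fun x m _ hx => htors S 4 (by norm_num) S_pow_four x m hx)
  obtain ⟨v2, hv2⟩ := exists_smul_sub hc' (S * T)
    (fun x m _ hx => htors (S * T) 6 (by norm_num) U_pow_six x m hx)
  refine ⟨(v1, v2), ?_, c', hc', hv1, hv2, fun γ => ?_⟩
  · rw [mem_Zpar, pb_sP, pb_tP]
    have hT : (T : SL(2, ℤ)) = S⁻¹ * (S * T) := by rw [inv_mul_cancel_left]
    rw [hT, hc', hc'.inv, hv1, hv2, ← smul_neg, ← smul_add] at hc'T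
    have h0 := congrArg (fun m => S • m) hc'T
    simp only [smul_inv_smul, smul_zero] at h0
    show v1 - S • v1 = v2 - (S * T) • v2
    linear_combination h0
  · rw [hc'def, Pi.sub_apply, Pi.sub_apply, smul_apply, inv_smul_base, sub_self, sub_zero]
    exact congrFun (congrArg DFunLike.coe (homOf_coc D ψ)) (Additive.ofMul γ)

end Main

end Fermat.Agent.S41.PD.Shapiro
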