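import Mathlib
import Fermat.Agent.S41.PD.Shapiro
import Fermat.Agent.S41.PD.PermModuleInt

/-!
# S41 (project R), slice R-PD (PD3b): the Poincaré duality form on `parabolicHoms ℤ Γ ℤ`

`Γ ≤ SL(2,ℤ)`, `Q` a finite left `SL(2,ℤ)`-set with coset data `D` (S21 `ParabolicDim.CosetData`),
`-1` acting trivially on `Q`.  With `M = parabolicHoms ℤ Γ ℤ`:

* `trans_sP_tP` : `⟨sP Q, tP Q⟩` is transitive on `Q`;
* `theta D hneg : Zpar (sP Q) (tP Q) →ₗ[ℤ] M`, surjective, with kernel `Z0`;
* `form D hneg : M →ₗ[ℤ] M →ₗ[ℤ] ℤ` with `form (theta z) (theta z') = pair (sP Q) z z'`;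
* `Module.Finite ℤ M`, `Module.Free ℤ M`;
* `form_nondeg_mod` : for every prime `p`, `(∀ z, p ∣ form w z) → ∃ y, w = p • y`;
* `form_injective`, `form_perfect` : the form is unimodular
  (`∀ φ : M →ₗ[ℤ] ℤ, ∃ k, ∀ y, φ y = form k y`).

The last step is the generic statement `exists_rep_of_nondeg_mod` on finite free `ℤ`-modules.
-/

set_option autoImplicit false
set_option linter.unusedSectionVars false

open scoped MatrixGroups BigOperators
open ModularGroup

namespace Fermat.Agent.S41.PD.Form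

open Fermat.Agent.S21.ParabolicDim (CosetData)
open Fermat.Agent.S41.PD.PermModule Fermat.Agent.S41.PD.PermModuleInt
open Fermat.Agent.S41.PD.Shapiro
open ModularCurve.Period

/-! ### Generic algebra: non-degenerate modulo every prime implies unimodular -/

section Generic

variable {L : Type*} [AddCommGroup L]

/-- A submodule `N` of finite index which is `p`-saturated for every prime `p` is everything. -/
theorem eq_top_of_finite_of_saturated (N : Submodule ℤ L) [Finite (L ⧸ N)]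
    (hsat : ∀ p : ℕ, p.Prime → ∀ x : L, (p : ℤ) • x ∈ N → x ∈ N) : N = ⊤ := by
  have key : ∀ n : ℕ, 0 < n → ∀ x : L, (n : ℤ) • x ∈ N → x ∈ N := by
    intro n
    induction n using Nat.strong_induction_on with
    | _ n ih =>
      intro hn x hx
      by_cases h1 : n = 1
      · subst h1; simpa using hx
      · obtain ⟨p, hp, m, rfl⟩ : ∃ p, p.Prime ∧ ∃ m, n = p * m := by
          obtain ⟨p, hp, hdvd⟩ := Nat.exists_prime_and_dvd h1
          exact ⟨p, hp, hdvd⟩
        have hm0 : 0 < m := Nat.pos_of_ne_zero (by rintro rfl; simp at hn)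
        have hmlt : m < p * m := by
          have := hp.two_le
          nlinarith
        have h2 : (p : ℤ) • ((m : ℤ) • x) ∈ N := by
          rw [smul_smul]; exact_mod_cast hx
        exact ih m hmlt hm0 x (hsat p hp _ h2)
  rw [eq_top_iff]
  intro x _
  have hcard : 0 < Nat.card (L ⧸ N) := Nat.card_pos
  refine key _ hcard x ?_
  have h0 : (Nat.card (L ⧸ N)) • (Submodule.Quotient.mk x : L ⧸ N) = 0 := card_nsmul_eq_zero'
  rw [← Submodule.Quotient.mk_smul, Submodule.Quotient.mk_eq_zero] at h0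
  simpa using h0

variable [Module.Free ℤ L] [Module.Finite ℤ L]

/-- A bilinear form on a finite free `ℤ`-module which is non-degenerate modulo every prime has
trivial kernel. -/
theorem eq_zero_of_nondeg_mod (B : L →ₗ[ℤ] L →ₗ[ℤ] ℤ)
    (hnd : ∀ p : ℕ, p.Prime → ∀ w : L, (∀ z, (p : ℤ) ∣ B w z) → ∃ y, w = (p : ℤ) • y)
    {w : L} (hw : ∀ z, B w z = 0) : w = 0 := by
  -- `w` is infinitely `2`-divisible
  have h2 : Nat.Prime 2 := Nat.prime_two
  have hdiv : ∀ n : ℕ, ∃ y : L, w = ((2 : ℤ) ^ n) • y ∧ ∀ z, B y z = 0 := by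
    intro n
    induction n with
    | zero => exact ⟨w, by simp, hw⟩
    | succ n ih =>
      obtain ⟨y, hy, hy0⟩ := ih
      obtain ⟨y', hy'⟩ := hnd 2 h2 y (fun z => by rw [hy0 z]; exact dvd_zero _)
      refine ⟨y', ?_, fun z => ?_⟩
      · rw [hy, hy', smul_smul, pow_succ]; norm_num
      · have := hy0 z
        rw [hy', LinearMap.map_smul, LinearMap.smul_apply, smul_eq_mul] at this
        rcases mul_eq_zero.mp this with h | h
        · norm_num at h
        · exact h
  -- coordinates in a basis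
  let b := Module.Free.chooseBasis ℤ L
  apply b.ext_elem
  intro i
  rw [map_zero, Finsupp.zero_apply]
  by_contra hne
  have hdvd : ∀ n : ℕ, ((2 : ℤ) ^ n) ∣ b.repr w i := by
    intro n
    obtain ⟨y, hy, -⟩ := hdiv n
    rw [hy, LinearEquiv.map_smul, Finsupp.smul_apply, smul_eq_mul]
    exact dvd_mul_right _ _
  have hdvd := hdvd (b.repr w i).natAbs
  have hle := Int.natAbs_le_of_dvd_ne_zero hdvd hne
  rw [Int.natAbs_pow] at hle
  have : (b.repr w i).natAbs < 2 ^ (b.repr w i).natAbs := Nat.lt_two_pow_self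
  simp at hle
  omega

/-- **Unimodularity**: a bilinear form on a finite free `ℤ`-module which is non-degenerate modulo
every prime represents every linear functional. -/
theorem exists_rep_of_nondeg_mod (B : L →ₗ[ℤ] L →ₗ[ℤ] ℤ)
    (hnd : ∀ p : ℕ, p.Prime → ∀ w : L, (∀ z, (p : ℤ) ∣ B w z) → ∃ y, w = (p : ℤ) • y)
    (φ : L →ₗ[ℤ] ℤ) : ∃ k : L, ∀ y, φ y = B k y := by
  have hinj : Function.Injective B := by
    rw [← LinearMap.ker_eq_bot, LinearMap.ker_eq_bot']
    intro w hw
    exact eq_zero_of_nondeg_mod B hnd (fun z => by rw [hw]; rfl)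
  have hrank : Module.finrank ℤ (LinearMap.range B) = Module.finrank ℤ (L →ₗ[ℤ] ℤ) := by
    rw [LinearMap.finrank_range_of_inj hinj, Module.finrank_linearMap_self]
  have : Finite ((L →ₗ[ℤ] ℤ) ⧸ LinearMap.range B) :=
    Submodule.finiteQuotientOfFreeOfRankEq _ hrank
  have htop : LinearMap.range B = ⊤ := by
    apply eq_top_of_finite_of_saturated
    rintro p hp ψ ⟨w, hw⟩
    obtain ⟨y, hy⟩ := hnd p hp w (fun z => by
      have := congrArg (fun f : L →ₗ[ℤ] ℤ => f z) hw
      simp only [LinearMap.smul_apply, smul_eq_mul] at this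
      rw [this]; exact dvd_mul_right _ _)
    refine ⟨y, ?_⟩
    have hp0 : (p : ℤ) ≠ 0 := by exact_mod_cast hp.ne_zero
    apply smul_right_injective (L →ₗ[ℤ] ℤ) hp0
    show (p : ℤ) • B y = (p : ℤ) • ψ
    rw [← LinearMap.map_smul, ← hy, hw]
  have : φ ∈ LinearMap.range B := by rw [htop]; trivial
  obtain ⟨k, hk⟩ := this
  exact ⟨k, fun y => by rw [← hk]⟩

end Generic

/-! ### (i) transitivity -/

section Transitive

theorem pow_smul_mem {G X : Type*} [Group G] [MulAction G X] (A : Set X) (g : G)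
    (h : ∀ x ∈ A, g • x ∈ A) (n : ℕ) : ∀ x ∈ A, (g ^ n) • x ∈ A := by
  induction n with
  | zero => intro x hx; simpa using hx
  | succ n ih =>
    intro x hx
    rw [pow_succ, mul_smul]
    exact ih _ (h x hx)

variable {Q : Type*} [MulAction SL(2, ℤ) Q] {Γ : Subgroup SL(2, ℤ)}

/-- A subset of `Q` stable under `S⁻¹` and `(S * T)⁻¹` is stable under all of `SL(2,ℤ)`. -/
theorem smul_mem_of_stable (A : Set Q) (hs : ∀ x ∈ A, sP Q x ∈ A) (ht : ∀ x ∈ A, tP Q x ∈ A)
    (g : SL(2, ℤ)) : ∀ x ∈ A, g • x ∈ A := by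
  let K : Subgroup SL(2, ℤ) :=
    { carrier := {g | ∀ x ∈ A, g • x ∈ A ∧ g⁻¹ • x ∈ A}
      one_mem' := fun x hx => by
        rw [inv_one, one_smul]; exact ⟨hx, hx⟩
      mul_mem' := by
        intro g h hg hh x hx
        refine ⟨?_, ?_⟩
        · rw [mul_smul]; exact (hg _ (hh x hx).1).1
        · rw [mul_inv_rev, mul_smul]; exact (hh _ (hg x hx).2).2
      inv_mem' := by
        intro g hg x hx
        refine ⟨(hg x hx).2, ?_⟩
        rw [inv_inv]; exact (hg x hx).1 }
  have hS3 : (S : SL(2, ℤ)) = (S⁻¹) ^ 3 := by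
    rw [inv_pow, eq_inv_iff_mul_eq_one, ← pow_succ']
    exact S_pow_four
  have hU5 : (S * T : SL(2, ℤ)) = ((S * T)⁻¹) ^ 5 := by
    rw [inv_pow, eq_inv_iff_mul_eq_one, ← pow_succ']
    exact U_pow_six
  have hS : S ∈ K := by
    intro x hx
    refine ⟨?_, hs x hx⟩
    rw [hS3]
    exact pow_smul_mem A _ hs 3 x hx
  have hU : S * T ∈ K := by
    intro x hx
    refine ⟨?_, ht x hx⟩
    rw [hU5]
    exact pow_smul_mem A _ ht 5 x hx
  intro x hx
  exact (Cocycle.mem_of_S_of_ST K hS hU g x hx).1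

/-- `⟨sP Q, tP Q⟩` is transitive on `Q` (which is a single `SL(2,ℤ)`-orbit by the coset data). -/
theorem trans_sP_tP (D : CosetData Γ Q) : Trans (sP Q) (tP Q) := by
  rintro A hs ht ⟨x₁, hx₁⟩
  refine Set.eq_univ_of_forall (fun y => ?_)
  have h := smul_mem_of_stable A hs ht (D.r y * (D.r x₁)⁻¹) x₁ hx₁
  have h1 : (D.r x₁)⁻¹ • x₁ = D.x₀ := by
    rw [inv_smul_eq_iff, D.r_smul]
  rwa [mul_smul, h1, D.r_smul] at h

end Transitive

/-! ### (ii) the parametrisation `theta` -/

section Main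

variable {Q : Type*} [MulAction SL(2, ℤ) Q] [Fintype Q] {Γ : Subgroup SL(2, ℤ)}
  (D : CosetData Γ Q) (hneg : ∀ x : Q, (-1 : SL(2, ℤ)) • x = x)

/-- the homomorphism with data `z` (unique by `IsData.unique`) -/
noncomputable def thetaFun (z : (Q → ℤ) × (Q → ℤ)) : Additive Γ →+ ℤ :=
  Classical.choose (exists_isData (D := D) hneg z)

theorem isData_thetaFun (z : (Q → ℤ) × (Q → ℤ)) : IsData D (thetaFun D hneg z) z :=
  Classical.choose_spec (exists_isData (D := D) hneg z)

variable {D} in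
theorem thetaFun_eq {ψ : Additive Γ →+ ℤ} {z : (Q → ℤ) × (Q → ℤ)} (h : IsData D ψ z) :
    thetaFun D hneg z = ψ :=
  (isData_thetaFun D hneg z).unique h

/-- `thetaFun` as a linear map on all pairs -/
noncomputable def thetaHom : ((Q → ℤ) × (Q → ℤ)) →ₗ[ℤ] (Additive Γ →+ ℤ) where
  toFun := thetaFun D hneg
  map_add' z z' := thetaFun_eq hneg ((isData_thetaFun D hneg z).add (isData_thetaFun D hneg z'))
  map_smul' n z := thetaFun_eq hneg ((isData_thetaFun D hneg z).zsmul n)

theorem thetaHom_apply (z : (Q → ℤ) × (Q → ℤ)) : thetaHom D hneg z = thetaFun D hneg z := rfl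

/-- **The Shapiro parametrisation** `Zpar → parabolicHoms ℤ Γ ℤ`. -/
noncomputable def theta : Zpar (k := ℤ) (sP Q) (tP Q) →ₗ[ℤ] parabolicHoms ℤ Γ ℤ :=
  LinearMap.codRestrict (parabolicHoms ℤ Γ ℤ)
    ((thetaHom D hneg).domRestrict (Zpar (k := ℤ) (sP Q) (tP Q)))
    (fun z => (isData_thetaFun D hneg z.1).isParabolicHom hneg z.2)

theorem isData_theta (z : Zpar (k := ℤ) (sP Q) (tP Q)) :
    IsData D (theta D hneg z : Additive Γ →+ ℤ) z.1 :=
  isData_thetaFun D hneg z.1

variable {D} in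
theorem theta_eq {ψ : Additive Γ →+ ℤ} {z : (Q → ℤ) × (Q → ℤ)} (h : IsData D ψ z)
    (hz : z ∈ Zpar (k := ℤ) (sP Q) (tP Q)) : (theta D hneg ⟨z, hz⟩ : Additive Γ →+ ℤ) = ψ :=
  thetaFun_eq hneg h

theorem theta_surjective : Function.Surjective (theta D hneg) := by
  rintro ⟨ψ, hψ⟩
  obtain ⟨z, hz, h⟩ := exists_data (D := D) hψ
  exact ⟨⟨z, hz⟩, Subtype.ext (theta_eq hneg h hz)⟩

theorem theta_eq_zero_iff (z : Zpar (k := ℤ) (sP Q) (tP Q)) :
    theta D hneg z = 0 ↔ z.1 ∈ Z0 (k := ℤ) (sP Q) (tP Q) := by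
  rw [← (isData_theta D hneg z).eq_zero_iff hneg z.2]
  exact Subtype.ext_iff

/-- two data of the same homomorphism differ by an element of `Z0` -/
theorem sub_mem_Z0_of_theta_eq {z z' : Zpar (k := ℤ) (sP Q) (tP Q)}
    (h : theta D hneg z = theta D hneg z') : z.1 - z'.1 ∈ Z0 (k := ℤ) (sP Q) (tP Q) := by
  have : theta D hneg (z - z') = 0 := by rw [map_sub, h, sub_self]
  exact (theta_eq_zero_iff D hneg (z - z')).1 this

/-! ### (iii) the form -/

theorem pair_congr {z₁ z₂ z₁' z₂' : Zpar (k := ℤ) (sP Q) (tP Q)}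
    (h : theta D hneg z₁ = theta D hneg z₂) (h' : theta D hneg z₁' = theta D hneg z₂') :
    pair (sP Q) z₁.1 z₁'.1 = pair (sP Q) z₂.1 z₂'.1 := by
  have hs := sP_sP (Q := Q) hneg
  have e1 : pair (sP Q) (z₁.1 - z₂.1) z₁'.1 = 0 :=
    pair_eq_zero_of_mem_Z0_left hs (sub_mem_Z0_of_theta_eq D hneg h) z₁'.2
  have e2 : pair (sP Q) z₂.1 (z₁'.1 - z₂'.1) = 0 :=
    pair_eq_zero_of_mem_Z0_right hs z₂.2 (sub_mem_Z0_of_theta_eq D hneg h')
  rw [map_sub, LinearMap.sub_apply, sub_eq_zero] at e1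
  rw [map_sub, sub_eq_zero] at e2
  rw [e1, e2]

/-- a set-theoretic section of `theta` -/
noncomputable def sec (m : parabolicHoms ℤ Γ ℤ) : Zpar (k := ℤ) (sP Q) (tP Q) :=
  Function.surjInv (theta_surjective D hneg) m

theorem theta_sec (m : parabolicHoms ℤ Γ ℤ) : theta D hneg (sec D hneg m) = m :=
  Function.surjInv_eq (theta_surjective D hneg) m

/-- **The Poincaré duality form** on `parabolicHoms ℤ Γ ℤ`. -/
noncomputable def form : parabolicHoms ℤ Γ ℤ →ₗ[ℤ] parabolicHoms ℤ Γ ℤ →ₗ[ℤ] ℤ :=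
  LinearMap.mk₂ ℤ (fun m m' => pair (sP Q) (sec D hneg m).1 (sec D hneg m').1)
    (fun m₁ m₂ n => by
      have := pair_congr D hneg (z₁ := sec D hneg (m₁ + m₂))
        (z₂ := sec D hneg m₁ + sec D hneg m₂) (z₁' := sec D hneg n) (z₂' := sec D hneg n)
        (by rw [map_add, theta_sec, theta_sec, theta_sec]) rfl
      rw [this, Submodule.coe_add, map_add, LinearMap.add_apply])
    (fun c m n => by
      have := pair_congr D hneg (z₁ := sec D hneg (c • m))
        (z₂ := c • sec D hneg m) (z₁' := sec D hneg n) (z₂' := sec D hneg n)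
        (by rw [map_smul, theta_sec, theta_sec]) rfl
      rw [this, Submodule.coe_smul, map_smul, LinearMap.smul_apply])
    (fun m n₁ n₂ => by
      have := pair_congr D hneg (z₁ := sec D hneg m) (z₂ := sec D hneg m)
        (z₁' := sec D hneg (n₁ + n₂)) (z₂' := sec D hneg n₁ + sec D hneg n₂) rfl
        (by rw [map_add, theta_sec, theta_sec, theta_sec])
      rw [this, Submodule.coe_add, map_add])
    (fun c m n => by
      have := pair_congr D hneg (z₁ := sec D hneg m) (z₂ := sec D hneg m)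
        (z₁' := sec D hneg (c • n)) (z₂' := c • sec D hneg n) rfl
        (by rw [map_smul, theta_sec, theta_sec])
      rw [this, Submodule.coe_smul, map_smul])

theorem form_theta_theta (z z' : Zpar (k := ℤ) (sP Q) (tP Q)) :
    form D hneg (theta D hneg z) (theta D hneg z') = pair (sP Q) z.1 z'.1 :=
  pair_congr D hneg (theta_sec D hneg _) (theta_sec D hneg _)

variable {D} in
/-- the form in terms of arbitrary data -/
theorem form_eq_pair_of_isData {ψ ψ' : Additive Γ →+ ℤ} {z z' : (Q → ℤ) × (Q → ℤ)}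
    (h : IsData D ψ z) (h' : IsData D ψ' z') (hz : z ∈ Zpar (k := ℤ) (sP Q) (tP Q))
    (hz' : z' ∈ Zpar (k := ℤ) (sP Q) (tP Q)) :
    form D hneg ⟨ψ, h.isParabolicHom hneg hz⟩ ⟨ψ', h'.isParabolicHom hneg hz'⟩ = pair (sP Q) z z' := by
  have e1 : theta D hneg ⟨z, hz⟩ = ⟨ψ, h.isParabolicHom hneg hz⟩ :=
    Subtype.ext (theta_eq hneg h hz)
  have e2 : theta D hneg ⟨z', hz'⟩ = ⟨ψ', h'.isParabolicHom hneg hz'⟩ :=
    Subtype.ext (theta_eq hneg h' hz')
  rw [← e1, ← e2, form_theta_theta]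

/-! ### (iv) finiteness and freeness -/

include D hneg in
theorem finite_parabolicHoms : Module.Finite ℤ (parabolicHoms ℤ Γ ℤ) :=
  Module.Finite.of_surjective (theta D hneg) (theta_surjective D hneg)

omit [Fintype Q] in
theorem isTorsionFree_parabolicHoms : Module.IsTorsionFree ℤ (parabolicHoms ℤ Γ ℤ) := by
  apply Module.IsTorsionFree.of_smul_eq_zero
  intro n m h
  by_cases hn : n = 0
  · exact Or.inl hn
  · right
    apply Subtype.ext
    refine AddMonoidHom.ext (fun γ => ?_)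
    have h1 := congrArg (fun f : parabolicHoms ℤ Γ ℤ => (f : Additive Γ →+ ℤ) γ) h
    have h2 : n * (m : Additive Γ →+ ℤ) γ = 0 := h1
    rcases mul_eq_zero.1 h2 with h | h
    · exact absurd h hn
    · exact h

include D hneg in
theorem free_parabolicHoms : Module.Free ℤ (parabolicHoms ℤ Γ ℤ) := by
  have := finite_parabolicHoms D hneg
  have := isTorsionFree_parabolicHoms (Γ := Γ)
  exact Module.free_of_finite_type_torsion_free'

/-! ### (v) non-degeneracy modulo every prime -/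

theorem form_nondeg_mod (p : ℕ) (hp : p.Prime) (w : parabolicHoms ℤ Γ ℤ)
    (h : ∀ z, (p : ℤ) ∣ form D hneg w z) : ∃ y : parabolicHoms ℤ Γ ℤ, w = (p : ℤ) • y := by
  classical
  have : Fact p.Prime := ⟨hp⟩
  have : Nonempty Q := ⟨D.x₀⟩
  obtain ⟨zw, rfl⟩ := theta_surjective D hneg w
  have hs := sP_sP (Q := Q) hneg
  obtain ⟨z0, hz0, z1, hz1, hdec⟩ := exists_eq_add_smul_of_dvd_pair p hs (trans_sP_tP D) zw.2
    (fun z' hz' => by
      have := h (theta D hneg ⟨z', hz'⟩)
      rwa [form_theta_theta] at this)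
  refine ⟨theta D hneg ⟨z1, hz1⟩, ?_⟩
  have hz0' : z0 ∈ Zpar (k := ℤ) (sP Q) (tP Q) := Z0_le_Zpar hs hz0
  have e : zw = ⟨z0, hz0'⟩ + (p : ℤ) • ⟨z1, hz1⟩ := Subtype.ext hdec
  rw [e, map_add, map_smul, (theta_eq_zero_iff D hneg ⟨z0, hz0'⟩).2 hz0, zero_add]

/-! ### (vi) unimodularity -/

theorem form_injective (w : parabolicHoms ℤ Γ ℤ) (h : ∀ z, form D hneg w z = 0) : w = 0 := by
  have := finite_parabolicHoms D hneg
  have := free_parabolicHoms D hneg
  exact eq_zero_of_nondeg_mod (form D hneg) (form_nondeg_mod D hneg) h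

theorem form_perfect (φ : parabolicHoms ℤ Γ ℤ →ₗ[ℤ] ℤ) :
    ∃ k : parabolicHoms ℤ Γ ℤ, ∀ y, φ y = form D hneg k y := by
  have := finite_parabolicHoms D hneg
  have := free_parabolicHoms D hneg
  exact exists_rep_of_nondeg_mod (form D hneg) (form_nondeg_mod D hneg) φ

/-! ### skew-symmetry -/

theorem form_skew (x y : parabolicHoms ℤ Γ ℤ) : form D hneg x y = - form D hneg y x := by
  obtain ⟨z, rfl⟩ := theta_surjective D hneg x
  obtain ⟨z', rfl⟩ := theta_surjective D hneg y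
  rw [form_theta_theta, form_theta_theta]
  have h := two_mul_pair_add_swap (sP_sP (Q := Q) hneg) z.2 z'.2
  have h2 : pair (sP Q) z.1 z'.1 + pair (sP Q) z'.1 z.1 = 0 := by
    rcases mul_eq_zero.1 h with h | h
    · norm_num at h
    · exact h
  linarith

theorem form_self (x : parabolicHoms ℤ Γ ℤ) : form D hneg x x = 0 := by
  have h := form_skew D hneg x x
  linarith

end Main

end Fermat.Agent.S41.PD.Form
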