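import Mathlib
import Fermat.Agent.S41.PD.Form

/-!
# S41 (project R), slice R-PD (PD6a): restriction and corestriction in the Shapiro model

`Γ' ≤ Γ ≤ SL(2,ℤ)` with coset data `D'` on `Q'`, `D` on `Q`, and `π : Q' → Q` an equivariant map
with `π x₀' = x₀`.  `pbF π : (Q → ℤ) → (Q' → ℤ)` (pull-back) and `pfF π : (Q' → ℤ) → (Q → ℤ)` (sums
over the fibres) are equivariant and adjoint for the standard forms.  Hence:

* `IsData.res` : `IsData D ψ z → IsData D' (ψ restricted to Γ') (resZ π z)`;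
* `coresM` : the corestriction (transfer) `Hom(Γ', ℤ) → Hom(Γ, ℤ)`,
  `coresM ψ' γ = ∑ x' ∈ π⁻¹ x₀, ψ' (D'.elt γ x')`; `IsData.cores`;
* `pair_resZ` : `pair (resZ z) z' = pair z (coresZ z')`;
* **`form_adjoint`** : `form D' (res x) y = form D x (cores y)`, with `res x`, `cores y` given by
  their values.
* `proj D D'` : the canonical `π`, `x' ↦ D'.r x' • D.x₀`.
-/

set_option autoImplicit false
set_option linter.unusedSectionVars false

open scoped MatrixGroups BigOperators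
open ModularGroup

namespace Fermat.Agent.S41.PD.Functorial

open Fermat.Agent.S21.ParabolicDim (CosetData)
open Fermat.Agent.S41.PD.PermModule Fermat.Agent.S41.PD.PermModuleInt
open Fermat.Agent.S41.PD.Shapiro Fermat.Agent.S41.PD.Form
open ModularCurve.Period

attribute [local instance] Fermat.Agent.S41.PD.Shapiro.act

/-! ### pull-back and push-forward of functions -/

section Maps

variable {Q Q' : Type*} [MulAction SL(2, ℤ) Q] [MulAction SL(2, ℤ) Q'] [Fintype Q] [Fintype Q']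
  [DecidableEq Q] (π : Q' → Q)

/-- pull-back of functions -/
def pbF : (Q → ℤ) →ₗ[ℤ] (Q' → ℤ) := LinearMap.funLeft ℤ ℤ π

omit [MulAction SL(2, ℤ) Q] [MulAction SL(2, ℤ) Q'] [Fintype Q] [Fintype Q'] [DecidableEq Q] in
@[simp] theorem pbF_apply (m : Q → ℤ) (x' : Q') : pbF π m x' = m (π x') := rfl

/-- push-forward of functions: sums over the fibres -/
def pfF : (Q' → ℤ) →ₗ[ℤ] (Q → ℤ) where
  toFun m' x := ∑ x' ∈ Finset.univ.filter (fun x' => π x' = x), m' x'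
  map_add' m₁ m₂ := by
    funext x
    simp only [Pi.add_apply, Finset.sum_add_distrib]
  map_smul' c m := by
    funext x
    simp only [Pi.smul_apply, smul_eq_mul, Finset.mul_sum, RingHom.id_apply]

omit [MulAction SL(2, ℤ) Q] [MulAction SL(2, ℤ) Q'] [Fintype Q] in
theorem pfF_apply (m' : Q' → ℤ) (x : Q) :
    pfF π m' x = ∑ x' ∈ Finset.univ.filter (fun x' => π x' = x), m' x' := rfl

omit [MulAction SL(2, ℤ) Q] [MulAction SL(2, ℤ) Q'] in
/-- adjointness for the standard forms -/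
theorem ip_pbF (m : Q → ℤ) (m' : Q' → ℤ) : ip (pbF π m) m' = ip m (pfF π m') := by
  rw [ip_apply, ip_apply]
  simp only [pbF_apply, pfF_apply, Finset.mul_sum]
  rw [← Finset.sum_fiberwise Finset.univ π (fun x' => m (π x') * m' x')]
  refine Finset.sum_congr rfl (fun x _ => Finset.sum_congr rfl (fun x' hx' => ?_))
  rw [(Finset.mem_filter.1 hx').2]

/-- restriction of data -/
def resZ (z : (Q → ℤ) × (Q → ℤ)) : (Q' → ℤ) × (Q' → ℤ) := (pbF π z.1, pbF π z.2)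

/-- corestriction of data -/
def coresZ (z' : (Q' → ℤ) × (Q' → ℤ)) : (Q → ℤ) × (Q → ℤ) := (pfF π z'.1, pfF π z'.2)

variable (hπ : ∀ (g : SL(2, ℤ)) (x' : Q'), π (g • x') = g • π x')
include hπ

omit [Fintype Q] [Fintype Q'] [DecidableEq Q] in
theorem smul_pbF (g : SL(2, ℤ)) (m : Q → ℤ) : g • pbF π m = pbF π (g • m) := by
  funext x'
  show m (π (g⁻¹ • x')) = m (g⁻¹ • π x')
  rw [hπ]

omit [Fintype Q] in
theorem smul_pfF (g : SL(2, ℤ)) (m' : Q' → ℤ) : g • pfF π m' = pfF π (g • m') := by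
  funext x
  show pfF π m' (g⁻¹ • x) = pfF π (g • m') x
  rw [pfF_apply, pfF_apply]
  refine Finset.sum_equiv (MulAction.toPerm g) (fun x' => ?_) (fun x' _ => ?_)
  · simp only [Finset.mem_filter, Finset.mem_univ, true_and, MulAction.toPerm_apply]
    rw [hπ, eq_inv_smul_iff]
  · show m' x' = m' (g⁻¹ • (g • x'))
    rw [inv_smul_smul]

omit [DecidableEq Q] in
theorem resZ_mem {z : (Q → ℤ) × (Q → ℤ)} (hz : z ∈ Zpar (k := ℤ) (sP Q) (tP Q)) :
    resZ π z ∈ Zpar (k := ℤ) (sP Q') (tP Q') := by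
  rw [mem_Zpar, pb_sP, pb_tP] at hz ⊢
  show pbF π z.1 - S • pbF π z.1 = pbF π z.2 - (S * T) • pbF π z.2
  rw [smul_pbF π hπ, smul_pbF π hπ, ← map_sub, ← map_sub, hz]

theorem coresZ_mem {z' : (Q' → ℤ) × (Q' → ℤ)} (hz : z' ∈ Zpar (k := ℤ) (sP Q') (tP Q')) :
    coresZ π z' ∈ Zpar (k := ℤ) (sP Q) (tP Q) := by
  rw [mem_Zpar, pb_sP, pb_tP] at hz ⊢
  show pfF π z'.1 - S • pfF π z'.1 = pfF π z'.2 - (S * T) • pfF π z'.2
  rw [smul_pfF π hπ, smul_pfF π hπ, ← map_sub, ← map_sub, hz]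

/-- **adjointness in the model** -/
theorem pair_resZ (z : (Q → ℤ) × (Q → ℤ)) (z' : (Q' → ℤ) × (Q' → ℤ)) :
    pair (sP Q') (resZ π z) z' = pair (sP Q) z (coresZ π z') := by
  rw [pair_apply, pair_apply, pb_sP, pb_sP]
  show ip (pbF π z.1 - pbF π z.2) (z'.1 - S • z'.1) = ip (z.1 - z.2) (pfF π z'.1 - S • pfF π z'.1)
  rw [← map_sub, ip_pbF, smul_pfF π hπ, ← map_sub]

end Maps

/-! ### naturality of the dictionary -/

section Data

variable {Q Q' : Type*} [MulAction SL(2, ℤ) Q] [MulAction SL(2, ℤ) Q'] [Fintype Q] [Fintype Q']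
  [DecidableEq Q] {Γ Γ' : Subgroup SL(2, ℤ)} (D : CosetData Γ Q) (D' : CosetData Γ' Q')
  (π : Q' → Q) (hπ : ∀ (g : SL(2, ℤ)) (x' : Q'), π (g • x') = g • π x')

/-- the restriction of a homomorphism -/
def resM (hle : Γ' ≤ Γ) (ψ : Additive Γ →+ ℤ) : Additive Γ' →+ ℤ :=
  ψ.comp (MonoidHom.toAdditive (Subgroup.inclusion hle))

omit [MulAction SL(2, ℤ) Q] [MulAction SL(2, ℤ) Q'] [Fintype Q] [Fintype Q'] [DecidableEq Q] in
theorem resM_apply (hle : Γ' ≤ Γ) (ψ : Additive Γ →+ ℤ) (γ' : Γ') :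
    resM hle ψ (Additive.ofMul γ') = ψ (Additive.ofMul ⟨(γ' : SL(2, ℤ)), hle γ'.2⟩) := rfl

variable {D} in
omit [DecidableEq Q] in
include hπ in
/-- restriction of data -/
theorem IsData.res (hle : Γ' ≤ Γ) (hπ₀ : π D'.x₀ = D.x₀) {ψ : Additive Γ →+ ℤ}
    {z : (Q → ℤ) × (Q → ℤ)} (h : IsData D ψ z) : IsData D' (resM hle ψ) (resZ π z) := by
  obtain ⟨c, hc, hS, hU, hψ⟩ := h
  refine ⟨fun g => pbF π (c g), ?_, ?_, ?_, fun γ' => ?_⟩
  · intro g h
    show pbF π (c (g * h)) = pbF π (c g) + g • pbF π (c h)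
    rw [hc, map_add, smul_pbF π hπ]
  · show pbF π (c S) = S • pbF π z.1 - pbF π z.1
    rw [hS, map_sub, smul_pbF π hπ]
  · show pbF π (c (S * T)) = (S * T) • pbF π z.2 - pbF π z.2
    rw [hU, map_sub, smul_pbF π hπ]
  · show c (γ' : SL(2, ℤ)) (π D'.x₀) = _
    rw [hπ₀, resM_apply]
    exact hψ ⟨(γ' : SL(2, ℤ)), hle γ'.2⟩

include hπ in
theorem isCoc_pfF {c' : SL(2, ℤ) → (Q' → ℤ)} (hc' : IsCoc c') : IsCoc (fun g => pfF π (c' g)) := by
  intro g h
  show pfF π (c' (g * h)) = pfF π (c' g) + g • pfF π (c' h)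
  rw [hc', map_add, smul_pfF π hπ]

/-- **the corestriction (transfer)** of a homomorphism -/
def coresM (ψ' : Additive Γ' →+ ℤ) : Additive Γ →+ ℤ :=
  homOf D (fun g => pfF π (coc D' ψ' g)) (isCoc_pfF π hπ (isCoc_coc D' ψ'))

theorem coresM_apply (ψ' : Additive Γ' →+ ℤ) (γ : Γ) :
    coresM D D' π hπ ψ' (Additive.ofMul γ) =
      ∑ x' ∈ Finset.univ.filter (fun x' => π x' = D.x₀),
        ψ' (Additive.ofMul (D'.elt (γ : SL(2, ℤ)) x')) := rfl

variable {D'} in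
/-- corestriction of data -/
theorem IsData.cores {ψ' : Additive Γ' →+ ℤ} {z' : (Q' → ℤ) × (Q' → ℤ)} (h : IsData D' ψ' z') :
    IsData D (coresM D D' π hπ ψ') (coresZ π z') := by
  obtain ⟨c', hc', hS, hU, hψ'⟩ := h
  refine ⟨fun g => pfF π (c' g), isCoc_pfF π hπ hc', ?_, ?_, fun γ => ?_⟩
  · show pfF π (c' S) = S • pfF π z'.1 - pfF π z'.1
    rw [hS, map_sub, smul_pfF π hπ]
  · show pfF π (c' (S * T)) = (S * T) • pfF π z'.2 - pfF π z'.2
    rw [hU, map_sub, smul_pfF π hπ]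
  · have hhom : homOf D' c' hc' = ψ' := by
      ext γ'
      exact hψ' (Additive.toMul γ')
    have h1 := eq_coc_add_cob D' c' hc' (γ : SL(2, ℤ))
    rw [hhom] at h1
    show pfF π (c' (γ : SL(2, ℤ))) D.x₀ = pfF π (coc D' ψ' (γ : SL(2, ℤ))) D.x₀
    rw [h1, map_add, map_sub, ← smul_pfF π hπ, Pi.add_apply, Pi.sub_apply, Shapiro.smul_apply,
      inv_smul_base, sub_self, add_zero]

end Data

/-! ### adjointness of restriction and corestriction for the form -/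

section Adjoint

variable {Q Q' : Type*} [MulAction SL(2, ℤ) Q] [MulAction SL(2, ℤ) Q'] [Fintype Q] [Fintype Q']
  [DecidableEq Q] {Γ Γ' : Subgroup SL(2, ℤ)} (D : CosetData Γ Q) (D' : CosetData Γ' Q')
  (hneg : ∀ x : Q, (-1 : SL(2, ℤ)) • x = x) (hneg' : ∀ x : Q', (-1 : SL(2, ℤ)) • x = x)
  (π : Q' → Q) (hπ : ∀ (g : SL(2, ℤ)) (x' : Q'), π (g • x') = g • π x')
  (hπ₀ : π D'.x₀ = D.x₀) (hle : Γ' ≤ Γ)

include hπ hπ₀ in
/-- **`⟨res x, y⟩ = ⟨x, cores y⟩`**, with `res x` and `cores y` described by their values. -/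
theorem form_adjoint {x yc : parabolicHoms ℤ Γ ℤ} {y xr : parabolicHoms ℤ Γ' ℤ}
    (hxr : ∀ γ' : Γ', (xr : Additive Γ' →+ ℤ) (Additive.ofMul γ') =
      (x : Additive Γ →+ ℤ) (Additive.ofMul ⟨(γ' : SL(2, ℤ)), hle γ'.2⟩))
    (hyc : ∀ γ : Γ, (yc : Additive Γ →+ ℤ) (Additive.ofMul γ) =
      ∑ x' ∈ Finset.univ.filter (fun x' => π x' = D.x₀),
        (y : Additive Γ' →+ ℤ) (Additive.ofMul (D'.elt (γ : SL(2, ℤ)) x'))) :
    form D' hneg' xr y = form D hneg x yc := by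
  obtain ⟨z, hz, hzd⟩ := exists_data (D := D) x.2
  obtain ⟨z', hz', hzd'⟩ := exists_data (D := D') y.2
  have h1 : IsData D' (xr : Additive Γ' →+ ℤ) (resZ π z) := by
    have : (xr : Additive Γ' →+ ℤ) = resM hle (x : Additive Γ →+ ℤ) :=
      AddMonoidHom.ext (fun γ' => hxr (Additive.toMul γ'))
    rw [this]
    exact IsData.res D' π hπ hle hπ₀ hzd
  have h2 : IsData D (yc : Additive Γ →+ ℤ) (coresZ π z') := by
    have : (yc : Additive Γ →+ ℤ) = coresM D D' π hπ (y : Additive Γ' →+ ℤ) :=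
      AddMonoidHom.ext (fun γ => hyc (Additive.toMul γ))
    rw [this]
    exact IsData.cores D π hπ hzd'
  have e1 := form_eq_pair_of_isData hneg' h1 hzd' (resZ_mem π hπ hz) hz'
  have e2 := form_eq_pair_of_isData hneg hzd h2 hz (coresZ_mem π hπ hz')
  have e3 : form D' hneg' xr y = pair (sP Q') (resZ π z) z' := by
    rw [← e1]
  have e4 : form D hneg x yc = pair (sP Q) z (coresZ π z') := by
    rw [← e2]
  rw [e3, e4, pair_resZ π hπ]

end Adjoint

/-! ### the canonical projection -/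

section Proj

variable {Q Q' : Type*} [MulAction SL(2, ℤ) Q] [MulAction SL(2, ℤ) Q']
  {Γ Γ' : Subgroup SL(2, ℤ)} (D : CosetData Γ Q) (D' : CosetData Γ' Q')

/-- the canonical equivariant map `Q' → Q` for `Γ' ≤ Γ` -/
def proj (x' : Q') : Q := D'.r x' • D.x₀

variable (hle : Γ' ≤ Γ)
include hle

theorem proj_smul (g : SL(2, ℤ)) (x' : Q') : proj D D' (g • x') = g • proj D D' x' := by
  unfold proj
  have h1 : (D'.r (g • x'))⁻¹ * g * D'.r x' ∈ Γ' := by
    rw [← D'.mem_iff, mul_smul, mul_smul, D'.r_smul, inv_smul_eq_iff, D'.r_smul]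
  have h2 := (D.mem_iff _).2 (hle h1)
  rw [mul_smul, mul_smul, inv_smul_eq_iff] at h2
  exact h2.symm

theorem proj_base : proj D D' D'.x₀ = D.x₀ :=
  (D.mem_iff _).2 (hle D'.r_x₀_mem)

omit hle in
theorem proj_eq_base_iff (x' : Q') : proj D D' x' = D.x₀ ↔ D'.r x' ∈ Γ := D.mem_iff _

end Proj

end Fermat.Agent.S41.PD.Functorial
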