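import Mathlib
import Fermat.Agent.S41.PD.Functorial
import Fermat.Agent.S41.Deg.CosetData2

/-!
# S41 (project R), slice R-PD (PD6c): the model corestriction is the coset-data corestriction

`Γ' ≤ Γ ≤ SL(2,ℤ)` with coset data `D'` on `Q'`, `D` on `Q`.  The corestriction of the Shapiro model
(`Functorial.coresM`, a sum over the fibre of `proj D D'` over the base point with the Schreier
elements `D'.elt γ x'`) equals the operator `heckeHom E` of ANY two-group coset datum
`E : CosetData2 ι' ι X` whose representatives `E.rep x = ι (s x)` come from `Γ`, are separated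
modulo `ι'(Γ')` and contain `1`.

* `fibD` : the fibre as a two-group coset datum (representatives `(D'.r x')⁻¹`);
* **`heckeHom_eq_transfer`**.
-/

set_option autoImplicit false
set_option linter.unusedSectionVars false

open scoped MatrixGroups BigOperators
open ModularGroup

namespace Fermat.Agent.S41.PD.Transfer

open Fermat.Agent.S21.ParabolicDim (CosetData)
open Fermat.Agent.S41.PD.Shapiro Fermat.Agent.S41.PD.Functorial
open Fermat.Agent.S41.Deg.TwoGroup

variable {Q Q' : Type*} [MulAction SL(2, ℤ) Q] [MulAction SL(2, ℤ) Q']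
  {Γ Γ' : Subgroup SL(2, ℤ)} (D : CosetData Γ Q) (D' : CosetData Γ' Q') (hle : Γ' ≤ Γ)
  {G : Type*} [Group G] (ι : Γ →* G) (ι' : Γ' →* G)
  (hιι' : ∀ c : Γ', ι' c = ι (Subgroup.inclusion hle c))

/-- the fibre of the canonical projection over the base point -/
abbrev Fib : Type _ := {x' : Q' // proj D D' x' = D.x₀}

/-- the inverse of the representative of a point of the fibre, in `Γ` -/
def rinv (x' : Fib D D') : Γ :=
  ⟨(D'.r x'.1)⁻¹, Γ.inv_mem ((proj_eq_base_iff D D' x'.1).1 x'.2)⟩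

theorem coe_rinv (x' : Fib D D') : ((rinv D D' x' : Γ) : SL(2, ℤ)) = (D'.r x'.1)⁻¹ := rfl

include hle in
theorem proj_inv_smul (g : Γ) (x' : Fib D D') :
    proj D D' ((g : SL(2, ℤ))⁻¹ • x'.1) = D.x₀ := by
  rw [proj_smul D D' hle, x'.2, inv_smul_base]

include hle in
theorem proj_smul_fib (g : Γ) (x' : Fib D D') :
    proj D D' ((g : SL(2, ℤ)) • x'.1) = D.x₀ := by
  rw [proj_smul D D' hle, x'.2]
  exact (D.mem_iff _).2 g.2

/-- the action of `Γ` on the fibre -/
def fibPerm (g : Γ) : Equiv.Perm (Fib D D') where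
  toFun x' := ⟨(g : SL(2, ℤ))⁻¹ • x'.1, proj_inv_smul D D' hle g x'⟩
  invFun x' := ⟨(g : SL(2, ℤ)) • x'.1, proj_smul_fib D D' hle g x'⟩
  left_inv _ := Subtype.ext (smul_inv_smul _ _)
  right_inv _ := Subtype.ext (inv_smul_smul _ _)

include hιι' in
/-- **the fibre as a two-group coset datum** -/
def fibD : CosetData2 ι' ι (Fib D D') where
  rep x' := ι (rinv D D' x')
  perm g := fibPerm D D' hle g
  coc g x' := D'.elt (g : SL(2, ℤ)) x'.1
  rel g x' := by
    rw [hιι', ← map_mul, ← map_mul]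
    congr 1
    apply Subtype.ext
    show (D'.r x'.1)⁻¹ * (g : SL(2, ℤ)) =
      ((D'.r x'.1)⁻¹ * (g : SL(2, ℤ)) * D'.r ((g : SL(2, ℤ))⁻¹ • x'.1)) *
        (D'.r ((g : SL(2, ℤ))⁻¹ • x'.1))⁻¹
    rw [mul_inv_cancel_right]
  perm_mul g h x' := by
    apply Subtype.ext
    show ((g * h : Γ) : SL(2, ℤ))⁻¹ • x'.1 = (h : SL(2, ℤ))⁻¹ • ((g : SL(2, ℤ))⁻¹ • x'.1)
    rw [Subgroup.coe_mul, mul_inv_rev, mul_smul]
  coc_mul g h x' := by
    show D'.elt ((g * h : Γ) : SL(2, ℤ)) x'.1 =
      D'.elt (g : SL(2, ℤ)) x'.1 * D'.elt (h : SL(2, ℤ)) ((g : SL(2, ℤ))⁻¹ • x'.1)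
    rw [Subgroup.coe_mul, D'.elt_mul]

theorem fibD_coc (g : Γ) (x' : Fib D D') :
    (fibD D D' hle ι ι' hιι').coc g x' = D'.elt (g : SL(2, ℤ)) x'.1 := rfl

theorem fibD_rep (x' : Fib D D') : (fibD D D' hle ι ι' hιι').rep x' = ι (rinv D D' x') := rfl

section Main

variable [Fintype Q'] [DecidableEq Q] {X : Type*} [Fintype X] {A : Type*} [AddCommGroup A]

/-- the operator of the fibre datum is the transfer formula of the Shapiro model -/
theorem fibD_heckeHom_apply (z : Additive Γ' →+ A) (g : Γ) :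
    (fibD D D' hle ι ι' hιι').heckeHom z (Additive.ofMul g) =
      ∑ x' ∈ Finset.univ.filter (fun x' => proj D D' x' = D.x₀),
        z (Additive.ofMul (D'.elt (g : SL(2, ℤ)) x')) := by
  rw [CosetData2.heckeHom_apply]
  symm
  exact Finset.sum_subtype (Finset.univ.filter (fun x' => proj D D' x' = D.x₀))
    (fun x' => by simp) (fun x' => z (Additive.ofMul (D'.elt (g : SL(2, ℤ)) x')))

include hle hιι' in
/-- **the coset-data corestriction is the model corestriction** -/
theorem heckeHom_eq_transfer (E : CosetData2 ι' ι X) (hι : Function.Injective ι)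
    (hι' : Function.Injective ι')
    (huniq : ∀ (x x' : X) (g : Γ'), E.rep x = ι' g * E.rep x' → x = x')
    (s : X → Γ) (hs : ∀ x, E.rep x = ι (s x)) (x₁ : X) (hx₁ : s x₁ = 1)
    (z : Additive Γ' →+ A) (g : Γ) :
    E.heckeHom z (Additive.ofMul g) =
      ∑ x' ∈ Finset.univ.filter (fun x' => proj D D' x' = D.x₀),
        z (Additive.ofMul (D'.elt (g : SL(2, ℤ)) x')) := by
  rw [← fibD_heckeHom_apply D D' hle ι ι' hιι']
  have hrep1 : E.rep x₁ = 1 := by rw [hs, hx₁, map_one]
  -- the relation at the base coset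
  have hrel : ∀ γ : Γ, ι γ = ι' (E.coc γ x₁) * ι (s (E.perm γ x₁)) := by
    intro γ
    have h := E.rel γ x₁
    rw [hrep1, one_mul, hs] at h
    exact h
  have hs_eq : ∀ γ : Γ, (s (E.perm γ x₁) : SL(2, ℤ)) =
      ((E.coc γ x₁ : Γ') : SL(2, ℤ))⁻¹ * (γ : SL(2, ℤ)) := by
    intro γ
    have h := hrel γ
    rw [hιι', ← map_mul] at h
    have h2 := congrArg (fun u : Γ => (u : SL(2, ℤ))) (hι h)
    simp only [Subgroup.coe_mul, Subgroup.coe_inclusion] at h2
    rw [h2, inv_mul_cancel_left]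
  -- the bijection between the fibre and `X`
  let e : Fib D D' ≃ X :=
    { toFun := fun x' => E.perm (rinv D D' x') x₁
      invFun := fun x => ⟨((s x : Γ) : SL(2, ℤ))⁻¹ • D'.x₀, by
        rw [proj_smul D D' hle, proj_base D D' hle, inv_smul_base]⟩
      left_inv := fun x' => by
        apply Subtype.ext
        show ((s (E.perm (rinv D D' x') x₁) : Γ) : SL(2, ℤ))⁻¹ • D'.x₀ = x'.1
        rw [hs_eq, mul_inv_rev, inv_inv, mul_smul, coe_rinv, inv_inv]
        have : ((E.coc (rinv D D' x') x₁ : Γ') : SL(2, ℤ)) • D'.x₀ = D'.x₀ :=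
          (D'.mem_iff _).2 (E.coc (rinv D D' x') x₁).2
        rw [this, D'.r_smul]
      right_inv := fun x => by
        set x' : Fib D D' := ⟨((s x : Γ) : SL(2, ℤ))⁻¹ • D'.x₀, by
          rw [proj_smul D D' hle, proj_base D D' hle, inv_smul_base]⟩ with hx'
        have hmem : (D'.r x'.1)⁻¹ * ((s x : Γ) : SL(2, ℤ))⁻¹ ∈ Γ' := by
          rw [← D'.mem_iff, mul_smul, inv_smul_eq_iff, D'.r_smul]
        have h := E.eq_of_rel hι' huniq (g := rinv D D' x') (x := x₁) (x' := x)
          (g' := ⟨_, hmem⟩) (by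
            rw [hrep1, one_mul, hs, hιι', ← map_mul]
            congr 1
            apply Subtype.ext
            show (D'.r x'.1)⁻¹ = (D'.r x'.1)⁻¹ * ((s x : Γ) : SL(2, ℤ))⁻¹ * ((s x : Γ) : SL(2, ℤ))
            rw [inv_mul_cancel_right])
        exact h.1 }
  refine congrFun (congrArg DFunLike.coe (congrFun (congrArg DFunLike.coe
    (CosetData2.heckeHom_eq_of_reps (fibD D D' hle ι ι' hιι') E hι' huniq e
      (fun x' => (E.coc (rinv D D' x') x₁)⁻¹) (fun x' => ?_))) z)) (Additive.ofMul g)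
  show E.rep (E.perm (rinv D D' x') x₁) = ι' (E.coc (rinv D D' x') x₁)⁻¹ * ι (rinv D D' x')
  rw [hrel (rinv D D' x'), hs, map_inv, inv_mul_cancel_left]

end Main

end Fermat.Agent.S41.PD.Transfer
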