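import Mathlib
import Fermat.Agent.S21.ParabolicDim
import Fermat.Agent.S41.PD.Transfer
import Fermat.Agent.S41.Deg.NewAtQ

/-!
# S41 (project R), slice R-PD: the Poincaré duality forms at the levels `N`, `N q`

* `BN N` : the form `Form.form (gammaData N) _` on `parabolicHoms ℤ (Gamma0 N) ℤ`;
* `BN_perfect`, `BN_injective`, `BN_nondeg_mod`, `BN_skew`;
* **`BN_alphaPar1`** : `BN (N q) (α₁ x) z = BN N x (β₁ z)` (restriction and corestriction are
  adjoint), for helper17's `alphaPar1`, `betaPar1`.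
-/

set_option autoImplicit false
set_option linter.unusedSectionVars false
set_option linter.style.haveILetI false

open CongruenceSubgroup Matrix.SpecialLinearGroup ModularForm ModularCurve.Period
open scoped MatrixGroups BigOperators

noncomputable section

namespace Fermat.Agent.S41.PD.Level

open Fermat.Agent.S20.Count (Q)
open Fermat.Agent.S21.ParabolicDim (gammaData)
open Fermat.Agent.S41.PD.Form Fermat.Agent.S41.PD.Functorial Fermat.Agent.S41.PD.Transfer
open Fermat.Agent.S30.Hecke.DoubleCoset Fermat.Agent.S30.Hecke.Gamma0Cosets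
  Fermat.Agent.S30.Hecke.Parabolic Fermat.Agent.S41.Deg.TwoGroup Fermat.Agent.S41.Deg.Reps
  Fermat.Agent.S41.Deg.Maps Fermat.Agent.S41.Deg.Par Fermat.Agent.S41.Deg.NewAtQ

/-- the Betti lattice of level `N` -/
abbrev Lat (N : ℕ) := parabolicHoms ℤ (Gamma0 N) ℤ

/-- the finite coset space (local `Fintype` instance) -/
@[reducible] def fintypeQ (N : ℕ) [NeZero N] : Fintype (Q N) := Fintype.ofFinite _

attribute [local instance] fintypeQ

/-- **the Poincaré duality form at level `N`** -/
def BN (N : ℕ) [NeZero N] : Lat N →ₗ[ℤ] Lat N →ₗ[ℤ] ℤ :=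
  form (gammaData N) (Fermat.Agent.S20.Count.neg_one_smul N)

section Basic

variable (N : ℕ) [NeZero N]

theorem BN_perfect (φ : Lat N →ₗ[ℤ] ℤ) : ∃ k : Lat N, ∀ y, φ y = BN N k y :=
  form_perfect _ _ φ

theorem BN_injective (w : Lat N) (h : ∀ z, BN N w z = 0) : w = 0 :=
  form_injective _ _ w h

theorem BN_nondeg_mod (p : ℕ) (hp : p.Prime) (w : Lat N) (h : ∀ z, (p : ℤ) ∣ BN N w z) :
    ∃ y : Lat N, w = (p : ℤ) • y :=
  form_nondeg_mod _ _ p hp w h

theorem BN_skew (x y : Lat N) : BN N x y = - BN N y x := form_skew _ _ x y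

end Basic

section Adjoint

variable {N q : ℕ} (hq : q.Prime) (hqN : ¬ q ∣ N) [NeZero N] [NeZero (N * q)]

/-- **restriction and corestriction are adjoint** -/
theorem BN_alphaPar1 (x : Lat N) (z : Lat (N * q)) :
    BN (N * q) (alphaPar1 ℤ ℤ N q x) z = BN N x (betaPar1 hq hqN ℤ ℤ z) := by
  classical
  have hle : Gamma0 (N * q) ≤ Gamma0 N := Gamma0_mul_le' N q
  refine form_adjoint (gammaData N) (gammaData (N * q)) _ _ (proj (gammaData N) (gammaData (N * q)))
    (proj_smul _ _ hle) (proj_base _ _ hle) hle (fun γ' => ?_) (fun γ => ?_)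
  · exact alphaPar1_apply ℤ ℤ x γ'
  · rw [coe_betaPar1]
    exact heckeHom_eq_transfer (gammaData N) (gammaData (N * q)) hle (iota N) (iota (N * q))
      (fun c => rfl) (coresD hq hqN) (iota_injective N) (iota_injective (N * q))
      (sRep_sep hq hqN) (sRep hq hqN) (fun x => rfl) none rfl _ γ

end Adjoint

end Fermat.Agent.S41.PD.Level
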