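/-
PROJECT R (S41, level raising), SEAM 2 packaging (helper2): `Lift.PDMod` from a family of forms on
the Betti lattices `Hom_par(Γ₀(M), ℤ)` which is

* skew-symmetric,
* perfect mod `p` (`hperfp` at level `N`, `hnd'` at level `N q`),
* **adjoint for the degeneracy maps at every prime** `ℓ ∤ N`:
  `F (N ℓ) (α₁ x + α₂ y) z = F N x (β₁ z) + F N y (β₂ z)`.

The self-adjointness of `τ_r` (`r ∤ N`) is a CONSEQUENCE: `τ_r = β₁ α₂ = β₂ α₁` at the prime `r`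
(helper17's `h12`, `h21`), so `F (τ_r x) y = F' (α₂ x) (α₁ y) = F x (τ_r y)`.
-/
import Mathlib
import Fermat.Agent.S41.Lift

set_option autoImplicit false

open CongruenceSubgroup ModularCurve ModularCurve.Period

namespace Fermat.Agent.S41.PD.Package

open Fermat.Agent.S41.CongModule Fermat.Agent.S41.Deg.Par Fermat.Agent.S41.Lift
open Fermat.Agent.S30.Hecke.Parabolic

/-- **Adjointness of the degeneracy maps** for a family of forms, at the prime `ℓ ∤ N`. -/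
def AdjAt (F : ∀ M : ℕ, Lat M →ₗ[ℤ] Lat M →ₗ[ℤ] ℤ) (N ℓ : ℕ) (hℓ : ℓ.Prime) (hℓN : ¬ ℓ ∣ N) :
    Prop :=
  ∀ (x y : Lat N) (z : Lat (N * ℓ)),
    F (N * ℓ) (alphaPar1 ℤ ℤ N ℓ x + alphaPar2 hℓ hℓN ℤ ℤ y) z =
      F N x (betaPar1 hℓ hℓN ℤ ℤ z) + F N y (betaPar2 hℓ hℓN ℤ ℤ z)

/-- `τ_r` is self-adjoint, from adjointness at the prime `r` and skew-symmetry. -/
theorem tauPar_selfAdjoint (F : ∀ M : ℕ, Lat M →ₗ[ℤ] Lat M →ₗ[ℤ] ℤ) {N r : ℕ} (hr : r.Prime)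
    (hrN : ¬ r ∣ N)
    (hskewN : ∀ x y : Lat N, F N x y = - F N y x)
    (hskewNr : ∀ x y : Lat (N * r), F (N * r) x y = - F (N * r) y x)
    (hadj : AdjAt F N r hr hrN) (x y : Lat N) :
    F N (tauPar ℤ ℤ N r hr x) y = F N x (tauPar ℤ ℤ N r hr y) := by
  -- `F (α₁ a) z = F a (β₁ z)` and `F (α₂ a) z = F a (β₂ z)`
  have h1 : ∀ (a : Lat N) (z : Lat (N * r)),
      F (N * r) (alphaPar1 ℤ ℤ N r a) z = F N a (betaPar1 hr hrN ℤ ℤ z) := by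
    intro a z
    have := hadj a 0 z
    simpa using this
  have h2 : ∀ (a : Lat N) (z : Lat (N * r)),
      F (N * r) (alphaPar2 hr hrN ℤ ℤ a) z = F N a (betaPar2 hr hrN ℤ ℤ z) := by
    intro a z
    have := hadj 0 a z
    simpa using this
  calc F N (tauPar ℤ ℤ N r hr x) y
      = F N (betaPar1 hr hrN ℤ ℤ (alphaPar2 hr hrN ℤ ℤ x)) y := by rw [h12 hr hrN]
    _ = - F N y (betaPar1 hr hrN ℤ ℤ (alphaPar2 hr hrN ℤ ℤ x)) := hskewN _ _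
    _ = - F (N * r) (alphaPar1 ℤ ℤ N r y) (alphaPar2 hr hrN ℤ ℤ x) := by rw [h1]
    _ = F (N * r) (alphaPar2 hr hrN ℤ ℤ x) (alphaPar1 ℤ ℤ N r y) := by
        rw [hskewNr (alphaPar2 hr hrN ℤ ℤ x)]
    _ = F N x (betaPar2 hr hrN ℤ ℤ (alphaPar1 ℤ ℤ N r y)) := h2 _ _
    _ = F N x (tauPar ℤ ℤ N r hr y) := by rw [h21 hr hrN]

/-- **SEAM 2 from a family of forms.** -/
theorem pdMod_of_family (F : ∀ M : ℕ, Lat M →ₗ[ℤ] Lat M →ₗ[ℤ] ℤ)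
    (hskew : ∀ (M : ℕ), 0 < M → ∀ x y : Lat M, F M x y = - F M y x)
    (hadj : ∀ (N ℓ : ℕ) (hℓ : ℓ.Prime) (hℓN : ¬ ℓ ∣ N), 0 < N → AdjAt F N ℓ hℓ hℓN)
    (p : ℕ) {N q : ℕ} (hN : 0 < N) (hq : q.Prime) (hqN : ¬ q ∣ N)
    (hperfp : ∀ φ : Lat N →ₗ[ℤ] ℤ, ∃ k : Lat N, ∀ y, (p : ℤ) ∣ φ y - F N k y)
    (hnd' : ∀ w : Lat (N * q), (∀ z, (p : ℤ) ∣ F (N * q) w z) → InP p w) :
    PDMod p hq hqN := by
  refine ⟨F N, F (N * q), hadj N q hq hqN hN, ?_, hperfp, hnd'⟩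
  intro r hr hrNq x y
  have hrN : ¬ r ∣ N := fun h => hrNq (Dvd.dvd.mul_right h q)
  exact tauPar_selfAdjoint F hr hrN (hskew N hN) (hskew (N * r) (Nat.mul_pos hN hr.pos))
    (hadj N r hr hrN hN) x y

end Fermat.Agent.S41.PD.Package
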