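/-
PROJECT R (S41, level raising), SEAM 2, slice P5 (helper2): the packaging `Lift.PDMod` for the
Poincaré duality forms `Level.BN M` (helper9), from the two adjointness statements
`Level.BN_alphaPar1` (helper9, `hadj-1`) and `hadj-2` (helper12), via `Package.pdMod_of_family`.
-/
import Mathlib
import Fermat.Agent.S41.PD.Package
import Fermat.Agent.S41.PD.Level

set_option autoImplicit false
set_option linter.style.haveILetI false

open CongruenceSubgroup ModularCurve ModularCurve.Period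

namespace Fermat.Agent.S41.PD.Final

open Fermat.Agent.S41.CongModule Fermat.Agent.S41.Deg.Par Fermat.Agent.S41.Lift
open Fermat.Agent.S41.PD.Package Fermat.Agent.S41.PD.Level

/-- the statement `hadj-2`: the twisted restriction and corestriction are adjoint -/
def Adj2 : Prop :=
  ∀ {N q : ℕ} (hq : q.Prime) (hqN : ¬ q ∣ N) [NeZero N] [NeZero (N * q)]
    (y : Lift.Lat N) (z : Lift.Lat (N * q)),
    BN (N * q) (alphaPar2 hq hqN ℤ ℤ y) z = BN N y (betaPar2 hq hqN ℤ ℤ z)

open Classical in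
/-- the family of forms (`0` at the meaningless level `0`) -/
noncomputable def family (M : ℕ) : Lift.Lat M →ₗ[ℤ] Lift.Lat M →ₗ[ℤ] ℤ :=
  if h : 0 < M then (haveI : NeZero M := ⟨h.ne'⟩; BN M) else 0

theorem family_eq (M : ℕ) [NeZero M] : family M = BN M := by
  unfold family
  rw [dif_pos (Nat.pos_of_ne_zero (NeZero.ne M))]

theorem family_skew (M : ℕ) (hM : 0 < M) (x y : Lift.Lat M) :
    family M x y = - family M y x := by
  haveI : NeZero M := ⟨hM.ne'⟩
  rw [family_eq]
  exact BN_skew M x y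

theorem family_adj (h2 : Adj2) (N ℓ : ℕ) (hℓ : ℓ.Prime) (hℓN : ¬ ℓ ∣ N) (hN : 0 < N) :
    AdjAt family N ℓ hℓ hℓN := by
  haveI : NeZero N := ⟨hN.ne'⟩
  haveI : NeZero (N * ℓ) := ⟨(Nat.mul_pos hN hℓ.pos).ne'⟩
  intro x y z
  rw [family_eq, family_eq, map_add, LinearMap.add_apply, BN_alphaPar1 hℓ hℓN, h2 hℓ hℓN]

/-- **SEAM 2.** -/
theorem pdMod (h2 : Adj2) (p : ℕ) (hp : p.Prime) {N q : ℕ} (hN : 0 < N) (hq : q.Prime)
    (hqN : ¬ q ∣ N) : PDMod p hq hqN := by
  haveI : NeZero N := ⟨hN.ne'⟩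
  haveI : NeZero (N * q) := ⟨(Nat.mul_pos hN hq.pos).ne'⟩
  refine pdMod_of_family family family_skew (family_adj h2) p hN hq hqN ?_ ?_
  · intro φ
    obtain ⟨k, hk⟩ := BN_perfect N φ
    refine ⟨k, fun y => ?_⟩
    rw [family_eq, hk y, sub_self]
    exact dvd_zero _
  · intro w hw
    rw [family_eq] at hw
    exact BN_nondeg_mod (N * q) p hp w hw

end Fermat.Agent.S41.PD.Final
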