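import Mathlib
import Fermat.Agent.S41.PD.Shapiro

/-!
# S41 (project R), slice R-PD-Heis: the cusp-sum formula for the duality pairing

Setting of `Shapiro`: `G = SL(2,ℤ)`, `U = S * T`, `Γ ≤ G`, `Q` a finite `G`-set with coset data
`D`, `-1` acting trivially, `G` acting on `Q → ℤ` by `(g • m) x = m (g⁻¹ • x)`.

Let `ψ`, `ψ'` be the parabolic homomorphisms `Γ → ℤ` with data `z`, `z' ∈ Zpar`, and let
`κ : Γ → ℤ` be ANY function with `κ (γ γ') = κ γ + κ γ' + ψ γ * ψ' γ'` (a "Heisenberg lift" of the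
pair `(ψ, ψ')`).  Then

`pair z z' = - ∑ over the T-orbits O of Q, κ (γ_O)`,

where `γ_O = r(x)⁻¹ T ^ (width of O) r(x)` is the cusp generator attached to a representative
`x` of `O` (`main`).  The `T`-orbits are given by an arbitrary quotient map `π : Q → C` with
section `s`, in the shape consumed by `Periph.sum_cuspGen_conj`.

Proof: one lift is `γ ↦ K γ x₀` for a Heisenberg cochain `K` on `G`
(`Cocycle.exists_heis`), for which the sum is the total sum of `K T`, computed explicitly; two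
lifts differ by a homomorphism `χ`, whose cusp sum is the total sum of the Shapiro cocycle of
`χ` at `T`, which vanishes because `S` and `S * T` have finite order.
-/

set_option autoImplicit false
set_option linter.unusedSectionVars false

open scoped MatrixGroups BigOperators
open ModularGroup

namespace Fermat.Agent.S41.PD.Heis

open Fermat.Agent.S21.ParabolicDim (CosetData)
open Fermat.Agent.S41.PD.PermModule
open Fermat.Agent.S41.PD.Shapiro

variable {Q : Type*} [MulAction SL(2, ℤ) Q]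

attribute [local instance] Shapiro.act

/-! ### total sums -/

section Tot

variable [Fintype Q]

/-- the total sum of a function on `Q` -/
def tot (m : Q → ℤ) : ℤ := ∑ x, m x

theorem tot_zero : tot (0 : Q → ℤ) = 0 := by simp [tot]

theorem tot_add (m m' : Q → ℤ) : tot (m + m') = tot m + tot m' := by
  simp [tot, Finset.sum_add_distrib]

theorem tot_neg (m : Q → ℤ) : tot (-m) = -tot m := by
  simp [tot]

theorem tot_sum {ι : Type*} (s : Finset ι) (f : ι → Q → ℤ) :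
    tot (∑ i ∈ s, f i) = ∑ i ∈ s, tot (f i) := by
  simp only [tot, Finset.sum_apply]
  exact Finset.sum_comm

theorem tot_smul (g : SL(2, ℤ)) (m : Q → ℤ) : tot (g • m) = tot m :=
  Equiv.sum_comp (MulAction.toPerm (g⁻¹ : SL(2, ℤ))) m

theorem ip_eq_tot (f h : Q → ℤ) : ip f h = tot (f * h) := rfl

theorem smul_mul_fn (g : SL(2, ℤ)) (a b : Q → ℤ) : g • (a * b) = g • a * g • b := rfl

variable {c : SL(2, ℤ) → (Q → ℤ)}

theorem tot_pow (hc : IsCoc c) (g : SL(2, ℤ)) (n : ℕ) : tot (c (g ^ n)) = n * tot (c g) := by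
  rw [hc.pow, tot_sum]
  simp only [tot_smul, Finset.sum_const, Finset.card_range, nsmul_eq_mul]

theorem tot_eq_zero_of_pow_eq_one (hc : IsCoc c) (g : SL(2, ℤ)) (n : ℕ) (hn : 0 < n)
    (h : g ^ n = 1) : tot (c g) = 0 := by
  have h1 := tot_pow hc g n
  rw [h, hc.one, tot_zero] at h1
  rcases mul_eq_zero.1 h1.symm with h2 | h2
  · exact absurd (by exact_mod_cast h2) hn.ne'
  · exact h2

/-- the total sum of any cocycle at `T` vanishes -/
theorem tot_T (hc : IsCoc c) : tot (c T) = 0 := by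
  have hT : (T : SL(2, ℤ)) = S⁻¹ * (S * T) := by rw [inv_mul_cancel_left]
  rw [hT, hc, hc.inv, tot_add, tot_neg, tot_smul, tot_smul,
    tot_eq_zero_of_pow_eq_one hc S 4 (by norm_num) S_pow_four,
    tot_eq_zero_of_pow_eq_one hc (S * T) 6 (by norm_num) U_pow_six]
  simp

end Tot

/-! ### sums over the `T`-orbits -/

section Orbits

variable [Fintype Q]

theorem period_pos (g : SL(2, ℤ)) (x : Q) : 0 < MulAction.period g x := by
  have hfin : IsOfFinOrder (MulAction.toPermHom SL(2, ℤ) Q g) := isOfFinOrder_of_finite _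
  obtain ⟨n, hn, hgn⟩ := hfin.exists_pow_eq_one
  refine MulAction.period_pos_of_fixed hn ?_
  have : (MulAction.toPermHom SL(2, ℤ) Q (g ^ n)) x = x := by
    rw [map_pow, hgn]; rfl
  exact this

theorem pow_inv_smul_eq_zpow (g : SL(2, ℤ)) (i : ℕ) (x : Q) :
    (g ^ i)⁻¹ • x = g ^ (-(i : ℤ)) • x := by
  rw [zpow_neg, zpow_natCast]

/-- decomposition of a sum over `Q` along the `T`-orbits -/
theorem sum_eq_sum_orbits {C : Type*} [Fintype C] (π : Q → C)
    (hπ : ∀ x y, π x = π y ↔ ∃ k : ℤ, (T : SL(2, ℤ)) ^ k • x = y)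
    (s : C → Q) (hs : ∀ c, π (s c) = c) (f : Q → ℤ) :
    ∑ x, f x = ∑ c, ∑ i ∈ Finset.range (MulAction.period (T : SL(2, ℤ)) (s c)),
      f ((T ^ i)⁻¹ • s c) := by
  classical
  rw [← Finset.sum_fiberwise Finset.univ π f]
  refine Finset.sum_congr rfl (fun c _ => ?_)
  set h := MulAction.period (T : SL(2, ℤ)) (s c) with hh
  have hpos : 0 < h := period_pos T (s c)
  have hinj : Set.InjOn (fun i : ℕ => ((T : SL(2, ℤ)) ^ i)⁻¹ • s c) (Finset.range h) := by
    intro i hi j hj hij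
    simp only [Finset.coe_range, Set.mem_Iio] at hi hj
    have hij' : ((T : SL(2, ℤ)) ^ i)⁻¹ • s c = ((T : SL(2, ℤ)) ^ j)⁻¹ • s c := hij
    rw [pow_inv_smul_eq_zpow, pow_inv_smul_eq_zpow] at hij'
    have h1 : (T : SL(2, ℤ)) ^ ((j : ℤ) - i) • s c = s c := by
      have := congrArg (fun y => (T : SL(2, ℤ)) ^ (j : ℤ) • y) hij'
      simp only [← mul_smul, ← zpow_add] at this
      rw [add_neg_cancel, zpow_zero, one_smul] at this
      rw [sub_eq_add_neg]
      exact this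
    rw [MulAction.zpow_smul_eq_iff_period_dvd, ← hh] at h1
    have h2 : ((j : ℤ) - i) = 0 := by
      apply Int.eq_zero_of_abs_lt_dvd h1
      rw [abs_lt]
      constructor <;> omega
    omega
  have himg : (Finset.univ.filter (fun x => π x = c))
      = (Finset.range h).image (fun i : ℕ => ((T : SL(2, ℤ)) ^ i)⁻¹ • s c) := by
    ext y
    simp only [Finset.mem_filter, Finset.mem_univ, true_and, Finset.mem_image, Finset.mem_range]
    constructor
    · intro hy
      have h1 : π (s c) = π y := by rw [hs, hy]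
      obtain ⟨k, hk⟩ := (hπ _ _).1 h1
      refine ⟨((-k) % (h : ℤ)).toNat, ?_, ?_⟩
      · have h2 : (-k) % (h : ℤ) < h := Int.emod_lt_of_pos _ (by exact_mod_cast hpos)
        have h3 : 0 ≤ (-k) % (h : ℤ) := Int.emod_nonneg _ (by exact_mod_cast hpos.ne')
        omega
      · rw [pow_inv_smul_eq_zpow, ← hk]
        have h3 : 0 ≤ (-k) % (h : ℤ) := Int.emod_nonneg _ (by exact_mod_cast hpos.ne')
        rw [Int.toNat_of_nonneg h3]
        have h4 : (T : SL(2, ℤ)) ^ (-k + -((-k) % (h : ℤ))) • s c = s c := by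
          rw [MulAction.zpow_smul_eq_iff_period_dvd, ← hh]
          have := Int.emod_add_mul_ediv (-k) (h : ℤ)
          exact ⟨(-k) / (h : ℤ), by linarith⟩
        have h5 := congrArg (fun y => (T : SL(2, ℤ)) ^ k • y) h4
        simp only [← mul_smul, ← zpow_add] at h5
        rw [← h5]
        congr 2
        ring
    · rintro ⟨i, -, rfl⟩
      rw [← hs c]
      refine ((hπ _ _).2 ⟨(i : ℤ), ?_⟩)
      rw [hs c, pow_inv_smul_eq_zpow, ← mul_smul, ← zpow_add, add_neg_cancel, zpow_zero, one_smul]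
  rw [himg, Finset.sum_image hinj]

end Orbits

/-! ### Heisenberg cochains on `SL(2,ℤ)` -/

section Cochain

variable [Fintype Q] {Γ : Subgroup SL(2, ℤ)} {D : CosetData Γ Q}
variable {c c' K : SL(2, ℤ) → (Q → ℤ)}

omit [Fintype Q] in
theorem coc_pow_eq_zero (hc : IsCoc c) {g : SL(2, ℤ)} (hg : c g = 0) (n : ℕ) :
    c (g ^ n) = 0 := by
  rw [hc.pow, hg]
  simp

theorem K_one (hc : IsCoc c) (hK : ∀ g h, K (g * h) = K g + g • K h + c g * g • c' h) :
    K 1 = 0 := by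
  have h := hK 1 1
  rw [one_mul, one_smul, hc.one, zero_mul, add_zero] at h
  exact left_eq_add.mp h

/-- along a generator killed by `c'` there are no cross terms -/
theorem K_pow (hK : ∀ g h, K (g * h) = K g + g • K h + c g * g • c' h) (hc : IsCoc c)
    (g : SL(2, ℤ)) (hg' : c' g = 0) (n : ℕ) :
    K (g ^ n) = ∑ i ∈ Finset.range n, g ^ i • K g := by
  induction n with
  | zero => simp [K_one hc hK]
  | succ n ih =>
    rw [pow_succ, hK, ih, Finset.sum_range_succ, hg', smul_zero, mul_zero, add_zero]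

/-- the value of `K` at a Schreier element of a `g` killed by `c` and `c'` -/
theorem K_conj_apply (hc : IsCoc c)
    (hK : ∀ g h, K (g * h) = K g + g • K h + c g * g • c' h)
    (g : SL(2, ℤ)) (hg : c g = 0) (hg' : c' g = 0) (r : SL(2, ℤ)) (x₀ x : Q) (hr : r • x₀ = x)
    (hx : g⁻¹ • x = x) : K (r⁻¹ * g * r) x₀ = K g x := by
  have h1 := hK r⁻¹ r
  rw [inv_mul_cancel, K_one hc hK] at h1
  have h2 := congrFun h1 x₀
  have e1 : ∀ m : Q → ℤ, (r⁻¹ • m) x₀ = m x := by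
    intro m
    rw [Shapiro.smul_apply, inv_inv, hr]
  have e2 : ∀ m : Q → ℤ, ((r⁻¹ * g) • m) x₀ = m x := by
    intro m
    rw [Shapiro.smul_apply, mul_inv_rev, inv_inv, mul_smul, hr, hx]
  simp only [Pi.zero_apply, Pi.add_apply, Pi.mul_apply, e1] at h2
  rw [hK, hK, hc, hg, hg']
  simp only [smul_zero, mul_zero, add_zero, Pi.add_apply, Pi.mul_apply, e1, e2]
  linarith

end Cochain

/-! ### the explicit cochain of a pair of data -/

section Explicit

variable [Fintype Q] (hneg : ∀ x : Q, (-1 : SL(2, ℤ)) • x = x)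
include hneg

theorem S_inv_smul (m : Q → ℤ) : (S⁻¹ : SL(2, ℤ)) • m = S • m := by
  have : (S⁻¹ : SL(2, ℤ)) = -1 * S := by decide
  rw [this, mul_smul, neg_one_smul_fn hneg]

variable {z z' : (Q → ℤ) × (Q → ℤ)}

/-- the quadratic relator condition for `kS = v₁ w'` -/
theorem relS {c c' : SL(2, ℤ) → (Q → ℤ)} (hcS : c S = S • z.1 - z.1)
    (hcS' : c' S = S • z'.1 - z'.1) :
    z.1 * (z'.1 - S • z'.1) + S • (z.1 * (z'.1 - S • z'.1)) + c S * S • c' S = 0 := by
  rw [hcS, hcS']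
  simp only [smul_mul_fn, smul_sub, S_smul_S_smul hneg]
  ring

/-- the cubic relator condition for `kU = v₂ w'` -/
theorem relU {c c' : SL(2, ℤ) → (Q → ℤ)} (hc' : IsCoc c')
    (hcU : c (S * T) = (S * T) • z.2 - z.2) (hcU' : c' (S * T) = (S * T) • z'.2 - z'.2)
    (hz' : z' ∈ Zpar (sP Q) (tP Q)) :
    z.2 * (z'.1 - S • z'.1)
      + (S * T) • (z.2 * (z'.1 - S • z'.1) + (S * T) • (z.2 * (z'.1 - S • z'.1))
        + c (S * T) * (S * T) • c' (S * T))
      + c (S * T) * (S * T) • c' ((S * T) * (S * T)) = 0 := by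
  rw [mem_Zpar, pb_sP, pb_tP] at hz'
  rw [hc' (S * T) (S * T), hcU, hcU', hz']
  simp only [smul_mul_fn, smul_sub, smul_add, U_smul_cube hneg]
  ring

variable {c c' K : SL(2, ℤ) → (Q → ℤ)}

theorem K_T_eq (hc : IsCoc c)
    (hK : ∀ g h, K (g * h) = K g + g • K h + c g * g • c' h)
    (hcS : c S = S • z.1 - z.1) (hcS' : c' S = S • z'.1 - z'.1)
    (hcU' : c' (S * T) = (S * T) • z'.2 - z'.2) (hz' : z' ∈ Zpar (sP Q) (tP Q))
    (hKS : K S = z.1 * (z'.1 - S • z'.1)) (hKU : K (S * T) = z.2 * (z'.1 - S • z'.1)) :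
    K T = (S • z.1 - S • z.2) * (z'.1 - S • z'.1) := by
  rw [mem_Zpar, pb_sP, pb_tP] at hz'
  have hT : (T : SL(2, ℤ)) = S⁻¹ * (S * T) := by rw [inv_mul_cancel_left]
  have h1 := hK S⁻¹ S
  rw [inv_mul_cancel, K_one hc hK] at h1
  have h3 : K S⁻¹ = -(S⁻¹ • K S) - c S⁻¹ * S⁻¹ • c' S := by
    linear_combination -h1
  have hw : c' (S * T) = -(z'.1 - S • z'.1) := by
    rw [hcU', hz']; abel
  have h2 := hK S⁻¹ (S * T)
  rw [← hT] at h2
  rw [h2, h3, hc.inv, hKS, hKU, hcS, hcS', hw]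
  simp only [S_inv_smul hneg, smul_mul_fn, smul_sub, smul_neg, S_smul_S_smul hneg]
  ring

theorem tot_K_T (hc : IsCoc c)
    (hK : ∀ g h, K (g * h) = K g + g • K h + c g * g • c' h)
    (hcS : c S = S • z.1 - z.1) (hcS' : c' S = S • z'.1 - z'.1)
    (hcU' : c' (S * T) = (S * T) • z'.2 - z'.2) (hz' : z' ∈ Zpar (sP Q) (tP Q))
    (hKS : K S = z.1 * (z'.1 - S • z'.1)) (hKU : K (S * T) = z.2 * (z'.1 - S • z'.1)) :
    tot (K T) = - pair (sP Q) z z' := by
  rw [K_T_eq hneg hc hK hcS hcS' hcU' hz' hKS hKU, pair_apply, pb_sP, ip_eq_tot]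
  have : (S • z.1 - S • z.2) * (z'.1 - S • z'.1)
      = S • ((z.1 - z.2) * -(z'.1 - S • z'.1)) := by
    simp only [smul_mul_fn, smul_sub, smul_neg, S_smul_S_smul hneg]
    ring
  rw [this, tot_smul, mul_neg, tot_neg]

end Explicit

/-! ### the cusp-sum formula -/

section Main

variable [Fintype Q] {Γ : Subgroup SL(2, ℤ)} {D : CosetData Γ Q}

omit [Fintype Q] in
/-- the Schreier element of `T ^ (period)` at `x` is the cusp generator `r(x)⁻¹ T ^ h r(x)` -/
theorem coe_elt_T_pow_period (x : Q) :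
    ((D.elt (T ^ MulAction.period (T : SL(2, ℤ)) x) x : Γ) : SL(2, ℤ))
      = (D.r x)⁻¹ * T ^ MulAction.period (T : SL(2, ℤ)) x * D.r x := by
  apply elt_of_fixed
  rw [inv_smul_eq_iff, MulAction.pow_period_smul]

/-- **The cusp-sum formula.**  For data `z`, `z' ∈ Zpar` of `ψ`, `ψ'` and ANY Heisenberg lift
`κ` of `(ψ, ψ')`, the duality pairing is minus the sum of `κ` over the cusp generators. -/
theorem main (hneg : ∀ x : Q, (-1 : SL(2, ℤ)) • x = x) {ψ ψ' : Additive Γ →+ ℤ}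
    {z z' : (Q → ℤ) × (Q → ℤ)} (h : IsData D ψ z) (h' : IsData D ψ' z')
    (hz : z ∈ Zpar (sP Q) (tP Q)) (hz' : z' ∈ Zpar (sP Q) (tP Q))
    (κ : Γ → ℤ)
    (hκ : ∀ γ γ' : Γ, κ (γ * γ') = κ γ + κ γ' + ψ (Additive.ofMul γ) * ψ' (Additive.ofMul γ'))
    {C : Type*} [Fintype C] (π : Q → C)
    (hπ : ∀ x y, π x = π y ↔ ∃ k : ℤ, (T : SL(2, ℤ)) ^ k • x = y)
    (s : C → Q) (hs : ∀ c, π (s c) = c) :
    pair (sP Q) z z'
      = - ∑ c, κ (D.elt (T ^ MulAction.period (T : SL(2, ℤ)) (s c)) (s c)) := by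
  obtain ⟨c, hc, hcS, hcU, hψ⟩ := h
  obtain ⟨c', hc', hcS', hcU', hψ'⟩ := h'
  have hcT : c T = 0 := cT_eq_zero hc hcS hcU hz
  have hcT' : c' T = 0 := cT_eq_zero hc' hcS' hcU' hz'
  -- the Heisenberg cochain
  obtain ⟨K, hK, hKS, hKU⟩ := Cocycle.exists_heis (M := Q → ℤ) (μ := fun a b => a * b)
    (u := c) (u' := c') (fun a b d => add_mul a b d) (fun a b d => mul_add a b d)
    (fun g a b => rfl) hc hc' (neg_one_smul_fn hneg) (c_neg_one hneg hc hcS)
    (c_neg_one hneg hc' hcS') (z.1 * (z'.1 - S • z'.1)) (z.2 * (z'.1 - S • z'.1))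
    (relS hneg hcS hcS') (relU hneg hc' hcU hcU' hz')
  have hK' : ∀ g h, K (g * h) = K g + g • K h + c g * g • c' h := hK
  have hK1 : K 1 = 0 := K_one hc hK'
  -- `γ ↦ K γ x₀` is a lift
  have hκ0 : ∀ γ γ' : Γ, K ((γ * γ' : Γ) : SL(2, ℤ)) D.x₀
      = K (γ : SL(2, ℤ)) D.x₀ + K (γ' : SL(2, ℤ)) D.x₀
        + ψ (Additive.ofMul γ) * ψ' (Additive.ofMul γ') := by
    intro γ γ'
    rw [Subgroup.coe_mul, hK', ← hψ, ← hψ']
    simp only [Pi.add_apply, Pi.mul_apply, Shapiro.smul_apply, inv_smul_base]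
  -- the difference of the two lifts is a homomorphism
  have hκ1 : κ 1 = 0 := by
    have := hκ 1 1
    rw [one_mul, ofMul_one, map_zero, zero_mul, add_zero] at this
    exact left_eq_add.mp this
  let χ : Additive Γ →+ ℤ :=
    { toFun := fun γ => κ (Additive.toMul γ) - K ((Additive.toMul γ : Γ) : SL(2, ℤ)) D.x₀
      map_zero' := by
        show κ 1 - K ((1 : Γ) : SL(2, ℤ)) D.x₀ = 0
        rw [hκ1, Subgroup.coe_one, hK1]; rfl
      map_add' := by
        intro γ γ'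
        show κ (Additive.toMul γ * Additive.toMul γ')
            - K ((Additive.toMul γ * Additive.toMul γ' : Γ) : SL(2, ℤ)) D.x₀
          = κ (Additive.toMul γ) - K ((Additive.toMul γ : Γ) : SL(2, ℤ)) D.x₀
            + (κ (Additive.toMul γ') - K ((Additive.toMul γ' : Γ) : SL(2, ℤ)) D.x₀)
        rw [hκ, hκ0]; ring }
  have hχ : ∀ γ : Γ, κ γ = χ (Additive.ofMul γ) + K (γ : SL(2, ℤ)) D.x₀ := by
    intro γ
    show κ γ = κ γ - K (γ : SL(2, ℤ)) D.x₀ + K (γ : SL(2, ℤ)) D.x₀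
    ring
  have hcχ := isCoc_coc D χ
  -- the two cusp sums
  have hper : ∀ x : Q, ((T : SL(2, ℤ)) ^ MulAction.period (T : SL(2, ℤ)) x)⁻¹ • x = x := by
    intro x
    rw [inv_smul_eq_iff, MulAction.pow_period_smul]
  have hsumK : ∀ x : Q, K ((D.elt (T ^ MulAction.period (T : SL(2, ℤ)) x) x : Γ) : SL(2, ℤ)) D.x₀
      = ∑ i ∈ Finset.range (MulAction.period (T : SL(2, ℤ)) x), K T ((T ^ i)⁻¹ • x) := by
    intro x
    rw [coe_elt_T_pow_period, K_conj_apply hc hK' _ (coc_pow_eq_zero hc hcT _)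
      (coc_pow_eq_zero hc' hcT' _) (D.r x) D.x₀ x (D.r_smul x) (hper x),
      K_pow hK' hc T hcT', Finset.sum_apply]
    rfl
  have hsumχ : ∀ x : Q, χ (Additive.ofMul (D.elt (T ^ MulAction.period (T : SL(2, ℤ)) x) x))
      = ∑ i ∈ Finset.range (MulAction.period (T : SL(2, ℤ)) x), coc D χ T ((T ^ i)⁻¹ • x) := by
    intro x
    rw [← coc_apply, hcχ.pow, Finset.sum_apply]
    rfl
  have e1 : ∑ c, κ (D.elt (T ^ MulAction.period (T : SL(2, ℤ)) (s c)) (s c))
      = tot (coc D χ T) + tot (K T) := by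
    simp only [hχ, Finset.sum_add_distrib, hsumK, hsumχ]
    rw [tot, tot, sum_eq_sum_orbits π hπ s hs (coc D χ T), sum_eq_sum_orbits π hπ s hs (K T)]
  rw [e1, tot_T hcχ, zero_add,
    tot_K_T hneg hc hK' hcS hcS' hcU' hz' hKS hKU, neg_neg]

end Main

/-! ### complements: lifts are conjugation invariant on the kernel, existence of lifts,
and the total sum of an arbitrary Heisenberg cochain -/

section Lift

variable {Δ : Type*} [Group Δ] {ψ ψ' : Additive Δ →+ ℤ} {κ : Δ → ℤ}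

theorem lift_one
    (hκ : ∀ γ γ' : Δ, κ (γ * γ') = κ γ + κ γ' + ψ (Additive.ofMul γ) * ψ' (Additive.ofMul γ')) :
    κ 1 = 0 := by
  have := hκ 1 1
  rw [one_mul, ofMul_one, map_zero, zero_mul, add_zero] at this
  exact left_eq_add.mp this

/-- a Heisenberg lift is invariant under conjugation on the common kernel of `ψ`, `ψ'`
(this is the hypothesis `hκ'` of `Periph.sum_cuspGen_conj`) -/
theorem lift_conj
    (hκ : ∀ γ γ' : Δ, κ (γ * γ') = κ γ + κ γ' + ψ (Additive.ofMul γ) * ψ' (Additive.ofMul γ'))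
    (γ η : Δ) (h : ψ (Additive.ofMul γ) = 0) (h' : ψ' (Additive.ofMul γ) = 0) :
    κ (η⁻¹ * γ * η) = κ γ := by
  have h1 := hκ η⁻¹ η
  rw [inv_mul_cancel, lift_one hκ] at h1
  rw [hκ, hκ, ofMul_mul, map_add, h, h', mul_zero, add_zero, add_zero]
  linarith

end Lift

section Complements

variable [Fintype Q] {Γ : Subgroup SL(2, ℤ)} {D : CosetData Γ Q}

/-- existence of a Heisenberg lift of a pair of parabolic homomorphisms -/
theorem exists_lift (hneg : ∀ x : Q, (-1 : SL(2, ℤ)) • x = x) {ψ ψ' : Additive Γ →+ ℤ}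
    {z z' : (Q → ℤ) × (Q → ℤ)} (h : IsData D ψ z) (h' : IsData D ψ' z')
    (hz' : z' ∈ Zpar (sP Q) (tP Q)) :
    ∃ κ : Γ → ℤ, ∀ γ γ' : Γ,
      κ (γ * γ') = κ γ + κ γ' + ψ (Additive.ofMul γ) * ψ' (Additive.ofMul γ') := by
  obtain ⟨c, hc, hcS, hcU, hψ⟩ := h
  obtain ⟨c', hc', hcS', hcU', hψ'⟩ := h'
  obtain ⟨K, hK, -, -⟩ := Cocycle.exists_heis (M := Q → ℤ) (μ := fun a b => a * b)
    (u := c) (u' := c') (fun a b d => add_mul a b d) (fun a b d => mul_add a b d)
    (fun g a b => rfl) hc hc' (neg_one_smul_fn hneg) (c_neg_one hneg hc hcS)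
    (c_neg_one hneg hc' hcS') (z.1 * (z'.1 - S • z'.1)) (z.2 * (z'.1 - S • z'.1))
    (relS hneg hcS hcS') (relU hneg hc' hcU hcU' hz')
  have hK' : ∀ g h, K (g * h) = K g + g • K h + c g * g • c' h := hK
  refine ⟨fun γ => K (γ : SL(2, ℤ)) D.x₀, fun γ γ' => ?_⟩
  show K ((γ * γ' : Γ) : SL(2, ℤ)) D.x₀ = _
  rw [Subgroup.coe_mul, hK', ← hψ, ← hψ']
  simp only [Pi.add_apply, Pi.mul_apply, Shapiro.smul_apply, inv_smul_base]

/-- the total sum at `T` of ANY Heisenberg cochain of the cocycles with data `z`, `z' ∈ Zpar` is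
minus the pairing -/
theorem tot_T_eq_neg_pair (hneg : ∀ x : Q, (-1 : SL(2, ℤ)) • x = x)
    {z z' : (Q → ℤ) × (Q → ℤ)} {c c' K : SL(2, ℤ) → (Q → ℤ)} (hc : IsCoc c) (hc' : IsCoc c')
    (hcS : c S = S • z.1 - z.1) (hcU : c (S * T) = (S * T) • z.2 - z.2)
    (hcS' : c' S = S • z'.1 - z'.1) (hcU' : c' (S * T) = (S * T) • z'.2 - z'.2)
    (hz' : z' ∈ Zpar (sP Q) (tP Q))
    (hK : ∀ g h, K (g * h) = K g + g • K h + c g * g • c' h) :
    tot (K T) = - pair (sP Q) z z' := by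
  obtain ⟨K₀, hK₀, hKS, hKU⟩ := Cocycle.exists_heis (M := Q → ℤ) (μ := fun a b => a * b)
    (u := c) (u' := c') (fun a b d => add_mul a b d) (fun a b d => mul_add a b d)
    (fun g a b => rfl) hc hc' (neg_one_smul_fn hneg) (c_neg_one hneg hc hcS)
    (c_neg_one hneg hc' hcS') (z.1 * (z'.1 - S • z'.1)) (z.2 * (z'.1 - S • z'.1))
    (relS hneg hcS hcS') (relU hneg hc' hcU hcU' hz')
  have hK₀' : ∀ g h, K₀ (g * h) = K₀ g + g • K₀ h + c g * g • c' h := hK₀
  have hd : IsCoc (fun g => K g - K₀ g) := by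
    intro g h
    show K (g * h) - K₀ (g * h) = K g - K₀ g + g • (K h - K₀ h)
    rw [hK, hK₀', smul_sub]; abel
  have h0 := tot_T hd
  have h1 : K T = (K T - K₀ T) + K₀ T := by abel
  rw [h1, tot_add, h0, zero_add, tot_K_T hneg hc hK₀' hcS hcS' hcU' hz' hKS hKU]

end Complements

end Fermat.Agent.S41.PD.Heis
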