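import Mathlib
import Fermat.Agent.S21.Parabolic

/-!
# S41 (project R), slice R-PD-Periph: peripheral (cusp) generators of finite index subgroups
of `SL(2,ℤ)` and their invariance under conjugation by matrices of positive determinant

* `IsPosPar g` : `g ∈ SL(2,ℤ)` is a *positive parabolic* element (a conjugate of `T ^ n`, `n > 0`):
  trace `2`, `g ≠ 1` and the semi-definite form `v ↦ det (v, g v)` is `≤ 0`, i.e.
  `g 1 0 ≤ 0 ≤ g 0 1`.
* `isPosPar_iff_of_intertwine` : if `δ * g = g' * δ` for an integral matrix `δ` of positive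
  determinant then `IsPosPar g ↔ IsPosPar g'`.
* `width Γ x` : the width of the cusp `x ∈ SL(2,ℤ) ⧸ Γ` (period of `x` under `T`).
* `IsCuspGen Γ γ x` : `γ = h⁻¹ T ^ (width x) h` for a representative `h` of `x`.
* the correspondence between `T`-orbits on `SL(2,ℤ) ⧸ Γ` and `Γ`-conjugacy classes of primitive
  positive parabolic elements of `Γ`, and its consequence `sum_cuspGen_conj`.
-/

set_option autoImplicit false

namespace Fermat.Agent.S41.PD.Periph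

open Matrix ModularGroup MulAction
open scoped MatrixGroups

/-! ### Positive parabolic elements -/

/-- `g ∈ SL(2,ℤ)` is a positive parabolic element. -/
def IsPosPar (g : SL(2, ℤ)) : Prop :=
  g 0 0 + g 1 1 = 2 ∧ g ≠ 1 ∧ g 1 0 ≤ 0 ∧ 0 ≤ g 0 1

theorem det_eq (g : SL(2, ℤ)) : g 0 0 * g 1 1 - g 0 1 * g 1 0 = 1 := by
  have := g.det_coe
  rwa [Matrix.det_fin_two] at this

/-- The entries of `h⁻¹ T ^ n h`. -/
theorem conj_T_zpow_apply (h : SL(2, ℤ)) (n : ℤ) :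
    (h⁻¹ * T ^ n * h) 0 0 = 1 + n * (h 1 0 * h 1 1) ∧
    (h⁻¹ * T ^ n * h) 0 1 = n * h 1 1 ^ 2 ∧
    (h⁻¹ * T ^ n * h) 1 0 = -(n * h 1 0 ^ 2) ∧
    (h⁻¹ * T ^ n * h) 1 1 = 1 - n * (h 1 0 * h 1 1) := by
  have hd := det_eq h
  simp only [Matrix.SpecialLinearGroup.coe_mul, Matrix.SpecialLinearGroup.coe_inv,
    Matrix.adjugate_fin_two, coe_T_zpow, Matrix.mul_apply, Fin.sum_univ_two]
  simp only [Matrix.of_apply, Matrix.cons_val', Matrix.cons_val_zero, Matrix.cons_val_one,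
    Matrix.empty_val', Matrix.cons_val_fin_one]
  refine ⟨?_, ?_, ?_, ?_⟩
  · linear_combination hd
  · ring
  · ring
  · linear_combination hd

theorem row_one_ne_zero (h : SL(2, ℤ)) : h 1 0 ≠ 0 ∨ h 1 1 ≠ 0 := by
  by_contra hcon
  rw [not_or, not_not, not_not] at hcon
  have hd := det_eq h
  rw [hcon.1, hcon.2] at hd
  simp at hd

/-- `h⁻¹ T ^ n h` is positive parabolic iff `n > 0`. -/
theorem isPosPar_conj_T_zpow_iff (h : SL(2, ℤ)) (n : ℤ) :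
    IsPosPar (h⁻¹ * T ^ n * h) ↔ 0 < n := by
  obtain ⟨h00, h01, h10, h11⟩ := conj_T_zpow_apply h n
  constructor
  · rintro ⟨-, hne, hc, hb⟩
    rw [h10] at hc
    rw [h01] at hb
    rcases lt_trichotomy n 0 with hn | hn | hn
    · exfalso
      rcases row_one_ne_zero h with hr | hr
      · have : 0 < h 1 0 ^ 2 := by positivity
        nlinarith
      · have : 0 < h 1 1 ^ 2 := by positivity
        nlinarith
    · exfalso
      apply hne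
      rw [hn, zpow_zero, mul_one, inv_mul_cancel]
    · exact hn
  · intro hn
    refine ⟨by rw [h00, h11]; ring, ?_, ?_, ?_⟩
    · intro h1
      have e01 : (h⁻¹ * T ^ n * h) 0 1 = 0 := by rw [h1]; simp
      have e10 : (h⁻¹ * T ^ n * h) 1 0 = 0 := by rw [h1]; simp
      rw [h01] at e01
      rw [h10] at e10
      rcases row_one_ne_zero h with hr | hr
      · have : 0 < h 1 0 ^ 2 := by positivity
        nlinarith
      · have : 0 < h 1 1 ^ 2 := by positivity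
        nlinarith
    · rw [h10]
      have : 0 ≤ h 1 0 ^ 2 := by positivity
      nlinarith
    · rw [h01]
      have : 0 ≤ h 1 1 ^ 2 := by positivity
      nlinarith

theorem isPosPar_T_pow {n : ℕ} (hn : 0 < n) : IsPosPar (T ^ n) := by
  have := (isPosPar_conj_T_zpow_iff 1 (n : ℤ)).mpr (by exact_mod_cast hn)
  simpa using this

/-- The form `v ↦ det (v, g v)` of a positive parabolic element is negative semi-definite. -/
theorem IsPosPar.form_nonpos {g : SL(2, ℤ)} (hg : IsPosPar g) (x y : ℤ) :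
    g 1 0 * x ^ 2 + (g 1 1 - g 0 0) * (x * y) - g 0 1 * y ^ 2 ≤ 0 := by
  obtain ⟨htr, -, hc, hb⟩ := hg
  have hd := det_eq g
  have hdisc : (g 1 1 - g 0 0) ^ 2 = -(4 * (g 0 1 * g 1 0)) := by
    have : g 1 1 = 2 - g 0 0 := by linarith
    rw [this] at hd ⊢
    linear_combination -4 * hd
  rcases hc.lt_or_eq with hc | hc
  · have hsq : 4 * g 1 0 * (g 1 0 * x ^ 2 + (g 1 1 - g 0 0) * (x * y) - g 0 1 * y ^ 2)
        = (2 * g 1 0 * x + (g 1 1 - g 0 0) * y) ^ 2 := by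
      linear_combination (-(y ^ 2)) * hdisc
    have h0 : 0 ≤ (2 * g 1 0 * x + (g 1 1 - g 0 0) * y) ^ 2 := by positivity
    by_contra hpos
    rw [not_le] at hpos
    have : 4 * g 1 0 * (g 1 0 * x ^ 2 + (g 1 1 - g 0 0) * (x * y) - g 0 1 * y ^ 2) < 0 := by
      have h4 : 4 * g 1 0 < 0 := by linarith
      exact mul_neg_of_neg_of_pos h4 hpos
    linarith
  · rw [hc] at hdisc ⊢
    have hda : g 1 1 - g 0 0 = 0 := by
      have : (g 1 1 - g 0 0) ^ 2 = 0 := by rw [hdisc]; ring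
      exact pow_eq_zero_iff (two_ne_zero) |>.mp this
    rw [hda]
    have : 0 ≤ g 0 1 * y ^ 2 := mul_nonneg hb (by positivity)
    linarith

/-- One direction of the invariance of positivity under intertwining by an integral matrix of
positive determinant. -/
theorem IsPosPar.of_intertwine {δ : Matrix (Fin 2) (Fin 2) ℤ} (hδ : 0 < δ.det)
    {g g' : SL(2, ℤ)} (h : δ * g.1 = g'.1 * δ) (hg : IsPosPar g) : IsPosPar g' := by
  have e00 := congrFun (congrFun h 0) 0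
  have e01 := congrFun (congrFun h 0) 1
  have e10 := congrFun (congrFun h 1) 0
  have e11 := congrFun (congrFun h 1) 1
  simp only [Matrix.mul_apply, Fin.sum_univ_two] at e00 e01 e10 e11
  rw [Matrix.det_fin_two] at hδ
  obtain ⟨D, hD⟩ : ∃ D : ℤ, D = δ 0 0 * δ 1 1 - δ 0 1 * δ 1 0 := ⟨_, rfl⟩
  rw [← hD] at hδ
  have hD0 : D ≠ 0 := hδ.ne'
  -- the entries of `g'`
  have ha : D * g' 0 0 = (δ 0 0 * g 0 0 + δ 0 1 * g 1 0) * δ 1 1
      - (δ 0 0 * g 0 1 + δ 0 1 * g 1 1) * δ 1 0 := by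
    rw [hD]; linear_combination (-(δ 1 1)) * e00 + δ 1 0 * e01
  have hb : D * g' 0 1 = -((δ 0 0 * g 0 0 + δ 0 1 * g 1 0) * δ 0 1)
      + (δ 0 0 * g 0 1 + δ 0 1 * g 1 1) * δ 0 0 := by
    rw [hD]; linear_combination δ 0 1 * e00 - δ 0 0 * e01
  have hc : D * g' 1 0 = (δ 1 0 * g 0 0 + δ 1 1 * g 1 0) * δ 1 1
      - (δ 1 0 * g 0 1 + δ 1 1 * g 1 1) * δ 1 0 := by
    rw [hD]; linear_combination (-(δ 1 1)) * e10 + δ 1 0 * e11
  have hd : D * g' 1 1 = -((δ 1 0 * g 0 0 + δ 1 1 * g 1 0) * δ 0 1)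
      + (δ 1 0 * g 0 1 + δ 1 1 * g 1 1) * δ 0 0 := by
    rw [hD]; linear_combination δ 0 1 * e10 - δ 0 0 * e11
  have hform1 := hg.form_nonpos (δ 1 1) (-(δ 1 0))
  have hform2 := hg.form_nonpos (-(δ 0 1)) (δ 0 0)
  obtain ⟨htr, hne, -, -⟩ := hg
  refine ⟨?_, ?_, ?_, ?_⟩
  · have : D * (g' 0 0 + g' 1 1) = D * 2 := by
      rw [← htr, mul_add, ha, hd, hD]; ring
    exact mul_left_cancel₀ hD0 this
  · intro h1
    apply hne
    have f00 : g' 0 0 = 1 := by rw [h1]; simp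
    have f01 : g' 0 1 = 0 := by rw [h1]; simp
    have f10 : g' 1 0 = 0 := by rw [h1]; simp
    have f11 : g' 1 1 = 1 := by rw [h1]; simp
    rw [f00, f01] at e00 e01
    rw [f10, f11] at e10 e11
    have k00 : D * (g 0 0 - 1) = 0 := by
      rw [hD]; linear_combination δ 1 1 * e00 - δ 0 1 * e10
    have k10 : D * g 1 0 = 0 := by
      rw [hD]; linear_combination (-(δ 1 0)) * e00 + δ 0 0 * e10
    have k01 : D * g 0 1 = 0 := by
      rw [hD]; linear_combination δ 1 1 * e01 - δ 0 1 * e11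
    have k11 : D * (g 1 1 - 1) = 0 := by
      rw [hD]; linear_combination (-(δ 1 0)) * e01 + δ 0 0 * e11
    have l00 : g 0 0 = 1 := by
      have := (mul_eq_zero.mp k00).resolve_left hD0; linarith
    have l10 : g 1 0 = 0 := (mul_eq_zero.mp k10).resolve_left hD0
    have l01 : g 0 1 = 0 := (mul_eq_zero.mp k01).resolve_left hD0
    have l11 : g 1 1 = 1 := by
      have := (mul_eq_zero.mp k11).resolve_left hD0; linarith
    ext i j
    fin_cases i <;> fin_cases j <;> simp [l00, l01, l10, l11]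
  · have : D * g' 1 0 ≤ 0 := by
      rw [hc]; linarith [hform1]
    by_contra hpos
    rw [not_le] at hpos
    have := mul_pos hδ hpos
    linarith
  · have : 0 ≤ D * g' 0 1 := by
      rw [hb]; linarith [hform2]
    by_contra hneg
    rw [not_le] at hneg
    have := mul_neg_of_pos_of_neg hδ hneg
    linarith

/-- **Invariance of positivity** under intertwining by an integral matrix of positive determinant
(conjugation by an element of `GL₂⁺(ℚ)`). -/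
theorem isPosPar_iff_of_intertwine {δ : Matrix (Fin 2) (Fin 2) ℤ} (hδ : 0 < δ.det)
    {g g' : SL(2, ℤ)} (h : δ * g.1 = g'.1 * δ) : IsPosPar g ↔ IsPosPar g' := by
  refine ⟨IsPosPar.of_intertwine hδ h, IsPosPar.of_intertwine (δ := δ.adjugate) ?_ ?_⟩
  · rw [Matrix.det_adjugate]; simpa using hδ
  · -- `adj δ * g' = g * adj δ`
    have h1 : δ.det • (δ.adjugate * g'.1) = δ.det • (g.1 * δ.adjugate) := by
      calc δ.det • (δ.adjugate * g'.1) = δ.adjugate * g'.1 * (δ * δ.adjugate) := by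
            rw [Matrix.mul_adjugate, Matrix.mul_smul, Matrix.mul_one]
        _ = δ.adjugate * (g'.1 * δ) * δ.adjugate := by simp only [Matrix.mul_assoc]
        _ = δ.adjugate * (δ * g.1) * δ.adjugate := by rw [h]
        _ = (δ.adjugate * δ) * g.1 * δ.adjugate := by simp only [Matrix.mul_assoc]
        _ = δ.det • (g.1 * δ.adjugate) := by
            rw [Matrix.adjugate_mul, Matrix.smul_mul, Matrix.smul_mul, Matrix.one_mul]
    exact smul_right_injective _ hδ.ne' h1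

/-! ### Upper triangular elements -/

theorem eq_T_zpow_of_apply_one_zero (A : SL(2, ℤ)) (hc : A 1 0 = 0) :
    A = T ^ (A 0 1) ∨ A = -T ^ (-(A 0 1)) := by
  have had := det_eq A
  replace had : A 0 0 * A 1 1 = 1 := by rw [hc] at had; linarith
  rcases Int.eq_one_or_neg_one_of_mul_eq_one' had with (⟨ha, hd⟩ | ⟨ha, hd⟩)
  · left
    ext i j; fin_cases i <;> fin_cases j <;>
      simp [ha, hc, hd, coe_T_zpow, show (1 : Fin (0 + 2)) = (1 : Fin 2) from rfl]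
  · right
    ext i j; fin_cases i <;> fin_cases j <;>
      simp [ha, hc, hd, coe_T_zpow, show (1 : Fin (0 + 2)) = (1 : Fin 2) from rfl]

/-- If `A T ^ a = T ^ b A` with `a ≠ 0` then `A` is upper triangular. -/
theorem apply_one_zero_of_intertwine_T {A : SL(2, ℤ)} {a b : ℤ} (ha : a ≠ 0)
    (h : A * T ^ a = T ^ b * A) : A 1 0 = 0 := by
  have e := congrArg (fun M : SL(2, ℤ) => M 1 1) h
  simp only [Matrix.SpecialLinearGroup.coe_mul, coe_T_zpow, Matrix.mul_apply,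
    Fin.sum_univ_two] at e
  simp only [Matrix.of_apply, Matrix.cons_val', Matrix.cons_val_zero, Matrix.cons_val_one,
    Matrix.empty_val', Matrix.cons_val_fin_one] at e
  have : A 1 0 * a = 0 := by linarith
  exact (mul_eq_zero.mp this).resolve_right ha

/-! ### Widths and cusp generators -/

section Cusps

variable (Γ : Subgroup SL(2, ℤ))

/-- The width of the cusp attached to the coset `x`: the period of `x` under `T`. -/
noncomputable def width (x : SL(2, ℤ) ⧸ Γ) : ℕ := MulAction.period (T : SL(2, ℤ)) x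

theorem T_zpow_smul_eq_iff (x : SL(2, ℤ) ⧸ Γ) (n : ℤ) :
    (T : SL(2, ℤ)) ^ n • x = x ↔ (width Γ x : ℤ) ∣ n :=
  MulAction.zpow_smul_eq_iff_period_dvd

theorem T_pow_width_smul (x : SL(2, ℤ) ⧸ Γ) : (T : SL(2, ℤ)) ^ (width Γ x) • x = x :=
  MulAction.pow_period_smul _ _

theorem width_pos [Γ.FiniteIndex] (x : SL(2, ℤ) ⧸ Γ) : 0 < width Γ x := by
  have : Finite (SL(2, ℤ) ⧸ Γ) := Subgroup.finite_quotient_of_finiteIndex
  obtain ⟨a, b, hab, he⟩ := Finite.exists_ne_map_eq_of_infinite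
    (fun k : ℕ => (T : SL(2, ℤ)) ^ k • x)
  change (T : SL(2, ℤ)) ^ a • x = (T : SL(2, ℤ)) ^ b • x at he
  wlog hlt : a < b generalizing a b
  · exact this b a hab.symm he.symm (lt_of_le_of_ne (not_lt.mp hlt) hab.symm)
  have hfix : (T : SL(2, ℤ)) ^ (b - a) • x = x := by
    have : (T : SL(2, ℤ)) ^ b = T ^ a * T ^ (b - a) := by
      rw [← pow_add]; congr 1; omega
    rw [this, mul_smul] at he
    exact (smul_left_cancel _ he).symm
  exact MulAction.period_pos_of_fixed (by omega) hfix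

theorem width_T_zpow_smul (k : ℤ) (x : SL(2, ℤ) ⧸ Γ) :
    width Γ ((T : SL(2, ℤ)) ^ k • x) = width Γ x := by
  have key : ∀ n : ℤ, (T : SL(2, ℤ)) ^ n • ((T : SL(2, ℤ)) ^ k • x) = (T : SL(2, ℤ)) ^ k • x
      ↔ (T : SL(2, ℤ)) ^ n • x = x := by
    intro n
    rw [← mul_smul, ← _root_.zpow_add, add_comm, _root_.zpow_add, mul_smul]
    exact smul_left_cancel_iff _
  apply Nat.dvd_antisymm
  · have := (key (width Γ x)).mpr (by rw [zpow_natCast]; exact T_pow_width_smul Γ x)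
    rw [T_zpow_smul_eq_iff] at this
    exact_mod_cast this
  · have := (key (width Γ ((T : SL(2, ℤ)) ^ k • x))).mp
      (by rw [zpow_natCast]; exact T_pow_width_smul Γ _)
    rw [T_zpow_smul_eq_iff] at this
    exact_mod_cast this

/-- `g` fixes the coset of `h` iff `h⁻¹ g h ∈ Γ`. -/
theorem smul_mk_eq_iff (g h : SL(2, ℤ)) :
    g • (h : SL(2, ℤ) ⧸ Γ) = (h : SL(2, ℤ) ⧸ Γ) ↔ h⁻¹ * g * h ∈ Γ := by
  rw [MulAction.Quotient.smul_mk, smul_eq_mul, eq_comm, QuotientGroup.eq, mul_assoc]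

/-- `γ` is a generator of the stabiliser of the cusp attached to `x`:
`γ = h⁻¹ T ^ (width x) h` for a representative `h` of `x`. -/
def IsCuspGen (γ : SL(2, ℤ)) (x : SL(2, ℤ) ⧸ Γ) : Prop :=
  ∃ h : SL(2, ℤ), (h : SL(2, ℤ) ⧸ Γ) = x ∧ γ = h⁻¹ * T ^ (width Γ x) * h

theorem isCuspGen_of_mk {x : SL(2, ℤ) ⧸ Γ} {h : SL(2, ℤ)} (hx : (h : SL(2, ℤ) ⧸ Γ) = x) :
    IsCuspGen Γ (h⁻¹ * T ^ (width Γ x) * h) x := ⟨h, hx, rfl⟩

theorem IsCuspGen.mem {γ : SL(2, ℤ)} {x : SL(2, ℤ) ⧸ Γ} (h : IsCuspGen Γ γ x) : γ ∈ Γ := by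
  obtain ⟨h, rfl, rfl⟩ := h
  rw [← smul_mk_eq_iff]
  exact T_pow_width_smul Γ _

theorem exists_isCuspGen (x : SL(2, ℤ) ⧸ Γ) : ∃ γ, IsCuspGen Γ γ x :=
  ⟨_, isCuspGen_of_mk Γ (QuotientGroup.out_eq' x)⟩

/-- Primitive positive parabolic elements of `Γ`. -/
def IsPrimPosPar (γ : SL(2, ℤ)) : Prop :=
  γ ∈ Γ ∧ IsPosPar γ ∧ ∀ η ∈ Γ, IsPosPar η → ∀ k : ℕ, η ^ k = γ → k = 1

theorem T_zpow_injective : Function.Injective (fun n : ℤ => (T : SL(2, ℤ)) ^ n) := by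
  intro a b hab
  have e := congrArg (fun M : SL(2, ℤ) => M 0 1) hab
  simpa [coe_T_zpow] using e

theorem neg_conj_T_zpow_trace (h : SL(2, ℤ)) (n : ℤ) :
    (-(h⁻¹ * T ^ n * h)) 0 0 + (-(h⁻¹ * T ^ n * h)) 1 1 = -2 := by
  obtain ⟨h00, -, -, h11⟩ := conj_T_zpow_apply h n
  simp only [Matrix.SpecialLinearGroup.coe_neg, Matrix.neg_apply]
  rw [h00, h11]; ring

theorem conj_pow (h A : SL(2, ℤ)) (k : ℕ) : (h⁻¹ * A * h) ^ k = h⁻¹ * A ^ k * h := by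
  induction k with
  | zero => simp
  | succ k ih => rw [pow_succ, ih, pow_succ]; group

variable {Γ}

/-- Conjugating a cusp generator by an element of `Γ` gives a cusp generator of the same cusp. -/
theorem IsCuspGen.conj {γ : SL(2, ℤ)} {x : SL(2, ℤ) ⧸ Γ} (hγ : IsCuspGen Γ γ x)
    {η : SL(2, ℤ)} (hη : η ∈ Γ) : IsCuspGen Γ (η⁻¹ * γ * η) x := by
  obtain ⟨h, rfl, rfl⟩ := hγ
  refine ⟨h * η, ?_, ?_⟩
  · exact QuotientGroup.mk_mul_of_mem h hη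
  · group

/-- Cusp generators are primitive positive parabolic elements. -/
theorem IsCuspGen.isPrimPosPar [Γ.FiniteIndex] {γ : SL(2, ℤ)} {x : SL(2, ℤ) ⧸ Γ}
    (hγ : IsCuspGen Γ γ x) : IsPrimPosPar Γ γ := by
  refine ⟨hγ.mem, ?_, ?_⟩
  · obtain ⟨h, rfl, rfl⟩ := hγ
    rw [← zpow_natCast, isPosPar_conj_T_zpow_iff]
    exact_mod_cast width_pos Γ _
  · obtain ⟨h, rfl, rfl⟩ := hγ
    intro η hη hpos k hk
    set e := width Γ (h : SL(2, ℤ) ⧸ Γ) with he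
    have he0 : 0 < e := width_pos Γ _
    -- `A = h η h⁻¹` commutes with `T ^ e`
    have hA : (h * η * h⁻¹) * T ^ (e : ℤ) = T ^ (e : ℤ) * (h * η * h⁻¹) := by
      have h1 : (T : SL(2, ℤ)) ^ (e : ℤ) = h * η ^ k * h⁻¹ := by
        rw [hk, zpow_natCast]; group
      rw [h1]
      have h2 : η * η ^ k = η ^ k * η := (pow_mul_comm' η k).symm ▸ rfl
      calc h * η * h⁻¹ * (h * η ^ k * h⁻¹) = h * (η * η ^ k) * h⁻¹ := by group
        _ = h * (η ^ k * η) * h⁻¹ := by rw [h2]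
        _ = h * η ^ k * h⁻¹ * (h * η * h⁻¹) := by group
    have hc := apply_one_zero_of_intertwine_T (by exact_mod_cast he0.ne') hA
    rcases eq_T_zpow_of_apply_one_zero _ hc with hT | hT
    · set m := (h * η * h⁻¹) 0 1 with hm
      have hη' : η = h⁻¹ * T ^ m * h := by rw [← hT]; group
      have hm0 : 0 < m := by rw [← isPosPar_conj_T_zpow_iff h, ← hη']; exact hpos
      -- `m * k = e`
      have hmk : m * k = e := by
        apply T_zpow_injective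
        show (T : SL(2, ℤ)) ^ (m * k) = T ^ (e : ℤ)
        have h3 : (h⁻¹ * T ^ m * h) ^ k = h⁻¹ * T ^ (e : ℤ) * h := by
          rw [← hη', hk, zpow_natCast]
        rw [conj_pow, ← zpow_natCast (T ^ m) k, ← _root_.zpow_mul] at h3
        have h4 : h * (h⁻¹ * T ^ (m * ↑k) * h) * h⁻¹ = h * (h⁻¹ * T ^ (e : ℤ) * h) * h⁻¹ := by
          rw [h3]
        have e1 : h * (h⁻¹ * T ^ (m * ↑k) * h) * h⁻¹ = (T : SL(2, ℤ)) ^ (m * k) := by group
        have e2 : h * (h⁻¹ * T ^ (e : ℤ) * h) * h⁻¹ = (T : SL(2, ℤ)) ^ (e : ℤ) := by group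
        rw [e1, e2] at h4
        exact h4
      -- `e ∣ m`
      have hdvd : (e : ℤ) ∣ m := by
        rw [he, ← T_zpow_smul_eq_iff, smul_mk_eq_iff, ← hη']
        exact hη
      obtain ⟨j, hj⟩ := hdvd
      have he' : (e : ℤ) ≠ 0 := by exact_mod_cast he0.ne'
      have hjk : j * k = 1 := by
        have : (e : ℤ) * (j * k) = e * 1 := by rw [mul_one, ← mul_assoc, ← hj, hmk]
        exact mul_left_cancel₀ he' this
      have hk1 : (k : ℤ) = 1 ∨ (k : ℤ) = -1 := Int.isUnit_iff.mp (IsUnit.of_mul_eq_one _ (by rw [mul_comm]; exact hjk))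
      rcases hk1 with hk1 | hk1
      · exact_mod_cast hk1
      · exfalso; have : (0 : ℤ) ≤ k := Int.natCast_nonneg k; omega
    · exfalso
      set m := -(h * η * h⁻¹) 0 1 with hm
      have hη' : η = -(h⁻¹ * T ^ m * h) := by
        have : η = h⁻¹ * (h * η * h⁻¹) * h := by group
        rw [this, hT]
        simp
      have htr := neg_conj_T_zpow_trace h m
      rw [← hη'] at htr
      have := hpos.1
      omega

/-- Every primitive positive parabolic element of `Γ` is a cusp generator. -/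
theorem IsPrimPosPar.exists_isCuspGen {γ : SL(2, ℤ)} (hγ : IsPrimPosPar Γ γ) :
    ∃ x : SL(2, ℤ) ⧸ Γ, IsCuspGen Γ γ x := by
  obtain ⟨hmem, hpos, hprim⟩ := hγ
  have htr : (γ : Matrix (Fin 2) (Fin 2) ℤ).trace ^ 2 = 4 := by
    rw [Matrix.trace_fin_two, hpos.1]; norm_num
  obtain ⟨d, k, hk | hk⟩ := Fermat.Agent.S21.Parabolic.exists_conj_T_zpow γ htr
  · -- `γ = h⁻¹ T ^ k h` with `h = d⁻¹`
    obtain ⟨h, hh⟩ : ∃ h : SL(2, ℤ), h = d⁻¹ := ⟨_, rfl⟩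
    have hγ' : γ = h⁻¹ * T ^ k * h := by rw [hk, hh]; group
    have hk0 : 0 < k := by rw [← isPosPar_conj_T_zpow_iff h, ← hγ']; exact hpos
    set x : SL(2, ℤ) ⧸ Γ := (h : SL(2, ℤ) ⧸ Γ) with hx
    set e := width Γ x with he
    have hdvd : (e : ℤ) ∣ k := by
      rw [he, ← T_zpow_smul_eq_iff, hx, smul_mk_eq_iff, ← hγ']
      exact hmem
    obtain ⟨j, hj⟩ := hdvd
    have he0 : 0 < (e : ℤ) := by
      rcases (Int.natCast_nonneg e).lt_or_eq with h0 | h0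
      · exact h0
      · exfalso; rw [← h0, zero_mul] at hj; omega
    have hj0 : 0 < j := by
      by_contra hcon
      rw [not_lt] at hcon
      have : (e : ℤ) * j ≤ 0 := mul_nonpos_of_nonneg_of_nonpos he0.le hcon
      omega
    -- `η = h⁻¹ T ^ e h ∈ Γ` is positive parabolic with `η ^ j = γ`
    have hηmem : h⁻¹ * T ^ e * h ∈ Γ := by
      rw [← smul_mk_eq_iff]; exact T_pow_width_smul Γ x
    have hηpos : IsPosPar (h⁻¹ * T ^ e * h) := by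
      rw [← zpow_natCast, isPosPar_conj_T_zpow_iff]; exact he0
    have hpow : (h⁻¹ * T ^ e * h) ^ j.toNat = γ := by
      rw [conj_pow, hγ', ← pow_mul]
      congr 2
      rw [← zpow_natCast]
      congr 1
      rw [hj, Nat.cast_mul, Int.toNat_of_nonneg hj0.le]
    have hj1 := hprim _ hηmem hηpos _ hpow
    refine ⟨x, h, rfl, ?_⟩
    rw [← hpow, hj1, pow_one]
  · exfalso
    obtain ⟨h, hh⟩ : ∃ h : SL(2, ℤ), h = d⁻¹ := ⟨_, rfl⟩
    have hγ' : γ = -(h⁻¹ * T ^ k * h) := by rw [hk, hh]; group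
    have htr := neg_conj_T_zpow_trace h k
    rw [← hγ'] at htr
    have := hpos.1
    omega

/-- Two cusps generators are `Γ`-conjugate iff the cusps lie in the same `T`-orbit
(direction `←`). -/
theorem IsCuspGen.conj_of_orbit {γ γ₂ : SL(2, ℤ)} {x x₂ : SL(2, ℤ) ⧸ Γ}
    (hγ : IsCuspGen Γ γ x) (hγ₂ : IsCuspGen Γ γ₂ x₂) {k : ℤ} (hk : (T : SL(2, ℤ)) ^ k • x = x₂) :
    ∃ η ∈ Γ, γ₂ = η⁻¹ * γ * η := by
  obtain ⟨h, rfl, rfl⟩ := hγ
  obtain ⟨h₂, hx₂, rfl⟩ := hγ₂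
  have hw : width Γ x₂ = width Γ (h : SL(2, ℤ) ⧸ Γ) := by rw [← hk, width_T_zpow_smul]
  rw [hw]
  have hmem : (T ^ k * h)⁻¹ * h₂ ∈ Γ := by
    rw [← QuotientGroup.eq, hx₂, ← hk]
    rfl
  refine ⟨(T ^ k * h)⁻¹ * h₂, hmem, ?_⟩
  have hcomm : (T : SL(2, ℤ)) ^ k * T ^ width Γ (h : SL(2, ℤ) ⧸ Γ)
      = T ^ width Γ (h : SL(2, ℤ) ⧸ Γ) * T ^ k := by
    rw [← zpow_natCast, ← _root_.zpow_add, ← _root_.zpow_add, add_comm]
  calc h₂⁻¹ * T ^ width Γ (h : SL(2, ℤ) ⧸ Γ) * h₂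
      = h₂⁻¹ * (T ^ width Γ (h : SL(2, ℤ) ⧸ Γ) * T ^ k) * (T ^ k)⁻¹ * h₂ := by group
    _ = h₂⁻¹ * (T ^ k * T ^ width Γ (h : SL(2, ℤ) ⧸ Γ)) * (T ^ k)⁻¹ * h₂ := by rw [hcomm]
    _ = ((T ^ k * h)⁻¹ * h₂)⁻¹ * (h⁻¹ * T ^ width Γ (h : SL(2, ℤ) ⧸ Γ) * h)
          * ((T ^ k * h)⁻¹ * h₂) := by group

/-- Two cusps generators are `Γ`-conjugate iff the cusps lie in the same `T`-orbit
(direction `→`; uses `-1 ∈ Γ`). -/
theorem IsCuspGen.orbit_of_conj [Γ.FiniteIndex] (hneg : (-1 : SL(2, ℤ)) ∈ Γ)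
    {γ γ₂ : SL(2, ℤ)} {x x₂ : SL(2, ℤ) ⧸ Γ}
    (hγ : IsCuspGen Γ γ x) (hγ₂ : IsCuspGen Γ γ₂ x₂) {η : SL(2, ℤ)} (hη : η ∈ Γ)
    (hconj : γ₂ = η⁻¹ * γ * η) : ∃ k : ℤ, (T : SL(2, ℤ)) ^ k • x = x₂ := by
  obtain ⟨h, rfl, rfl⟩ := hγ
  obtain ⟨h₂, rfl, rfl⟩ := hγ₂
  set e := width Γ (h : SL(2, ℤ) ⧸ Γ) with he
  set e₂ := width Γ (h₂ : SL(2, ℤ) ⧸ Γ) with he₂
  have he₂0 : 0 < e₂ := width_pos Γ _
  -- `A = h η h₂⁻¹` intertwines `T ^ e₂` and `T ^ e`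
  have hA : (h * η * h₂⁻¹) * T ^ (e₂ : ℤ) = T ^ (e : ℤ) * (h * η * h₂⁻¹) := by
    have h1 : (T : SL(2, ℤ)) ^ (e₂ : ℤ) = h₂ * (h₂⁻¹ * T ^ e₂ * h₂) * h₂⁻¹ := by
      rw [zpow_natCast]; group
    rw [h1, hconj, zpow_natCast]
    group
  have hc := apply_one_zero_of_intertwine_T (by exact_mod_cast he₂0.ne') hA
  have hxη : ((h * η : SL(2, ℤ)) : SL(2, ℤ) ⧸ Γ) = (h : SL(2, ℤ) ⧸ Γ) :=
    QuotientGroup.mk_mul_of_mem h hη
  rcases eq_T_zpow_of_apply_one_zero _ hc with hT | hT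
  · set m := (h * η * h₂⁻¹) 0 1 with hm
    refine ⟨-m, ?_⟩
    have : h * η = T ^ m * h₂ := by rw [← hT]; group
    rw [← hxη, this, MulAction.Quotient.smul_mk, smul_eq_mul, ← mul_assoc, ← _root_.zpow_add]
    simp
  · set m := -(h * η * h₂⁻¹) 0 1 with hm
    refine ⟨-m, ?_⟩
    have : h * η = T ^ m * h₂ * (-1) := by
      have : h * η = (h * η * h₂⁻¹) * h₂ := by group
      rw [this, hT]
      simp
    rw [← hxη, this, QuotientGroup.mk_mul_of_mem _ hneg, MulAction.Quotient.smul_mk, smul_eq_mul,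
      ← mul_assoc, ← _root_.zpow_add]
    simp

end Cusps

/-! ### Transport along an isomorphism induced by a matrix of positive determinant -/

section Transport

variable {Γ Γ' : Subgroup SL(2, ℤ)}

/-- The isomorphism `θ : Γ ≃* Γ'` is conjugation by the integral matrix `δ`:
`δ γ = θ(γ) δ` for all `γ ∈ Γ`. -/
def Intertwines (δ : Matrix (Fin 2) (Fin 2) ℤ) (θ : Γ ≃* Γ') : Prop :=
  ∀ γ : Γ, δ * ((γ : SL(2, ℤ)) : Matrix (Fin 2) (Fin 2) ℤ)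
    = ((θ γ : SL(2, ℤ)) : Matrix (Fin 2) (Fin 2) ℤ) * δ

theorem Intertwines.symm {δ : Matrix (Fin 2) (Fin 2) ℤ} (hδ : 0 < δ.det) {θ : Γ ≃* Γ'}
    (h : Intertwines δ θ) : Intertwines δ.adjugate θ.symm := by
  intro γ'
  have h0 := h (θ.symm γ')
  rw [MulEquiv.apply_symm_apply] at h0
  set g : Matrix (Fin 2) (Fin 2) ℤ := ((θ.symm γ' : SL(2, ℤ)) : Matrix (Fin 2) (Fin 2) ℤ)
  set g' : Matrix (Fin 2) (Fin 2) ℤ := ((γ' : SL(2, ℤ)) : Matrix (Fin 2) (Fin 2) ℤ)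
  have h1 : δ.det • (δ.adjugate * g') = δ.det • (g * δ.adjugate) := by
    calc δ.det • (δ.adjugate * g') = δ.adjugate * g' * (δ * δ.adjugate) := by
          rw [Matrix.mul_adjugate, Matrix.mul_smul, Matrix.mul_one]
      _ = δ.adjugate * (g' * δ) * δ.adjugate := by simp only [Matrix.mul_assoc]
      _ = δ.adjugate * (δ * g) * δ.adjugate := by rw [h0]
      _ = (δ.adjugate * δ) * g * δ.adjugate := by simp only [Matrix.mul_assoc]
      _ = δ.det • (g * δ.adjugate) := by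
          rw [Matrix.adjugate_mul, Matrix.smul_mul, Matrix.smul_mul, Matrix.one_mul]
  exact smul_right_injective _ hδ.ne' h1

theorem det_adjugate_pos {δ : Matrix (Fin 2) (Fin 2) ℤ} (hδ : 0 < δ.det) :
    0 < δ.adjugate.det := by
  rw [Matrix.det_adjugate]; simpa using hδ

theorem Intertwines.isPosPar_iff {δ : Matrix (Fin 2) (Fin 2) ℤ} (hδ : 0 < δ.det) {θ : Γ ≃* Γ'}
    (h : Intertwines δ θ) (γ : Γ) : IsPosPar (θ γ : SL(2, ℤ)) ↔ IsPosPar (γ : SL(2, ℤ)) :=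
  (isPosPar_iff_of_intertwine hδ (h γ)).symm

/-- `θ` maps primitive positive parabolic elements to primitive positive parabolic elements. -/
theorem Intertwines.isPrimPosPar {δ : Matrix (Fin 2) (Fin 2) ℤ} (hδ : 0 < δ.det) {θ : Γ ≃* Γ'}
    (h : Intertwines δ θ) {γ : Γ} (hγ : IsPrimPosPar Γ (γ : SL(2, ℤ))) :
    IsPrimPosPar Γ' (θ γ : SL(2, ℤ)) := by
  obtain ⟨-, hpos, hprim⟩ := hγ
  refine ⟨(θ γ).2, (h.isPosPar_iff hδ γ).mpr hpos, ?_⟩
  intro η' hη' hpos' k hk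
  have hη : IsPosPar ((θ.symm ⟨η', hη'⟩ : Γ) : SL(2, ℤ)) := by
    rw [← h.isPosPar_iff hδ, MulEquiv.apply_symm_apply]; exact hpos'
  refine hprim _ (θ.symm ⟨η', hη'⟩).2 hη k ?_
  have : (θ.symm ⟨η', hη'⟩) ^ k = γ := by
    apply θ.injective
    rw [map_pow, MulEquiv.apply_symm_apply]
    exact Subtype.ext hk
  have := congrArg (fun z : Γ => (z : SL(2, ℤ))) this
  simpa using this

/-- The cusps `x` of `Γ` and `y` of `Γ'` correspond under `θ`. -/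
def Corr (θ : Γ ≃* Γ') (x : SL(2, ℤ) ⧸ Γ) (y : SL(2, ℤ) ⧸ Γ') : Prop :=
  ∃ γ : Γ, IsCuspGen Γ (γ : SL(2, ℤ)) x ∧ IsCuspGen Γ' (θ γ : SL(2, ℤ)) y

theorem Corr.symm {θ : Γ ≃* Γ'} {x : SL(2, ℤ) ⧸ Γ} {y : SL(2, ℤ) ⧸ Γ'} (h : Corr θ x y) :
    Corr θ.symm y x := by
  obtain ⟨γ, h1, h2⟩ := h
  exact ⟨θ γ, h2, by rw [MulEquiv.symm_apply_apply]; exact h1⟩

theorem exists_corr [Γ.FiniteIndex] {δ : Matrix (Fin 2) (Fin 2) ℤ} (hδ : 0 < δ.det)
    {θ : Γ ≃* Γ'} (h : Intertwines δ θ) (x : SL(2, ℤ) ⧸ Γ) : ∃ y, Corr θ x y := by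
  obtain ⟨γ, hγ⟩ := exists_isCuspGen Γ x
  obtain ⟨y, hy⟩ := (h.isPrimPosPar hδ (γ := ⟨γ, hγ.mem⟩) hγ.isPrimPosPar).exists_isCuspGen
  exact ⟨y, ⟨γ, hγ.mem⟩, hγ, hy⟩

theorem exists_corr_symm [Γ'.FiniteIndex] {δ : Matrix (Fin 2) (Fin 2) ℤ} (hδ : 0 < δ.det)
    {θ : Γ ≃* Γ'} (h : Intertwines δ θ) (y : SL(2, ℤ) ⧸ Γ') : ∃ x, Corr θ x y := by
  obtain ⟨x, hx⟩ := exists_corr (det_adjugate_pos hδ) (h.symm hδ) y
  refine ⟨x, ?_⟩
  have := hx.symm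
  rwa [MulEquiv.symm_symm] at this

theorem Corr.orbit_imp [Γ'.FiniteIndex] (hneg' : (-1 : SL(2, ℤ)) ∈ Γ') {θ : Γ ≃* Γ'}
    {x x₂ : SL(2, ℤ) ⧸ Γ} {y y₂ : SL(2, ℤ) ⧸ Γ'} (h1 : Corr θ x y) (h2 : Corr θ x₂ y₂)
    (hx : ∃ k : ℤ, (T : SL(2, ℤ)) ^ k • x = x₂) : ∃ k : ℤ, (T : SL(2, ℤ)) ^ k • y = y₂ := by
  obtain ⟨γ, hγx, hγy⟩ := h1
  obtain ⟨γ₂, hγx₂, hγy₂⟩ := h2
  obtain ⟨k, hk⟩ := hx
  obtain ⟨η, hη, hconj⟩ := hγx.conj_of_orbit hγx₂ hk
  refine hγy.orbit_of_conj hneg' hγy₂ (θ ⟨η, hη⟩).2 ?_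
  have : γ₂ = (⟨η, hη⟩ : Γ)⁻¹ * γ * ⟨η, hη⟩ := Subtype.ext hconj
  rw [this, map_mul, map_mul, map_inv]
  rfl

theorem Corr.orbit_iff [Γ.FiniteIndex] [Γ'.FiniteIndex] (hneg : (-1 : SL(2, ℤ)) ∈ Γ)
    (hneg' : (-1 : SL(2, ℤ)) ∈ Γ') {θ : Γ ≃* Γ'}
    {x x₂ : SL(2, ℤ) ⧸ Γ} {y y₂ : SL(2, ℤ) ⧸ Γ'} (h1 : Corr θ x y) (h2 : Corr θ x₂ y₂) :
    (∃ k : ℤ, (T : SL(2, ℤ)) ^ k • x = x₂) ↔ ∃ k : ℤ, (T : SL(2, ℤ)) ^ k • y = y₂ :=
  ⟨Corr.orbit_imp hneg' h1 h2, Corr.orbit_imp hneg h1.symm h2.symm⟩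

/-- **Invariance of cusp sums** (the consumer statement).  Let `θ : Γ ≃* Γ'` be conjugation by an
integral matrix `δ` of positive determinant, between two subgroups of finite index of `SL(2,ℤ)`
containing `-1`.  Let `π : SL(2,ℤ) ⧸ Γ → C` (resp. `π'`) be the quotient by the `T`-orbits, with
section `s` (resp. `s'`), and let `g c ∈ Γ` (resp. `g' c' ∈ Γ'`) be *any* cusp generator
`h⁻¹ T ^ width h` of the cusp `s c` (resp. `s' c'`).  Then for every function `κ'` on `Γ'` which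
is invariant under `Γ'`-conjugation on positive parabolic elements,
`∑ c, κ' (θ (g c)) = ∑ c', κ' (g' c')`. -/
theorem sum_cuspGen_conj [Γ.FiniteIndex] [Γ'.FiniteIndex] (hneg : (-1 : SL(2, ℤ)) ∈ Γ)
    (hneg' : (-1 : SL(2, ℤ)) ∈ Γ') {δ : Matrix (Fin 2) (Fin 2) ℤ} (hδ : 0 < δ.det)
    {θ : Γ ≃* Γ'} (hθ : Intertwines δ θ)
    {C C' : Type*} [Fintype C] [Fintype C']
    (π : SL(2, ℤ) ⧸ Γ → C) (hπ : ∀ x y, π x = π y ↔ ∃ k : ℤ, (T : SL(2, ℤ)) ^ k • x = y)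
    (s : C → SL(2, ℤ) ⧸ Γ) (hs : ∀ c, π (s c) = c)
    (π' : SL(2, ℤ) ⧸ Γ' → C') (hπ' : ∀ x y, π' x = π' y ↔ ∃ k : ℤ, (T : SL(2, ℤ)) ^ k • x = y)
    (s' : C' → SL(2, ℤ) ⧸ Γ') (hs' : ∀ c, π' (s' c) = c)
    (g : C → Γ) (hg : ∀ c, IsCuspGen Γ (g c : SL(2, ℤ)) (s c))
    (g' : C' → Γ') (hg' : ∀ c, IsCuspGen Γ' (g' c : SL(2, ℤ)) (s' c))
    {A : Type*} [AddCommMonoid A] (κ' : Γ' → A)
    (hκ' : ∀ γ η : Γ', IsPosPar (γ : SL(2, ℤ)) → κ' (η⁻¹ * γ * η) = κ' γ) :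
    ∑ c, κ' (θ (g c)) = ∑ c, κ' (g' c) := by
  classical
  -- the induced map on cusps
  let Φ : C → C' := fun c => π' (Classical.choose (exists_corr hδ hθ (s c)))
  have hΦ : ∀ c, Corr θ (s c) (Classical.choose (exists_corr hδ hθ (s c))) :=
    fun c => Classical.choose_spec (exists_corr hδ hθ (s c))
  have hΦinj : Function.Injective Φ := by
    intro c c₂ hcc
    have h1 := (hπ' _ _).mp hcc
    have h2 := (Corr.orbit_iff hneg hneg' (hΦ c) (hΦ c₂)).mpr h1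
    have h3 := (hπ _ _).mpr h2
    rwa [hs, hs] at h3
  have hΦsurj : Function.Surjective Φ := by
    intro c'
    obtain ⟨x, hx⟩ := exists_corr_symm hδ hθ (s' c')
    refine ⟨π x, ?_⟩
    have h1 : ∃ k : ℤ, (T : SL(2, ℤ)) ^ k • x = s (π x) := (hπ _ _).mp (hs (π x)).symm
    have h2 := (Corr.orbit_iff hneg hneg' hx (hΦ (π x))).mp h1
    have h3 := (hπ' _ _).mpr h2
    rw [hs'] at h3
    exact h3.symm
  have hpt : ∀ c, κ' (θ (g c)) = κ' (g' (Φ c)) := by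
    intro c
    obtain ⟨γ, hγx, hγy⟩ := hΦ c
    -- `θ (g c)` is a cusp generator of the chosen cusp
    obtain ⟨η, hη, hconj⟩ := hγx.conj_of_orbit (hg c) (k := 0) (by simp)
    have h1 : IsCuspGen Γ' (θ (g c) : SL(2, ℤ)) (Classical.choose (exists_corr hδ hθ (s c))) := by
      have : g c = (⟨η, hη⟩ : Γ)⁻¹ * γ * ⟨η, hη⟩ := Subtype.ext hconj
      rw [this, map_mul, map_mul, map_inv]
      exact hγy.conj (θ ⟨η, hη⟩).2
    -- compare with `g' (Φ c)`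
    have h2 : ∃ k : ℤ, (T : SL(2, ℤ)) ^ k • (Classical.choose (exists_corr hδ hθ (s c)))
        = s' (Φ c) := (hπ' _ _).mp (hs' (Φ c)).symm
    obtain ⟨k, hk⟩ := h2
    obtain ⟨η', hη', hconj'⟩ := h1.conj_of_orbit (hg' (Φ c)) hk
    have h3 : g' (Φ c) = (⟨η', hη'⟩ : Γ')⁻¹ * θ (g c) * ⟨η', hη'⟩ := Subtype.ext hconj'
    rw [h3, hκ' _ _ h1.isPrimPosPar.2.1]
  calc ∑ c, κ' (θ (g c)) = ∑ c, κ' (g' (Φ c)) := Finset.sum_congr rfl fun c _ => hpt c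
    _ = ∑ c, κ' (g' c) :=
      Fintype.sum_bijective Φ ⟨hΦinj, hΦsurj⟩ _ _ fun _ => rfl

end Transport

/-! ### Cusp generators attached to a system of representatives -/

/-- The cusp generator `r(x)⁻¹ T ^ (width x) r(x) ∈ Γ` attached to a system of representatives
`r` of `SL(2,ℤ) ⧸ Γ`. -/
noncomputable def cuspGen (Γ : Subgroup SL(2, ℤ)) (r : SL(2, ℤ) ⧸ Γ → SL(2, ℤ))
    (hr : ∀ x, (r x : SL(2, ℤ) ⧸ Γ) = x) (x : SL(2, ℤ) ⧸ Γ) : Γ :=
  ⟨(r x)⁻¹ * T ^ width Γ x * r x, (isCuspGen_of_mk Γ (hr x)).mem⟩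

theorem coe_cuspGen (Γ : Subgroup SL(2, ℤ)) (r : SL(2, ℤ) ⧸ Γ → SL(2, ℤ))
    (hr : ∀ x, (r x : SL(2, ℤ) ⧸ Γ) = x) (x : SL(2, ℤ) ⧸ Γ) :
    (cuspGen Γ r hr x : SL(2, ℤ)) = (r x)⁻¹ * T ^ width Γ x * r x := rfl

theorem isCuspGen_cuspGen (Γ : Subgroup SL(2, ℤ)) (r : SL(2, ℤ) ⧸ Γ → SL(2, ℤ))
    (hr : ∀ x, (r x : SL(2, ℤ) ⧸ Γ) = x) (x : SL(2, ℤ) ⧸ Γ) :
    IsCuspGen Γ (cuspGen Γ r hr x : SL(2, ℤ)) x :=
  isCuspGen_of_mk Γ (hr x)

/-! ### The standard orbit quotient -/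

/-- The quotient map to `MulAction.orbitRel.Quotient (Subgroup.zpowers T) (SL(2,ℤ) ⧸ Γ)` has the
property required of `π` in `sum_cuspGen_conj`. -/
theorem orbitQuotient_mk_eq_iff (Γ : Subgroup SL(2, ℤ)) (x y : SL(2, ℤ) ⧸ Γ) :
    (Quotient.mk'' x : MulAction.orbitRel.Quotient (Subgroup.zpowers (T : SL(2, ℤ)))
        (SL(2, ℤ) ⧸ Γ)) = Quotient.mk'' y
      ↔ ∃ k : ℤ, (T : SL(2, ℤ)) ^ k • x = y := by
  rw [Quotient.eq'', MulAction.orbitRel_apply, MulAction.mem_orbit_iff]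
  constructor
  · rintro ⟨⟨t, ht⟩, hty⟩
    obtain ⟨k, rfl⟩ := Subgroup.mem_zpowers_iff.mp ht
    refine ⟨-k, ?_⟩
    have : (T : SL(2, ℤ)) ^ k • y = x := hty
    rw [← this, ← mul_smul, ← _root_.zpow_add]
    simp
  · rintro ⟨k, rfl⟩
    refine ⟨⟨T ^ (-k), Subgroup.zpow_mem_zpowers _ _⟩, ?_⟩
    show (T : SL(2, ℤ)) ^ (-k) • ((T : SL(2, ℤ)) ^ k • x) = x
    rw [← mul_smul, ← _root_.zpow_add]
    simp

end Fermat.Agent.S41.PD.Periph
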