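import Mathlib
import Fermat.Agent.S41.PD.Heis
import Fermat.Agent.S41.PD.Form
import Fermat.Agent.S41.PD.Periph

/-!
# S41 (project R), slice R-PD-ConjIso (P2): the duality form is invariant under conjugation

`Γ`, `Γ'` subgroups of finite index of `SL(2,ℤ)` containing `-1`, `θ : Γ ≃* Γ'` conjugation by an
integral matrix `δ` of positive determinant (`Periph.Intertwines δ θ`).  With the coset data on
the quotients `SL(2,ℤ) ⧸ Γ`, `SL(2,ℤ) ⧸ Γ'` based at the trivial coset: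

`form D (x ∘ θ) (y ∘ θ) = form D' x y`   (`form_conj`, the transported homomorphisms are given by
their values).

Proof: by `Heis.main` both sides are minus the sum over the cusps of a Heisenberg lift at the cusp
generators; a lift `κ'` of `(x, y)` gives the lift `κ' ∘ θ` of `(x ∘ θ, y ∘ θ)`; the two cusp sums
agree by `Periph.sum_cuspGen_conj` (`θ` maps cusp generators to cusp generators, and a lift is
invariant under conjugation on parabolic elements, `Heis.lift_conj`).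
-/

set_option autoImplicit false
set_option linter.unusedSectionVars false

open scoped MatrixGroups BigOperators
open ModularGroup

namespace Fermat.Agent.S41.PD.ConjIso

open Fermat.Agent.S21.ParabolicDim (CosetData)
open Fermat.Agent.S41.PD.PermModule
open Fermat.Agent.S41.PD.Shapiro
open ModularCurve.Period

section Quot

variable {Γ : Subgroup SL(2, ℤ)}

/-- for coset data based at the trivial coset the representatives are representatives -/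
theorem r_mk (D : CosetData Γ (SL(2, ℤ) ⧸ Γ))
    (hx₀ : D.x₀ = ((1 : SL(2, ℤ)) : SL(2, ℤ) ⧸ Γ)) (x : SL(2, ℤ) ⧸ Γ) :
    ((D.r x : SL(2, ℤ)) : SL(2, ℤ) ⧸ Γ) = x := by
  have := D.r_smul x
  rw [hx₀, MulAction.Quotient.smul_mk, smul_eq_mul, mul_one] at this
  exact this

theorem neg_one_mem (D : CosetData Γ (SL(2, ℤ) ⧸ Γ))
    (hneg : ∀ x : SL(2, ℤ) ⧸ Γ, (-1 : SL(2, ℤ)) • x = x) : (-1 : SL(2, ℤ)) ∈ Γ :=
  (D.mem_iff _).1 (hneg D.x₀)

/-- the Schreier element of `T ^ width` is a cusp generator -/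
theorem isCuspGen_elt (D : CosetData Γ (SL(2, ℤ) ⧸ Γ))
    (hx₀ : D.x₀ = ((1 : SL(2, ℤ)) : SL(2, ℤ) ⧸ Γ)) (x : SL(2, ℤ) ⧸ Γ) :
    Periph.IsCuspGen Γ ((D.elt (T ^ MulAction.period (T : SL(2, ℤ)) x) x : Γ) : SL(2, ℤ)) x := by
  rw [Heis.coe_elt_T_pow_period]
  exact Periph.isCuspGen_of_mk Γ (r_mk D hx₀ x)

end Quot

section Main

variable {Γ Γ' : Subgroup SL(2, ℤ)} [Γ.FiniteIndex] [Γ'.FiniteIndex]
  [Fintype (SL(2, ℤ) ⧸ Γ)] [Fintype (SL(2, ℤ) ⧸ Γ')]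

theorem trace_sq_of_isPosPar {g : SL(2, ℤ)} (h : Periph.IsPosPar g) :
    (g : Matrix (Fin 2) (Fin 2) ℤ).trace ^ 2 = 4 := by
  rw [Matrix.trace_fin_two]
  have h1 : g 0 0 + g 1 1 = 2 := h.1
  have h2 : (g : Matrix (Fin 2) (Fin 2) ℤ) 0 0 + (g : Matrix (Fin 2) (Fin 2) ℤ) 1 1 = 2 := h1
  rw [h2]; norm_num

/-- **Conjugation invariance of the duality form.** -/
theorem form_conj (D : CosetData Γ (SL(2, ℤ) ⧸ Γ)) (D' : CosetData Γ' (SL(2, ℤ) ⧸ Γ'))
    (hx₀ : D.x₀ = ((1 : SL(2, ℤ)) : SL(2, ℤ) ⧸ Γ))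
    (hx₀' : D'.x₀ = ((1 : SL(2, ℤ)) : SL(2, ℤ) ⧸ Γ'))
    (hneg : ∀ x : SL(2, ℤ) ⧸ Γ, (-1 : SL(2, ℤ)) • x = x)
    (hneg' : ∀ x : SL(2, ℤ) ⧸ Γ', (-1 : SL(2, ℤ)) • x = x)
    {δ : Matrix (Fin 2) (Fin 2) ℤ} (hδ : 0 < δ.det) {θ : Γ ≃* Γ'}
    (hθ : Periph.Intertwines δ θ)
    {x y : parabolicHoms ℤ Γ' ℤ} {x₁ y₁ : parabolicHoms ℤ Γ ℤ}
    (hx : ∀ γ : Γ, (x₁ : Additive Γ →+ ℤ) (Additive.ofMul γ)
      = (x : Additive Γ' →+ ℤ) (Additive.ofMul (θ γ)))
    (hy : ∀ γ : Γ, (y₁ : Additive Γ →+ ℤ) (Additive.ofMul γ)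
      = (y : Additive Γ' →+ ℤ) (Additive.ofMul (θ γ))) :
    Form.form D hneg x₁ y₁ = Form.form D' hneg' x y := by
  classical
  obtain ⟨z, hz, hzd⟩ := Shapiro.exists_data (D := D') (mem_parabolicHoms_iff.1 x.2)
  obtain ⟨z', hz', hzd'⟩ := Shapiro.exists_data (D := D') (mem_parabolicHoms_iff.1 y.2)
  obtain ⟨w, hw, hwd⟩ := Shapiro.exists_data (D := D) (mem_parabolicHoms_iff.1 x₁.2)
  obtain ⟨w', hw', hwd'⟩ := Shapiro.exists_data (D := D) (mem_parabolicHoms_iff.1 y₁.2)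
  have e1 : Form.form D' hneg' x y = pair (sP (SL(2, ℤ) ⧸ Γ')) z z' :=
    Form.form_eq_pair_of_isData hneg' hzd hzd' hz hz'
  have e2 : Form.form D hneg x₁ y₁ = pair (sP (SL(2, ℤ) ⧸ Γ)) w w' :=
    Form.form_eq_pair_of_isData hneg hwd hwd' hw hw'
  obtain ⟨κ', hκ'⟩ := Heis.exists_lift hneg' hzd hzd' hz'
  -- the cusps
  let C := MulAction.orbitRel.Quotient (Subgroup.zpowers (T : SL(2, ℤ))) (SL(2, ℤ) ⧸ Γ)
  let C' := MulAction.orbitRel.Quotient (Subgroup.zpowers (T : SL(2, ℤ))) (SL(2, ℤ) ⧸ Γ')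
  have : Finite C := inferInstanceAs (Finite (Quotient _))
  have : Finite C' := inferInstanceAs (Finite (Quotient _))
  have : Fintype C := Fintype.ofFinite C
  have : Fintype C' := Fintype.ofFinite C'
  have m1 := Heis.main hneg' hzd hzd' hz hz' κ' hκ' (Quotient.mk'' : SL(2, ℤ) ⧸ Γ' → C')
    (Periph.orbitQuotient_mk_eq_iff Γ') Quotient.out Quotient.out_eq'
  have m2 := Heis.main hneg hwd hwd' hw hw' (fun γ => κ' (θ γ))
    (by
      intro γ γ'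
      show κ' (θ (γ * γ')) = _
      rw [map_mul, hκ', hx, hy])
    (Quotient.mk'' : SL(2, ℤ) ⧸ Γ → C)
    (Periph.orbitQuotient_mk_eq_iff Γ) Quotient.out Quotient.out_eq'
  have key := Periph.sum_cuspGen_conj (neg_one_mem D hneg) (neg_one_mem D' hneg') hδ hθ
    (Quotient.mk'' : SL(2, ℤ) ⧸ Γ → C) (Periph.orbitQuotient_mk_eq_iff Γ) Quotient.out
    Quotient.out_eq'
    (Quotient.mk'' : SL(2, ℤ) ⧸ Γ' → C') (Periph.orbitQuotient_mk_eq_iff Γ') Quotient.out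
    Quotient.out_eq'
    (fun c => D.elt (T ^ MulAction.period (T : SL(2, ℤ)) (Quotient.out c)) (Quotient.out c))
    (fun c => isCuspGen_elt D hx₀ _)
    (fun c => D'.elt (T ^ MulAction.period (T : SL(2, ℤ)) (Quotient.out c)) (Quotient.out c))
    (fun c => isCuspGen_elt D' hx₀' _)
    κ'
    (fun γ η hpos => Heis.lift_conj hκ' γ η
      (mem_parabolicHoms_iff.1 x.2 γ (trace_sq_of_isPosPar hpos))
      (mem_parabolicHoms_iff.1 y.2 γ (trace_sq_of_isPosPar hpos)))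
  rw [e2, e1, m2, m1, key]

end Main

end Fermat.Agent.S41.PD.ConjIso
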