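import Mathlib
import Fermat.Agent.S41.PD.Level
import Fermat.Agent.S41.PD.ConjIso

/-!
# S41 (project R), slice R-PD (P4): `α₂` and `β₂` are adjoint

`W` = the Atkin-Lehner operator `Wop` of `Deg/NewAtQ` on `Hom(Γ₀(N q), A)` (composition with the
automorphism `fW` = conjugation by the integral matrix `wZ N q` of determinant `q`).

* `alpha2_eq_W_alpha1` : `α₂ = W ∘ α₁`;
* `fW_fW` : `fW (fW c) = γ₀ c γ₀⁻¹`; `Wop_Wop` : `W (W z) = z`;
* `thetaW` : `fW` as a `MulEquiv`, `intertwines_thetaW : Periph.Intertwines (wZ N q) thetaW`,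
  `det_wZ`;
* `BN_W` : `W` is an isometry of `BN (N q)` (from `ConjIso.form_conj`);
* **`BN_alphaPar2`** : `BN (N q) (α₂ y) z = BN N y (β₂ z)`;
* **`BN_adj`** : `BN (N q) (α₁ x + α₂ y) z = BN N x (β₁ z) + BN N y (β₂ z)`.
-/

set_option autoImplicit false
set_option linter.unusedSectionVars false
set_option linter.style.haveILetI false

open CongruenceSubgroup Matrix.SpecialLinearGroup ModularForm ModularCurve.Period
open scoped MatrixGroups BigOperators

noncomputable section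

namespace Fermat.Agent.S41.PD.Level2

open Fermat.Agent.S20.Count (Q)
open Fermat.Agent.S21.ParabolicDim (gammaData)
open Fermat.Agent.S41.PD.Form Fermat.Agent.S41.PD.Level
open Fermat.Agent.S30.Hecke.DoubleCoset Fermat.Agent.S30.Hecke.Gamma0Cosets
  Fermat.Agent.S30.Hecke.Parabolic Fermat.Agent.S41.Deg.TwoGroup Fermat.Agent.S41.Deg.Reps
  Fermat.Agent.S41.Deg.Maps Fermat.Agent.S41.Deg.Par Fermat.Agent.S41.Deg.NewAtQ

attribute [local instance] Fermat.Agent.S41.PD.Level.fintypeQ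

variable {N q : ℕ} (hq : q.Prime) (hqN : ¬ q ∣ N)

/-! ### `α₂ = W ∘ α₁` -/

section Hom

variable {A : Type*} [AddCommGroup A]

theorem Wop_apply (z : Additive (Gamma0 (N * q)) →+ A) (c : Gamma0 (N * q)) :
    Wop hq hqN z (Additive.ofMul c) = z (Additive.ofMul (fW hq hqN c)) := by
  unfold Wop Wd
  rw [CosetData2.heckeHom_conjData]
  rfl

/-- **`α₂ = W ∘ α₁`** -/
theorem alpha2_eq_W_alpha1 (φ : Additive (Gamma0 N) →+ A) :
    alpha2 hq hqN φ = Wop hq hqN (alpha1 N q φ) := by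
  unfold alpha2 alpha1 Wop
  rw [← CosetData2.heckeHom_comp]
  refine congrArg (fun f => f φ) (CosetData2.heckeHom_eq_of_reps
    (CosetData2.comp (resD N q) (Wd hq hqN)) (conjD hq hqN) (iota_injective N)
    (fun _ _ _ _ => rfl) (Equiv.punitProd _) (fun _ => tStar hq hqN none) (fun x => ?_))
  show heckeDiagMatrix q = iota N (tStar hq hqN none) * ((resD N q).rep x.1 * (Wd hq hqN).rep x.2)
  rw [resD_rep, one_mul, Wd_rep]
  exact repT_eq_tStar hq hqN none

/-! ### `W` is an involution -/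

/-- `fW (fW c) = γ₀ c γ₀⁻¹` -/
theorem fW_fW (c : Gamma0 (N * q)) :
    fW hq hqN (fW hq hqN c) = gamma0 hq hqN * c * (gamma0 hq hqN)⁻¹ := by
  apply iota_injective (N * q)
  have h1 := wq_mul_iota hq hqN c
  have h2 := wq_mul_iota hq hqN (fW hq hqN c)
  have h3 : wq hq hqN * wq hq hqN * iota (N * q) c =
      iota (N * q) (fW hq hqN (fW hq hqN c)) * (wq hq hqN * wq hq hqN) := by
    rw [mul_assoc, h1, ← mul_assoc, h2, mul_assoc]
  rw [wq_mul_wq] at h3
  have hz := zq_comm (q := q) hq.ne_zero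
  -- cancel the central element
  have h4 : zq q * (iota (N * q) (gamma0 hq hqN) * iota (N * q) c) =
      zq q * (iota (N * q) (fW hq hqN (fW hq hqN c)) * iota (N * q) (gamma0 hq hqN)) := by
    rw [← mul_assoc, h3, ← mul_assoc, ← mul_assoc, (hz _).eq]
  have h5 := mul_left_cancel h4
  rw [map_mul, map_mul, map_inv, h5, mul_inv_cancel_right]

theorem Wop_Wop (z : Additive (Gamma0 (N * q)) →+ A) : Wop hq hqN (Wop hq hqN z) = z := by
  refine AddMonoidHom.ext fun c' => ?_
  obtain ⟨c, rfl⟩ := Additive.ofMul.surjective c'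
  rw [Wop_apply, Wop_apply, fW_fW, ofMul_mul, ofMul_mul, map_add, map_add, ofMul_inv, map_neg]
  abel

end Hom

/-! ### `fW` as an isomorphism intertwined by `wZ N q` -/

theorem fW_injective : Function.Injective (fW hq hqN) := by
  intro c c' h
  have h1 := congrArg (fW hq hqN) h
  rw [fW_fW, fW_fW] at h1
  exact mul_left_cancel (mul_right_cancel h1)

theorem fW_surjective : Function.Surjective (fW hq hqN) := by
  intro c
  refine ⟨fW hq hqN ((gamma0 hq hqN)⁻¹ * c * gamma0 hq hqN), ?_⟩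
  rw [fW_fW]
  group

/-- the Atkin-Lehner automorphism as a `MulEquiv` -/
def thetaW : Gamma0 (N * q) ≃* Gamma0 (N * q) :=
  MulEquiv.ofBijective (fW hq hqN) ⟨fW_injective hq hqN, fW_surjective hq hqN⟩

theorem thetaW_apply (c : Gamma0 (N * q)) : thetaW hq hqN c = fW hq hqN c := rfl

theorem intertwines_thetaW : Periph.Intertwines (wZ N q) (thetaW hq hqN) := by
  intro c
  have h := wq_mul_iota hq hqN c
  exact (((isIntMat_wq hq hqN).mul (isIntMat_iota (N * q) c)).eq_iff
    ((isIntMat_iota (N * q) (fW hq hqN c)).mul (isIntMat_wq hq hqN))).mp h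

include hq hqN in
theorem det_wZ : (wZ N q).det = (q : ℤ) := by
  have hb := bez_eq hq hqN
  unfold wZ
  rw [Matrix.det_fin_two_of]
  linear_combination (q : ℤ) * hb

/-! ### the isometry and the adjunction -/

section Par

variable [NeZero N] [NeZero (N * q)]

/-- `W` on the Betti lattice -/
def WPar : Lat (N * q) →ₗ[ℤ] Lat (N * q) :=
  ((Wd hq hqN).heckeLin ℤ).restrict (p := parabolicHoms ℤ (Gamma0 (N * q)) ℤ)
    (q := parabolicHoms ℤ (Gamma0 (N * q)) ℤ) fun _ hφ => heckeHom2_isParabolicHom _ hφ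

theorem coe_WPar (z : Lat (N * q)) :
    ((WPar hq hqN z : Lat (N * q)) : Additive (Gamma0 (N * q)) →+ ℤ) =
      Wop hq hqN (z : Additive (Gamma0 (N * q)) →+ ℤ) := rfl

theorem WPar_apply (z : Lat (N * q)) (c : Gamma0 (N * q)) :
    (WPar hq hqN z : Additive (Gamma0 (N * q)) →+ ℤ) (Additive.ofMul c) =
      (z : Additive (Gamma0 (N * q)) →+ ℤ) (Additive.ofMul (thetaW hq hqN c)) := by
  rw [coe_WPar, Wop_apply, thetaW_apply]

theorem WPar_WPar (z : Lat (N * q)) : WPar hq hqN (WPar hq hqN z) = z := by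
  apply Subtype.ext
  rw [coe_WPar, coe_WPar, Wop_Wop]

theorem alphaPar2_eq (y : Lat N) :
    alphaPar2 hq hqN ℤ ℤ y = WPar hq hqN (alphaPar1 ℤ ℤ N q y) := by
  apply Subtype.ext
  rw [coe_alphaPar2, coe_WPar, coe_alphaPar1, alpha2_eq_W_alpha1]

theorem betaPar1_WPar (z : Lat (N * q)) :
    betaPar1 hq hqN ℤ ℤ (WPar hq hqN z) = betaPar2 hq hqN ℤ ℤ z := by
  apply Subtype.ext
  rw [coe_betaPar1, coe_WPar, coe_betaPar2, beta1_W]

/-- **`W` is an isometry** -/
theorem BN_W (a b : Lat (N * q)) : BN (N * q) (WPar hq hqN a) (WPar hq hqN b) = BN (N * q) a b := by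
  have hdet : 0 < (wZ N q).det := by
    rw [det_wZ hq hqN]
    exact_mod_cast hq.pos
  exact ConjIso.form_conj (gammaData (N * q)) (gammaData (N * q)) rfl rfl _ _ hdet
    (intertwines_thetaW hq hqN) (WPar_apply hq hqN a) (WPar_apply hq hqN b)

/-- **`α₂` and `β₂` are adjoint** -/
theorem BN_alphaPar2 (y : Lat N) (z : Lat (N * q)) :
    BN (N * q) (alphaPar2 hq hqN ℤ ℤ y) z = BN N y (betaPar2 hq hqN ℤ ℤ z) := by
  rw [alphaPar2_eq, ← betaPar1_WPar, ← BN_alphaPar1 hq hqN]
  conv_lhs => rw [← WPar_WPar hq hqN z]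
  rw [BN_W]

/-- **the adjunction of the degeneracy maps** (`hadj` of SEAM 2) -/
theorem BN_adj (x y : Lat N) (z : Lat (N * q)) :
    BN (N * q) (alphaPar1 ℤ ℤ N q x + alphaPar2 hq hqN ℤ ℤ y) z =
      BN N x (betaPar1 hq hqN ℤ ℤ z) + BN N y (betaPar2 hq hqN ℤ ℤ z) := by
  rw [map_add, LinearMap.add_apply, BN_alphaPar1 hq hqN, BN_alphaPar2]

end Par

end Fermat.Agent.S41.PD.Level2
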