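import Mathlib

/-!
# PROJECT R (S41), slice R-PD-Pres: the universal property of `SL(2,ℤ)` modulo `±1`

`PSL(2,ℤ) = C₂ * C₃`, in the only form the Poincaré-duality package needs:

* `exists_hom_of_relations` : for every group `H` and `hS hU : H` with `hS ^ 2 = 1`, `hU ^ 3 = 1`
  there is a homomorphism `f : SL(2,ℤ) →* H` with `f S = hS` and `f (S * T) = hU`
  (it kills `-1 = S ^ 2`); `hom_ext_ST` : such an `f` is unique.

Proof: ping-pong (Mathlib's `Monoid.CoprodI.lift_injective_of_ping_pong`) for the two
permutations of the upper half plane induced by `S` and `S * T`, with the ping-pong sets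
`{re z > 0}` and `{re z < 0}`.
-/

set_option autoImplicit false

open scoped MatrixGroups UpperHalfPlane
open ModularGroup UpperHalfPlane

namespace Fermat.Agent.S41.PD.Pres

/-! ### homomorphisms out of a finite cyclic group -/

section Cyc

variable {H : Type*} [Group H]

/-- the homomorphism `ZMod n → H`, `1 ↦ h`, for `h ^ n = 1` -/
noncomputable def cyc (n : ℕ) (h : H) (hn : h ^ n = 1) : Multiplicative (ZMod n) →* H :=
  AddMonoidHom.toMultiplicativeLeft (ZMod.lift n
    ⟨zmultiplesHom (Additive H) (Additive.ofMul h), by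
      rw [zmultiplesHom_apply, natCast_zsmul, ← ofMul_pow, hn, ofMul_one]⟩)

theorem cyc_ofAdd_intCast (n : ℕ) (h : H) (hn : h ^ n = 1) (k : ℤ) :
    cyc n h hn (Multiplicative.ofAdd (k : ZMod n)) = h ^ k := by
  unfold cyc
  rw [AddMonoidHom.coe_toMultiplicativeLeft]
  simp only [Function.comp_apply, toAdd_ofAdd, ZMod.lift_coe, zmultiplesHom_apply]
  rw [← ofMul_zpow, toMul_ofMul]

theorem cyc_ofAdd_one (n : ℕ) (h : H) (hn : h ^ n = 1) :
    cyc n h hn (Multiplicative.ofAdd (1 : ZMod n)) = h := by
  have := cyc_ofAdd_intCast n h hn 1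
  simpa using this

theorem cyc_ofAdd_two (n : ℕ) (h : H) (hn : h ^ n = 1) :
    cyc n h hn (Multiplicative.ofAdd (2 : ZMod n)) = h ^ 2 := by
  have := cyc_ofAdd_intCast n h hn 2
  simpa using this

end Cyc

/-! ### the two permutations of the upper half plane -/

section Perm

/-- the action of `SL(2,ℤ)` on `ℍ` as a homomorphism to the permutation group -/
noncomputable def rho : SL(2, ℤ) →* Equiv.Perm ℍ := MulAction.toPermHom (SL(2, ℤ)) ℍ

theorem rho_apply (g : SL(2, ℤ)) (z : ℍ) : rho g z = g • z := rfl

theorem rho_neg_one : rho (-1) = 1 := by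
  ext1 z
  rw [rho_apply, SL_neg_smul, one_smul, Equiv.Perm.one_apply]

theorem S_sq : (S : SL(2, ℤ)) ^ 2 = -1 := by decide

theorem ST_cube : (S * T : SL(2, ℤ)) ^ 3 = -1 := by decide

theorem rho_S_sq : rho S ^ 2 = 1 := by rw [← map_pow, S_sq, rho_neg_one]

theorem rho_ST_cube : rho (S * T) ^ 3 = 1 := by rw [← map_pow, ST_cube, rho_neg_one]

theorem re_S_smul (z : ℍ) : (S • z).re = -z.re / Complex.normSq z := by
  rw [modular_S_smul]
  show ((-(z : ℂ))⁻¹).re = _
  rw [Complex.inv_re, Complex.normSq_neg, Complex.neg_re]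
  rfl

theorem normSq_pos (z : ℍ) : 0 < Complex.normSq (z : ℂ) :=
  Complex.normSq_pos.mpr z.ne_zero

/-- `S` maps the left half plane into the right half plane -/
theorem re_S_smul_pos {z : ℍ} (hz : z.re < 0) : 0 < (S • z).re := by
  rw [re_S_smul]
  exact div_pos (by linarith) (normSq_pos z)

theorem re_S_smul_neg {z : ℍ} (hz : 0 < z.re) : (S • z).re < 0 := by
  rw [re_S_smul]
  exact div_neg_of_neg_of_pos (by linarith) (normSq_pos z)

/-- `S T` maps the right half plane into the left half plane -/
theorem re_ST_smul_neg {z : ℍ} (hz : 0 < z.re) : ((S * T) • z).re < 0 := by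
  rw [mul_smul]
  apply re_S_smul_neg
  rw [re_T_smul]
  linarith

/-- `(S T)⁻¹` maps the right half plane into the left half plane -/
theorem re_ST_inv_smul_neg {z : ℍ} (hz : 0 < z.re) : ((S * T)⁻¹ • z).re < 0 := by
  have h1 : ((S * T)⁻¹ : SL(2, ℤ)) = T⁻¹ * (-S) := by decide
  rw [h1, mul_smul, SL_neg_smul]
  have h2 : ∀ w : ℍ, ((T : SL(2, ℤ))⁻¹ • w).re = w.re - 1 := by
    intro w
    have := re_T_zpow_smul w (-1)
    simpa [sub_eq_add_neg] using this
  rw [h2]
  have := re_S_smul_neg hz
  linarith

end Perm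

/-! ### ping-pong -/

section PingPong

open Monoid.CoprodI
open scoped Pointwise

/-- the orders of the two cyclic factors -/
def ord (b : Bool) : ℕ := cond b 3 2

/-- the two cyclic factors `C₂`, `C₃` -/
abbrev Fac (b : Bool) : Type := Multiplicative (ZMod (ord b))

/-- the two generators in `Perm ℍ` -/
noncomputable def gen (b : Bool) : Equiv.Perm ℍ := cond b (rho (S * T)) (rho S)

theorem gen_pow (b : Bool) : gen b ^ ord b = 1 := by
  cases b
  · exact rho_S_sq
  · exact rho_ST_cube

/-- the two cyclic subgroups of `Perm ℍ` -/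
noncomputable def facHom (b : Bool) : Fac b →* Equiv.Perm ℍ := cyc (ord b) (gen b) (gen_pow b)

/-- the ping-pong sets: the right half plane for `C₂`, the left half plane for `C₃` -/
def pp (b : Bool) : Set ℍ := cond b {z | z.re < 0} {z | 0 < z.re}

theorem pp_nonempty (b : Bool) : (pp b).Nonempty := by
  cases b
  · refine ⟨UpperHalfPlane.mk ⟨1, 1⟩ (by simp), ?_⟩
    show (0 : ℝ) < (UpperHalfPlane.mk ⟨1, 1⟩ _).re
    simp [UpperHalfPlane.re]
  · refine ⟨UpperHalfPlane.mk ⟨-1, 1⟩ (by simp), ?_⟩
    show (UpperHalfPlane.mk ⟨-1, 1⟩ _).re < (0 : ℝ)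
    simp [UpperHalfPlane.re]

theorem pp_disjoint : Pairwise (Function.onFun Disjoint pp) := by
  intro i j hij
  rw [Function.onFun, Set.disjoint_left]
  intro z hi hj
  cases i <;> cases j
  · exact hij rfl
  · exact lt_asymm (show (0 : ℝ) < z.re from hi) (show z.re < 0 from hj)
  · exact lt_asymm (show z.re < 0 from hi) (show (0 : ℝ) < z.re from hj)
  · exact hij rfl

theorem facHom_smul_subset :
    Pairwise fun i j => ∀ h : Fac i, h ≠ 1 → facHom i h • pp j ⊆ pp i := by
  intro i j hij h hh
  rintro _ ⟨z, hz, rfl⟩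
  cases i <;> cases j
  · exact absurd rfl hij
  · -- `C₂`: `S` maps the left half plane to the right half plane
    have key : ∀ k : ZMod 2, Multiplicative.ofAdd k ≠ (1 : Fac false) →
        0 < ((facHom false (Multiplicative.ofAdd k)) z).re := by
      intro k hk
      fin_cases k
      · exact absurd rfl hk
      · have h1 : facHom false (Multiplicative.ofAdd (1 : ZMod 2)) = rho S :=
          cyc_ofAdd_one 2 (gen false) (gen_pow false)
        show 0 < ((facHom false (Multiplicative.ofAdd (1 : ZMod 2))) z).re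
        rw [h1, rho_apply]
        exact re_S_smul_pos hz
    exact key (Multiplicative.toAdd h) hh
  · -- `C₃`: `(S T)^{±1}` map the right half plane to the left half plane
    have key : ∀ k : ZMod 3, Multiplicative.ofAdd k ≠ (1 : Fac true) →
        ((facHom true (Multiplicative.ofAdd k)) z).re < 0 := by
      intro k hk
      fin_cases k
      · exact absurd rfl hk
      · have h1 : facHom true (Multiplicative.ofAdd (1 : ZMod 3)) = rho (S * T) :=
          cyc_ofAdd_one 3 (gen true) (gen_pow true)
        show ((facHom true (Multiplicative.ofAdd (1 : ZMod 3))) z).re < 0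
        rw [h1, rho_apply]
        exact re_ST_smul_neg hz
      · have h1 : facHom true (Multiplicative.ofAdd (2 : ZMod 3)) = rho (S * T)⁻¹ := by
          have h2 : facHom true (Multiplicative.ofAdd (2 : ZMod 3)) = rho (S * T) ^ 2 :=
            cyc_ofAdd_two 3 (gen true) (gen_pow true)
          rw [h2, map_inv, eq_inv_iff_mul_eq_one, ← pow_succ, rho_ST_cube]
        show ((facHom true (Multiplicative.ofAdd (2 : ZMod 3))) z).re < 0
        rw [h1, rho_apply]
        exact re_ST_inv_smul_neg hz
    exact key (Multiplicative.toAdd h) hh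
  · exact absurd rfl hij

theorem card_fac : 3 ≤ Cardinal.mk Bool ∨ ∃ i, 3 ≤ Cardinal.mk (Fac i) := by
  refine Or.inr ⟨true, ?_⟩
  have : Cardinal.mk (Fac true) = 3 := by
    show Cardinal.mk (Multiplicative (ZMod 3)) = 3
    rw [Cardinal.mk_fintype]
    rfl
  rw [this]

/-- **ping-pong**: `C₂ * C₃ → Perm ℍ` is injective -/
theorem lift_facHom_injective : Function.Injective (lift facHom) :=
  lift_injective_of_ping_pong facHom card_fac pp pp_nonempty pp_disjoint facHom_smul_subset

theorem lift_of_one (b : Bool) :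
    lift facHom (of (M := Fac) (i := b) (Multiplicative.ofAdd (1 : ZMod (ord b)))) = gen b := by
  rw [lift_of]
  exact cyc_ofAdd_one (ord b) (gen b) (gen_pow b)

theorem rho_mem_range (g : SL(2, ℤ)) : rho g ∈ (lift facHom).range := by
  have hS : rho S ∈ (lift facHom).range := ⟨_, lift_of_one false⟩
  have hU : rho (S * T) ∈ (lift facHom).range := ⟨_, lift_of_one true⟩
  have hT : rho T ∈ (lift facHom).range := by
    have : rho T = (rho S)⁻¹ * rho (S * T) := by rw [map_mul, inv_mul_cancel_left]
    rw [this]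
    exact mul_mem (inv_mem hS) hU
  have hle : (⊤ : Subgroup SL(2, ℤ)) ≤ (lift facHom).range.comap rho := by
    rw [← SpecialLinearGroup.SL2Z_generators, Subgroup.closure_le]
    rintro x (rfl | rfl)
    · exact hS
    · exact hT
  exact hle (Subgroup.mem_top g)

/-- the homomorphism `SL(2,ℤ) → C₂ * C₃` -/
noncomputable def toCoprod : SL(2, ℤ) →* Monoid.CoprodI Fac :=
  (MonoidHom.ofInjective lift_facHom_injective).symm.toMonoidHom.comp
    (rho.codRestrict (lift facHom).range rho_mem_range)

theorem lift_toCoprod (g : SL(2, ℤ)) : lift facHom (toCoprod g) = rho g := by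
  have h := (MonoidHom.ofInjective lift_facHom_injective).apply_symm_apply
    (rho.codRestrict (lift facHom).range rho_mem_range g)
  have h2 := congrArg Subtype.val h
  rw [MonoidHom.ofInjective_apply] at h2
  exact h2

theorem toCoprod_S : toCoprod S = of (M := Fac) (i := false) (Multiplicative.ofAdd (1 : ZMod 2)) := by
  apply lift_facHom_injective
  rw [lift_toCoprod]
  exact (lift_of_one false).symm

theorem toCoprod_ST : toCoprod (S * T) = of (M := Fac) (i := true) (Multiplicative.ofAdd (1 : ZMod 3)) := by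
  apply lift_facHom_injective
  rw [lift_toCoprod]
  exact (lift_of_one true).symm

end PingPong

/-! ### the universal property -/

section Universal

variable {H : Type*} [Group H]

/-- **`PSL(2,ℤ) = C₂ * C₃`**: elements `hS`, `hU` with `hS ^ 2 = 1`, `hU ^ 3 = 1` are the images
of `S`, `S * T` under a homomorphism from `SL(2,ℤ)`. -/
theorem exists_hom_of_relations (hS hU : H) (h2 : hS ^ 2 = 1) (h3 : hU ^ 3 = 1) :
    ∃ f : SL(2, ℤ) →* H, f S = hS ∧ f (S * T) = hU := by
  have hh : ∀ b : Bool, (cond b hU hS) ^ ord b = 1 := by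
    intro b
    cases b
    · exact h2
    · exact h3
  refine ⟨(Monoid.CoprodI.lift (M := Fac) fun b => cyc (ord b) (cond b hU hS) (hh b)).comp toCoprod,
    ?_, ?_⟩
  · rw [MonoidHom.comp_apply, toCoprod_S, Monoid.CoprodI.lift_of]
    exact cyc_ofAdd_one 2 hS (hh false)
  · rw [MonoidHom.comp_apply, toCoprod_ST, Monoid.CoprodI.lift_of]
    exact cyc_ofAdd_one 3 hU (hh true)

/-- a homomorphism from `SL(2,ℤ)` is determined by the images of `S` and `S * T` -/
theorem hom_ext_ST {f g : SL(2, ℤ) →* H} (hS : f S = g S) (hU : f (S * T) = g (S * T)) :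
    f = g := by
  have hT : f T = g T := by
    have h1 : ∀ k : SL(2, ℤ) →* H, k T = (k S)⁻¹ * k (S * T) := by
      intro k
      rw [map_mul, inv_mul_cancel_left]
    rw [h1 f, h1 g, hS, hU]
  apply MonoidHom.eq_of_eqOn_dense SpecialLinearGroup.SL2Z_generators
  rintro x (rfl | rfl)
  · exact hS
  · exact hT

/-- the homomorphism of `exists_hom_of_relations` kills `-1` -/
theorem map_neg_one_of_relations {f : SL(2, ℤ) →* H} (h2 : f S ^ 2 = 1) : f (-1) = 1 := by
  rw [← S_sq, map_pow, h2]

end Universal

end Fermat.Agent.S41.PD.Pres
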